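/-
GATE-B / GB-P5-1PT-STEP2 (helper49): **the analytic binders of `LowerTw.exists_lower_point` at the
level where one Taylor–Wiles character has been dropped** (`π := TwSkip.piSkip`):

* `hbnd_of_squarefree` : (BND) at ANY `GammaH θ''` of squarefree level with `Δ''` of `p`-power
  exponent (`Boundary.isLoc_mem_parabolicHoms` + `Mat.starStar_of_squarefree`);
* `pow_eq_one_skip`, `hbnd_skip` : the same at `θ'' = piSkip ∘ Theta`;
* `hpow_of_exp`, `hpow_skip` : `χ_{θ''}(d ^ p ^ a) = 1`;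
* `exists_tw_skip_genH` : helper44's `TwSkip.exists_tw_skip` in the `genH` binder form of
  `UqOne.twLoc` / `LowerTw.exists_lower_point`;
* `dvd_skip`, `not_sq_dvd_skip` : the dropped prime exactly divides the forms level of the lower
  level.
-/
import Mathlib
import Fermat.Agent.GB.P5.TwSkip
import Fermat.Agent.GB.B7.TwU
import Fermat.Agent.GB.B3.Boundary.MatPlug

set_option autoImplicit false
set_option linter.unusedSectionVars false
set_option linter.style.haveILetI false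

noncomputable section

open scoped MatrixGroups
open CongruenceSubgroup Matrix Matrix.SpecialLinearGroup ModularCurve.Period CuspForm
open Fermat.Agent.S16_helper49 Fermat.Agent.GM.B Fermat.Agent.GM.EisClass
open Fermat.Agent.GB.B3 Fermat.Agent.GB.B3.EisGamma0 Fermat.Agent.GB.B3.GamH
open Fermat.Agent.GB.B3.RealLevel Fermat.Agent.GB.B3.HeckeActH Fermat.Agent.GB.B3.StepInst
open Fermat.Agent.GJ.J2.ZStruct Fermat.Agent.GJ.J2.Lat
open Fermat.Agent.GB.B4.Twist.Asm Fermat.Agent.GB.B4.Twist.TwFinal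
open Fermat.Agent.GB.B3.Tower Fermat.Agent.GB.B3.TWChars Fermat.Agent.GB.B3.FinalTW
open Fermat.Agent.GB.B4.Twist.TwInst Fermat.Agent.GB.B7.TwU
open Fermat.Agent.GB.B3.Boundary Fermat.Agent.GB.B3.Boundary.Mat
open Fermat.Agent.GB.P5.TwSkip

namespace Fermat.Agent.GB.P5.LowerInputs

/-! ### (BND) and the exponent at a generic lower level -/

section BND

variable {N : ℕ} [NeZero N] (Sy : Symbols N) {Δ'' : Type} [CommGroup Δ''] [Finite Δ'']
  (θ'' : (ZMod N)ˣ →* Δ'')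
  {O : Type} [CommRing O] [IsDomain O] [IsPrincipalIdealRing O] [IsLocalRing O]
  [IsAdicComplete (IsLocalRing.maximalIdeal O) O] [Module.IsTorsionFree ℤ O]
  (𝔪 : Ideal (Sy.𝕋 O)) [𝔪.IsMaximal] {p : ℕ} {ϖ : O} {s0 : Sy.ι₁}
  (h : Plug.Hyp Sy 𝔪 p ϖ s0)

include h in
/-- **(BND) at a squarefree level, any character with values in a group of `p`-power exponent** -/
theorem hbnd_of_squarefree (hN : Squarefree N) (hp : p.Prime) (a : ℕ)
    (hexp : ∀ δ : Δ'', δ ^ p ^ a = 1)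
    (y : Additive (GammaH θ'') →+ O) (hy : IsLoc (actH Sy O θ'') 𝔪 y) :
    y ∈ parabolicHoms O (GammaH θ'') O := by
  haveI := Sy.factℓ s0
  have hpϖ : ϖ ∣ (p : O) := Ideal.mem_span_singleton.1 h.hpϖ
  have hϖm : ϖ ∈ IsLocalRing.maximalIdeal O := by
    rw [h.hmax]
    exact Ideal.mem_span_singleton_self ϖ
  exact isLoc_mem_parabolicHoms θ'' Sy ϖ s0 (starStar_of_squarefree θ'' hN (Sy.hℓN s0)) p a hp
    hexp hpϖ (hsep_of_isLocalRing ϖ hϖm) 𝔪 h.hτ hy

omit [NeZero N] [Finite Δ''] in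
/-- the diamonds have `p`-power order at a level of `p`-power exponent -/
theorem hpow_of_exp (a : ℕ) (hexp : ∀ δ : Δ'', δ ^ p ^ a = 1) (d : Gamma0 N) :
    chi θ'' (d ^ p ^ a) = 1 := by
  rw [map_pow]
  exact hexp _

end BND

/-! ### at `piSkip ∘ Theta` -/

section Skip

/-- the exponent of the group of the lower level -/
theorem pow_eq_one_skip (p : ℕ) (e : ℕ → ℕ) (i₀ j : ℕ)
    (δ : ∀ i' : Fin (j - 1), Multiplicative (ZMod (p ^ e (skip i₀ i')))) :
    δ ^ p ^ (∑ i' : Fin (j - 1), e (skip i₀ i')) = 1 :=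
  pow_eq_one_Δs p (fun n => e (skip i₀ n)) (j - 1) δ

variable {N p K : ℕ} [NeZero N] {r e N' : ℕ → ℕ} (H : PrimeData N p K r e N')
  (Sy : Symbols N)
  {O : Type} [CommRing O] [IsDomain O] [IsPrincipalIdealRing O] [IsLocalRing O]
  [IsAdicComplete (IsLocalRing.maximalIdeal O) O] [Module.IsTorsionFree ℤ O]
  (𝔪 : Ideal (Sy.𝕋 O)) [𝔪.IsMaximal] {ϖ : O} {s0 : Sy.ι₁}
  (h : Plug.Hyp Sy 𝔪 p ϖ s0)

include h in
/-- **(BND) at the level where the `i₀`-th Taylor–Wiles character has been dropped** -/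
theorem hbnd_skip (hN : Squarefree N) (hp : p.Prime) (i₀ j : ℕ) (hi₀ : i₀ < j)
    (y : Additive (GammaH ((piSkip (Δs p e) i₀ j hi₀).comp (Theta (Δs p e) H.psi j))) →+ O)
    (hy : IsLoc (actH Sy O ((piSkip (Δs p e) i₀ j hi₀).comp (Theta (Δs p e) H.psi j))) 𝔪 y) :
    y ∈ parabolicHoms O
      (GammaH ((piSkip (Δs p e) i₀ j hi₀).comp (Theta (Δs p e) H.psi j))) O := by
  haveI : ∀ i' : Fin (j - 1), NeZero (p ^ e (skip i₀ i')) :=
    fun _ => ⟨pow_ne_zero _ hp.ne_zero⟩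
  haveI : ∀ i' : Fin (j - 1), Finite (Multiplicative (ZMod (p ^ e (skip i₀ i')))) := fun i' =>
    Finite.of_equiv (ZMod (p ^ e (skip i₀ i'))) Multiplicative.ofAdd
  haveI : Finite ((i' : Fin (j - 1)) → Multiplicative (ZMod (p ^ e (skip i₀ i')))) :=
    Pi.finite
  exact hbnd_of_squarefree Sy _ 𝔪 h hN hp (∑ i' : Fin (j - 1), e (skip i₀ i'))
    (pow_eq_one_skip p e i₀ j) y hy

theorem hpow_skip (i₀ j : ℕ) (hi₀ : i₀ < j) (d : Gamma0 N) :
    chi ((piSkip (Δs p e) i₀ j hi₀).comp (Theta (Δs p e) H.psi j))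
      (d ^ p ^ (∑ i' : Fin (j - 1), e (skip i₀ i'))) = 1 :=
  hpow_of_exp _ _ (pow_eq_one_skip p e i₀ j) d

end Skip

/-! ### the twist ring homomorphism in the `genH` form -/

section Tw

variable {N p K : ℕ} [NeZero N] {r e N' : ℕ → ℕ} (H : PrimeData N p K r e N')
  {N'' : ℕ} [NeZero N''] (hp : p.Prime) (hp2 : p ≠ 2) (j : ℕ) (hj : j ≤ K)
  (i₀ : ℕ) (hi₀ : i₀ < j)
  (hN'' : N'' = N * ∏ i' : Fin (j - 1), r (skip i₀ i'))
  (S : Set ℕ) (hS : ∀ q : ℕ, q.Prime → q ∣ N'' → q ∈ S)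
  {O : Type*} [CommRing O] [IsDomain O] [CharZero O]
  (dℓ : PrimesOff S → Gamma0 N)
  (hdℓ : ∀ (l : PrimesOff S) (u : (ZMod N)ˣ), (u : ZMod N) = ((l.1 : ℕ) : ZMod N) →
    chi (Theta (Δs p e) H.psi j) (dℓ l) ^ 2 * Theta (Δs p e) H.psi j u = 1)

include hp hp2 hj hdℓ hN'' hS in
/-- **helper44's `exists_tw_skip` in the `genH` binder form** -/
theorem exists_tw_skip_genH :
    ∃ tw : ↥(heckeAlgebra N'' 2 S) →+* Module.End O ↥(parabolicHoms O
        (GammaH ((piSkip (Δs p e) i₀ j hi₀).comp (Theta (Δs p e) H.psi j))) O),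
      ∀ (l : PrimesOff S) (v : ↥(parabolicHoms O
          (GammaH ((piSkip (Δs p e) i₀ j hi₀).comp (Theta (Δs p e) H.psi j))) O)),
        ((tw (formsGenS N'' S l) v : ↥(parabolicHoms O
            (GammaH ((piSkip (Δs p e) i₀ j hi₀).comp (Theta (Δs p e) H.psi j))) O)) :
            Additive (GammaH ((piSkip (Δs p e) i₀ j hi₀).comp (Theta (Δs p e) H.psi j))) →+ O)
          = diaH ((piSkip (Δs p e) i₀ j hi₀).comp (Theta (Δs p e) H.psi j)) O (dℓ l)
              (genH ((piSkip (Δs p e) i₀ j hi₀).comp (Theta (Δs p e) H.psi j)) O l.1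
                (v : Additive (GammaH
                  ((piSkip (Δs p e) i₀ j hi₀).comp (Theta (Δs p e) H.psi j))) →+ O)) := by
  obtain ⟨tw, htw, -⟩ := exists_tw_skip (O := O) H hp hp2 j hj i₀ hi₀ hN'' S hS dℓ hdℓ
  refine ⟨tw, fun l v => ?_⟩
  rw [htw l v, genH_of_not_dvd _ O l.1 (not_dvd_level S hS (dvd_level_skip (r := r) j i₀ hN'') l)]

end Tw

/-! ### the dropped prime exactly divides the lower forms level -/

section Level

variable {N p K : ℕ} [NeZero N] {r e N' : ℕ → ℕ} (H : PrimeData N p K r e N')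
  {N'' : ℕ} (j : ℕ) (hj : j ≤ K) (i₀ : ℕ) (hi₀ : i₀ < j)
  (hN'' : N'' = N * ∏ i' : Fin (j - 1), r (skip i₀ i'))

include H hj hi₀ hN'' in
theorem dvd_skip : r i₀ ∣ N'' := by
  rw [hN'']
  exact Dvd.dvd.mul_right (H.dvd i₀ (lt_of_lt_of_le hi₀ hj)) _

include H hj hi₀ hN'' in
theorem not_sq_dvd_skip : ¬ r i₀ ^ 2 ∣ N'' := by
  have hi₀K : i₀ < K := lt_of_lt_of_le hi₀ hj
  have hpr : (r i₀).Prime := H.prime i₀ hi₀K
  intro hdvd
  rw [hN'', H.fact i₀ hi₀K, pow_two, mul_assoc] at hdvd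
  have h1 : r i₀ ∣ N' i₀ * ∏ i' : Fin (j - 1), r (skip i₀ i') :=
    Nat.dvd_of_mul_dvd_mul_left hpr.pos hdvd
  rcases (Nat.Prime.dvd_mul hpr).mp h1 with h2 | h2
  · exact (Nat.Prime.coprime_iff_not_dvd hpr).mp (H.cop i₀ hi₀K) h2
  · rw [Prime.dvd_finsetProd_iff (Nat.Prime.prime hpr)] at h2
    obtain ⟨i', -, hi'⟩ := h2
    have hlt : skip i₀ i' < K := lt_of_lt_of_le (skip_lt hi₀ i'.2) hj
    have heq : r i₀ = r (skip i₀ i') :=
      (Nat.prime_dvd_prime_iff_eq hpr (H.prime _ hlt)).mp hi'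
    exact H.inj i₀ (skip i₀ i') hi₀K hlt (skip_ne i₀ i').symm heq

end Level

end Fermat.Agent.GB.P5.LowerInputs
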