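/-
GATE-B / GB-P5-1PT-STEP2 (helper49): **the two levels `Γ_H = GammaH θ ≤ Γ_{H''} = GammaH (π ∘ θ)`
as `O`-linear Hecke modules.**

`resLin : Hom(Γ_{H''}, O) → Hom(Γ_H, O)` and `coresLin : Hom(Γ_H, O) → Hom(Γ_{H''}, O)` are the
`O`-linear forms of helper2's `GamH.resHH`, `GamH.coresHH`; they are equivariant for the Hecke symbols
(`actH`), for every `T_ℓ` (`ℓ ∤ N`), for the diamonds `diaLin`, preserve the `𝔪`-primary parts, and
`res ∘ cores = ∑_δ ⟨rep δ⟩`, `cores ∘ res = |ker π|`.  When `ker π` is generated by `χ_θ(d0)`,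
`res ∘ cores = ∑_{j < q} ⟨d0⟩^j`.
-/
import Mathlib
import Fermat.Agent.GB.B3.StepInst
import Fermat.Agent.GB.B3.LocTransport

set_option autoImplicit false
set_option linter.unusedSectionVars false
set_option linter.style.haveILetI false

open scoped MatrixGroups
open CongruenceSubgroup

namespace Fermat.Agent.GB.P5.LowerHom

open Fermat.Agent.GM.B Fermat.Agent.GB.B3 Fermat.Agent.GB.B3.EisGamma0
  Fermat.Agent.GB.B3.CycInst Fermat.Agent.GB.B3.RealLevel Fermat.Agent.GB.B3.HeckeActH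
  Fermat.Agent.GB.B3.StepInst

variable {N : ℕ} (O : Type) [CommRing O]
  {Δ Δ'' : Type} [CommGroup Δ] [CommGroup Δ''] (θ : (ZMod N)ˣ →* Δ) (π : Δ →* Δ'')

/-- restriction `Hom(Γ_{H''}, O) → Hom(Γ_H, O)`, `O`-linear -/
noncomputable def resLin :
    (Additive (GamH.GammaH (π.comp θ)) →+ O) →ₗ[O] (Additive (GamH.GammaH θ) →+ O) :=
  opLin O (resKK (chi θ) π embR)

theorem resLin_apply (φ : Additive (GamH.GammaH (π.comp θ)) →+ O) :
    resLin O θ π φ = GamH.resHH θ π O φ := rfl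

theorem resLin_dia (d : Gamma0 N) (φ : Additive (GamH.GammaH (π.comp θ)) →+ O) :
    resLin O θ π (diaLin O (π.comp θ) d φ) = diaLin O θ d (resLin O θ π φ) := by
  rw [resLin_apply, resLin_apply, diaLin_apply, diaLin_apply]
  exact (GamH.diaH_resHH θ π d φ).symm

theorem resLin_TH {ℓ : ℕ} [Fact ℓ.Prime] (hℓN : ¬ ℓ ∣ N)
    (φ : Additive (GamH.GammaH (π.comp θ)) →+ O) :
    resLin O θ π (GamH.TH (π.comp θ) O hℓN φ) = GamH.TH θ O hℓN (resLin O θ π φ) := by
  rw [resLin_apply, resLin_apply]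
  exact (GamH.TH_resHH θ π hℓN φ).symm

theorem resLin_UH {r : ℕ} [NeZero r] (hrN : r ∣ N)
    (φ : Additive (GamH.GammaH (π.comp θ)) →+ O) :
    resLin O θ π (GamH.UH (π.comp θ) O hrN φ) = GamH.UH θ O hrN (resLin O θ π φ) := by
  rw [resLin_apply, resLin_apply]
  exact (GamH.UH_resHH θ π hrN φ).symm

section Symbols

variable [NeZero N] (Sy : Symbols N)

theorem resLin_act (s : Sy.𝕋 O) (φ : Additive (GamH.GammaH (π.comp θ)) →+ O) :
    resLin O θ π (actH Sy O (π.comp θ) s φ) = actH Sy O θ s (resLin O θ π φ) :=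
  resHH_act Sy O θ π s φ

theorem isLoc_resLin (𝔪 : Ideal (Sy.𝕋 O)) {φ : Additive (GamH.GammaH (π.comp θ)) →+ O}
    (hφ : IsLoc (actH Sy O (π.comp θ)) 𝔪 φ) : IsLoc (actH Sy O θ) 𝔪 (resLin O θ π φ) :=
  LocTransport.isLoc_map (actH Sy O (π.comp θ)) (actH Sy O θ) (resLin O θ π).toAddMonoidHom
    (fun t x => resLin_act O θ π Sy t x) 𝔪 hφ

end Symbols

section Cores

variable [Fintype π.ker] (rep : π.ker → Gamma0 N) (hrep : ∀ δ : π.ker, chi θ (rep δ) = (δ : Δ))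

/-- transfer `Hom(Γ_H, O) → Hom(Γ_{H''}, O)`, `O`-linear -/
noncomputable def coresLin :
    (Additive (GamH.GammaH θ) →+ O) →ₗ[O] (Additive (GamH.GammaH (π.comp θ)) →+ O) :=
  opLin O (coresKK (chi θ) π rep hrep embR)

theorem coresLin_apply (ψ : Additive (GamH.GammaH θ) →+ O) :
    coresLin O θ π rep hrep ψ = GamH.coresHH θ π rep hrep O ψ := rfl

theorem coresLin_dia (d : Gamma0 N) (ψ : Additive (GamH.GammaH θ) →+ O) :
    coresLin O θ π rep hrep (diaLin O θ d ψ)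
      = diaLin O (π.comp θ) d (coresLin O θ π rep hrep ψ) := by
  rw [coresLin_apply, coresLin_apply, diaLin_apply, diaLin_apply]
  exact GamH.coresHH_diaH θ π rep hrep d ψ

theorem coresLin_TH {ℓ : ℕ} [Fact ℓ.Prime] (hℓN : ¬ ℓ ∣ N) (ψ : Additive (GamH.GammaH θ) →+ O) :
    coresLin O θ π rep hrep (GamH.TH θ O hℓN ψ)
      = GamH.TH (π.comp θ) O hℓN (coresLin O θ π rep hrep ψ) := by
  rw [coresLin_apply, coresLin_apply]
  exact GamH.coresHH_TH θ π rep hrep hℓN ψ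

/-- **`res ∘ cores = ∑_δ ⟨rep δ⟩`** -/
theorem resLin_coresLin (ψ : Additive (GamH.GammaH θ) →+ O) :
    resLin O θ π (coresLin O θ π rep hrep ψ) = ∑ δ : π.ker, diaLin O θ (rep δ) ψ := by
  rw [resLin_apply, coresLin_apply, GamH.resHH_coresHH]
  rfl

/-- **`cores ∘ res = |ker π|`** -/
theorem coresLin_resLin (φ : Additive (GamH.GammaH (π.comp θ)) →+ O) :
    coresLin O θ π rep hrep (resLin O θ π φ) = Fintype.card π.ker • φ := by
  rw [resLin_apply, coresLin_apply, GamH.coresHH_resHH]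

section Symbols

variable [NeZero N] (Sy : Symbols N)

theorem coresLin_act (s : Sy.𝕋 O) (ψ : Additive (GamH.GammaH θ) →+ O) :
    coresLin O θ π rep hrep (actH Sy O θ s ψ)
      = actH Sy O (π.comp θ) s (coresLin O θ π rep hrep ψ) :=
  coresHH_act Sy O θ π rep hrep s ψ

theorem isLoc_coresLin (𝔪 : Ideal (Sy.𝕋 O)) {ψ : Additive (GamH.GammaH θ) →+ O}
    (hψ : IsLoc (actH Sy O θ) 𝔪 ψ) :
    IsLoc (actH Sy O (π.comp θ)) 𝔪 (coresLin O θ π rep hrep ψ) :=
  LocTransport.isLoc_map (actH Sy O θ) (actH Sy O (π.comp θ))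
    (coresLin O θ π rep hrep).toAddMonoidHom
    (fun t x => coresLin_act O θ π rep hrep Sy t x) 𝔪 hψ

end Symbols

/-- a diamond whose character value lies in `ker π`... acts on `Hom(Γ_H, O)` as a power of `⟨d0⟩`
when `χ_θ(d0)` generates `ker π`: **`res ∘ cores = ∑_{j < q} ⟨d0⟩ ^ j`** -/
theorem resLin_coresLin_eq_sum_pow (q : ℕ) (d0 : Gamma0 N) (hd0 : chi θ d0 ∈ π.ker)
    (hord : orderOf (chi θ d0) = q) (hcard : Fintype.card π.ker = q)
    (ψ : Additive (GamH.GammaH θ) →+ O) :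
    resLin O θ π (coresLin O θ π rep hrep ψ)
      = ∑ j ∈ Finset.range q, (diaLin O θ d0 ^ j) ψ := by
  exact resKK_coresKK_eq_sum_pow (chi θ) π rep hrep O q d0 hd0 hord hcard ψ

end Cores

end Fermat.Agent.GB.P5.LowerHom
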