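/-
GATE-B / GB-P5-1PT-STEP2 (helper49): **a ring of operators commuting with a family of diamonds acts
on the coinvariants** `FamCoinv D₀ c = P / ∑_v (D₀ v - c v) P` (helper24's `ChiLevelMulti.indF`, as a
ring homomorphism), and the `O ⊗ A`-linear extension (`ImageRing.twO`) is compatible with it:
an element of `O ⊗ A` killing `P` kills the coinvariants (`ker_twO_le`), so the image ring of `A` in
`End_O P` acts on the coinvariants (`ImageRing.actOf`).
-/
import Mathlib
import Fermat.Agent.GB.B3.ChiLevelMulti
import Fermat.Agent.GB.B4.Datum.ImageRing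

set_option autoImplicit false
set_option linter.unusedSectionVars false

noncomputable section

namespace Fermat.Agent.GB.P5.IndRing

open TensorProduct Fermat.Agent.GB.B3.ChiLevelMulti Fermat.Agent.GB.B4.Datum.ImageRing

variable {O : Type} [CommRing O] [IsLocalRing O] {P : Type} [AddCommGroup P] [Module O P]
  {ι : Type*} (D₀ : ι → Module.End O P) (c : ι → O)
  {A : Type} [CommRing A] (ρ : A →+* Module.End O P)
  (hρ : ∀ t v, ρ t * D₀ v = D₀ v * ρ t)

/-- the action induced on the coinvariants -/
def indRing : A →+* Module.End O (FamCoinv D₀ c) where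
  toFun t := indF D₀ c (ρ t) (hρ t)
  map_one' := by
    refine LinearMap.ext fun y => ?_
    obtain ⟨x, rfl⟩ := fmk_surjective D₀ c y
    rw [indF_fmk, map_one]
    rfl
  map_mul' t t' := by
    refine LinearMap.ext fun y => ?_
    obtain ⟨x, rfl⟩ := fmk_surjective D₀ c y
    rw [indF_fmk, map_mul, Module.End.mul_apply, Module.End.mul_apply, indF_fmk, indF_fmk]
  map_zero' := by
    refine LinearMap.ext fun y => ?_
    obtain ⟨x, rfl⟩ := fmk_surjective D₀ c y
    rw [indF_fmk, map_zero]
    rfl
  map_add' t t' := by
    refine LinearMap.ext fun y => ?_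
    obtain ⟨x, rfl⟩ := fmk_surjective D₀ c y
    rw [indF_fmk, map_add, LinearMap.add_apply, LinearMap.add_apply, indF_fmk, indF_fmk]
    rfl

@[simp] theorem indRing_fmk (t : A) (x : P) :
    indRing D₀ c ρ hρ t (fmk D₀ c x) = fmk D₀ c (ρ t x) := rfl

/-- the `O ⊗ A`-linear extensions are compatible with the projection -/
theorem twO_indRing_fmk (a : O ⊗[ℤ] A) (x : P) :
    twO O (indRing D₀ c ρ hρ) a (fmk D₀ c x) = fmk D₀ c (twO O ρ a x) := by
  induction a using TensorProduct.induction_on with
  | zero =>
    rw [map_zero, map_zero, LinearMap.zero_apply, LinearMap.zero_apply]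
    exact (Submodule.Quotient.mk_zero _).symm
  | tmul r t =>
    rw [twO_tmul, twO_tmul, LinearMap.smul_apply, LinearMap.smul_apply, indRing_fmk]
    exact (Submodule.Quotient.mk_smul _ _ _).symm
  | add a b ha hb =>
    rw [map_add, map_add, LinearMap.add_apply, LinearMap.add_apply, ha, hb]
    exact (Submodule.Quotient.mk_add _).symm

/-- an element of `O ⊗ A` killing `P` kills the coinvariants -/
theorem ker_twO_le : RingHom.ker (twO O ρ) ≤ RingHom.ker (twO O (indRing D₀ c ρ hρ)) := by
  intro a ha
  rw [RingHom.mem_ker] at ha ⊢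
  refine LinearMap.ext fun y => ?_
  obtain ⟨x, rfl⟩ := fmk_surjective D₀ c y
  rw [twO_indRing_fmk, ha, LinearMap.zero_apply, LinearMap.zero_apply]
  exact Submodule.Quotient.mk_zero _

end Fermat.Agent.GB.P5.IndRing
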