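/-
GATE-B / GB-P5-1PT-STEP2 (helper49): **level lowering of a point at a trivial diamond**, abstract
form (Mathlib only).

`T` acts on `M` (`a`), `D` is an endomorphism of `M` commuting with `T` (the diamond at a
Taylor–Wiles prime), `T″` acts on `Y` (the module of the level where that diamond has been dropped),
`res : Y → M`, `cores : M → Y` with `res ∘ cores ≡ n` modulo `(D - 1) M` and `res` equivariant on the
generators `τ″ i ↦ τ i`.  If `M / (D - 1) M` has no `n`-torsion, then every point `θ` of `T`
occurring in `M / (D - 1) M` (i.e. killing the annihilator of that quotient) gives a point `θ″` of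
`T″` with `θ″ (τ″ i) = θ (τ i)`.

No faithfulness, no torsion-freeness of `Y`, no eigenvectors.
-/
import Mathlib

set_option autoImplicit false

namespace Fermat.Agent.GB.P5.OccLower

open MvPolynomial

variable {O : Type*} [CommRing O]
  {T T'' : Type*} [CommRing T] [Algebra O T] [CommRing T''] [Algebra O T'']
  {M Y : Type*} [AddCommGroup M] [Module O M] [AddCommGroup Y] [Module O Y]

section Stable

variable (a : T →ₐ[O] Module.End O M) (D : Module.End O M) (haD : ∀ t, a t * D = D * a t)

include haD in
/-- `T` preserves `(D - 1) M` -/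
theorem act_mem_range (t : T) {m : M} (hm : m ∈ LinearMap.range (D - 1)) :
    a t m ∈ LinearMap.range (D - 1) := by
  obtain ⟨m', rfl⟩ := hm
  refine ⟨a t m', ?_⟩
  have h := congrArg (fun f : Module.End O M => f m') (haD t)
  simp only [Module.End.mul_apply] at h
  rw [LinearMap.sub_apply, LinearMap.sub_apply, Module.End.one_apply, Module.End.one_apply,
    map_sub, h]

end Stable

section Main

variable (a : T →ₐ[O] Module.End O M) (a'' : T'' →ₐ[O] Module.End O Y)
  (D : Module.End O M) (haD : ∀ t, a t * D = D * a t)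
  (n : O) (htf : ∀ m : M, n • m ∈ LinearMap.range (D - 1) → m ∈ LinearMap.range (D - 1))
  {ι : Type*} (τ : ι → T) (τ'' : ι → T'')
  (res : Y →ₗ[O] M) (cores : M →ₗ[O] Y)
  (hrc : ∀ m, res (cores m) - n • m ∈ LinearMap.range (D - 1))
  (hres : ∀ i y, res (a'' (τ'' i) y) = a (τ i) (res y))

include hres in
/-- `res` is equivariant for every polynomial in the generators -/
theorem res_aeval (P : MvPolynomial ι O) (y : Y) :
    res (a'' (aeval τ'' P) y) = a (aeval τ P) (res y) := by
  induction P using MvPolynomial.induction_on generalizing y with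
  | C c =>
    rw [aeval_C, aeval_C, AlgHom.commutes, AlgHom.commutes, Module.algebraMap_end_apply,
      Module.algebraMap_end_apply, map_smul]
  | add p q hp hq =>
    rw [map_add, map_add, map_add, map_add, LinearMap.add_apply, LinearMap.add_apply, map_add,
      hp, hq]
  | mul_X p i hp =>
    have e1 : aeval τ'' (p * X i) = aeval τ'' p * τ'' i := by rw [map_mul, aeval_X]
    have e2 : aeval τ (p * X i) = aeval τ p * τ i := by rw [map_mul, aeval_X]
    rw [e1, e2, map_mul, map_mul, Module.End.mul_apply, Module.End.mul_apply, hp, hres]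

include haD htf hrc hres in
/-- a relation among the `τ″ i` on `Y` holds among the `τ i` on `M / (D - 1) M` -/
theorem aeval_mem_range_of_aeval_eq_zero (P : MvPolynomial ι O)
    (hP : a'' (aeval τ'' P) = 0) (m : M) :
    a (aeval τ P) m ∈ LinearMap.range (D - 1) := by
  apply htf
  have h1 : a (aeval τ P) (res (cores m)) = 0 := by
    rw [← res_aeval a a'' τ τ'' res hres, hP, LinearMap.zero_apply, map_zero]
  have h2 : a (aeval τ P) (res (cores m) - n • m) ∈ LinearMap.range (D - 1) :=
    act_mem_range a D haD _ (hrc m)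
  rw [map_sub, h1, zero_sub, map_smul] at h2
  have h3 := Submodule.neg_mem _ h2
  rwa [neg_neg] at h3

include haD htf hrc hres in
/-- **level lowering of a point at a trivial diamond** -/
theorem exists_point_of_res_cores (hgen'' : Algebra.adjoin O (Set.range τ'') = ⊤)
    {Ω : Type*} [CommRing Ω] [Algebra O Ω] (θ : T →ₐ[O] Ω)
    (hθ : ∀ r : T, (∀ m, a r m ∈ LinearMap.range (D - 1)) → θ r = 0) :
    ∃ θ'' : T'' →ₐ[O] Ω, ∀ i, θ'' (τ'' i) = θ (τ i) := by
  classical
  have hsurj : Function.Surjective (aeval τ'' : MvPolynomial ι O →ₐ[O] T'') := by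
    rw [← AlgHom.range_eq_top, ← Algebra.adjoin_range_eq_range_aeval, hgen'']
  let φ : MvPolynomial ι O →ₐ[O] Ω := θ.comp (aeval τ)
  have hker : ∀ P : MvPolynomial ι O, aeval τ'' P = 0 → φ P = 0 := by
    intro P hP
    refine hθ _ fun m => ?_
    exact aeval_mem_range_of_aeval_eq_zero a a'' D haD n htf τ τ'' res cores hrc hres P
      (by rw [hP, map_zero]) m
  have hker' : RingHom.ker (aeval τ'' : MvPolynomial ι O →ₐ[O] T'').toRingHom ≤
      RingHom.ker φ.toRingHom := by
    intro P hP
    exact hker P hP
  refine ⟨AlgHom.liftOfSurjective (aeval τ'') hsurj φ hker', fun i => ?_⟩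
  have h1 : τ'' i = (aeval τ'' : MvPolynomial ι O →ₐ[O] T'') (X i) := by rw [aeval_X]
  rw [h1, AlgHom.liftOfSurjective_apply]
  show θ (aeval τ (X i)) = θ (τ i)
  rw [aeval_X]

end Main

end Fermat.Agent.GB.P5.OccLower
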