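/-
GATE-B / GB-P5-1PT-STEP2 (helper49): **a point occurring in `M_Q / (D_i - 1) M_Q` occurs at the level
where the `i`-th Taylor–Wiles character has been dropped** — `OccLower.exists_point_of_res_cores` on
the coinvariants `FamCoinv (frD B) γ` (`= (Plug.tw …).L1.M`, `(Plug.tw …).Lχ.M`) of a big level `B`
realised in an ambient Hecke module `L`, against the coinvariants `Y γ` of a second ambient module
`L''` with `res : L'' → L`, `cores : L → L''`, `res ∘ cores = ∑_{j < q} (E i)^j`.

The Hecke rings `T`, `T''` are arbitrary: only their generators `τ j`, `τ'' j` are used, described on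
representatives by operators `f j` of `L`, `f'' j` of `L''` intertwined by `res`.
-/
import Mathlib
import Fermat.Agent.GB.P5.OccLower
import Fermat.Agent.GB.P5.LowerLevel

set_option autoImplicit false
set_option linter.unusedSectionVars false
set_option linter.style.haveILetI false

namespace Fermat.Agent.GB.P5.LowerPoint

open Module Submodule Fermat.Agent.GB.B3.TWLevel Fermat.Agent.GB.B3.RealLevel
  Fermat.Agent.GB.B3.ChiLevelMulti Fermat.Agent.GB.B3.Base Fermat.Agent.GB.B3.Chi
  Fermat.Agent.GB.P5.LowerLevel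

/-- `∑_{j < q} D^j ≡ q` modulo `(D - 1)` -/
theorem sum_pow_sub_mem_range {O M : Type*} [CommRing O] [AddCommGroup M] [Module O M]
    (D : Module.End O M) (q : ℕ) (m : M) :
    (∑ j ∈ Finset.range q, (D ^ j) m) - (q : O) • m ∈ LinearMap.range (D - 1) := by
  have h : ∀ j : ℕ, (D ^ j) m - m ∈ LinearMap.range (D - 1) := by
    intro j
    induction j with
    | zero =>
      rw [pow_zero, Module.End.one_apply, sub_self]
      exact Submodule.zero_mem _
    | succ j ih =>
      have e : (D ^ (j + 1)) m - m = (D - 1) ((D ^ j) m) + ((D ^ j) m - m) := by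
        rw [LinearMap.sub_apply, Module.End.one_apply, pow_succ', Module.End.mul_apply]
        abel
      rw [e]
      exact Submodule.add_mem _ ⟨_, rfl⟩ ih
  have e : (∑ j ∈ Finset.range q, (D ^ j) m) - (q : O) • m
      = ∑ j ∈ Finset.range q, ((D ^ j) m - m) := by
    rw [Finset.sum_sub_distrib, Finset.sum_const, Finset.card_range, Nat.cast_smul_eq_nsmul]
  rw [e]
  exact Submodule.sum_mem _ fun j _ => h j

variable {O : Type} [CommRing O] {A : Type} [CommRing A] [Algebra O A]
  {M0 : Type} [AddCommGroup M0] [Module O M0] {act0 : A →ₐ[O] Module.End O M0}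
  {s k : ℕ} {Nk : Fin (s + k) → ℕ} {B : FreeLevel O A M0 act0 (s + k) Nk}
  {L : Type} [AddCommGroup L] [Module O L] {actL : A →ₐ[O] Module.End O L} {𝔪 : Ideal A}
  {E : Fin (s + k) → Module.End O L} (R : Realizes B actL 𝔪 E)
  {L'' : Type} [AddCommGroup L''] [Module O L''] (actL'' : A →ₐ[O] Module.End O L'')
  (E'' : Fin (s + k) → Module.End O L'')
  (hE''act : ∀ i t, E'' i * actL'' t = actL'' t * E'' i)
  (res : L'' →ₗ[O] L) (cores : L →ₗ[O] L'')
  (hres_act : ∀ t y, res (actL'' t y) = actL t (res y))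
  (hcores_act : ∀ t x, cores (actL t x) = actL'' t (cores x))
  (hres_E : ∀ i y, res (E'' i y) = E i (res y))
  (hcores_E : ∀ i x, cores (E i x) = E'' i (cores x))

theorem ι_pow_D (i : Fin (s + k)) (j : ℕ) (x : B.M) :
    R.ι ((B.D i ^ j) x) = (E i ^ j) (R.ι x) := by
  induction j generalizing x with
  | zero => rfl
  | succ j ih => rw [pow_succ, Module.End.mul_apply, ih, R.ι_D, pow_succ, Module.End.mul_apply]

include hres_act hcores_act hres_E hcores_E in
/-- **level lowering of a point at a trivial Taylor–Wiles diamond**, on the coinvariants of a big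
level. -/
theorem exists_point_lower (γ : Fin s → O) (i : Fin k) (q : ℕ)
    (hrc : ∀ x : L, res (cores x) = ∑ j ∈ Finset.range q, (E (Fin.natAdd s i) ^ j) x)
    (htf : ∀ m : FamCoinv (frD B) γ,
      (q : O) • m ∈ LinearMap.range (quotDM B γ i - 1) → m ∈ LinearMap.range (quotDM B γ i - 1))
    {T T'' : Type*} [CommRing T] [Algebra O T] [CommRing T''] [Algebra O T'']
    (a : T →ₐ[O] Module.End O (FamCoinv (frD B) γ))
    (haD : ∀ t, a t * quotDM B γ i = quotDM B γ i * a t)
    (a'' : T'' →ₐ[O] Module.End O (Y (𝔪 := 𝔪) actL'' E'' hE''act γ))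
    {ι : Type*} (τ : ι → T) (τ'' : ι → T'')
    (hgen'' : Algebra.adjoin O (Set.range τ'') = ⊤)
    (f : ι → Module.End O L) (f'' : ι → Module.End O L'')
    (hf''loc : ∀ j y, IsLoc actL'' 𝔪 y → IsLoc actL'' 𝔪 (f'' j y))
    (hint : ∀ j y, res (f'' j y) = f j (res y))
    (ha : ∀ j (x x' : B.M), R.ι x' = f j (R.ι x) →
      a (τ j) (fmk (frD B) γ x) = fmk (frD B) γ x')
    (ha'' : ∀ j (y y' : Plow (𝔪 := 𝔪) actL''), (y' : L'') = f'' j (y : L'') →
      a'' (τ'' j) (fmk _ γ y) = fmk _ γ y')
    {Ω : Type*} [CommRing Ω] [Algebra O Ω] (θ : T →ₐ[O] Ω)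
    (hθ : ∀ r : T, (∀ m, a r m ∈ LinearMap.range (quotDM B γ i - 1)) → θ r = 0) :
    ∃ θ'' : T'' →ₐ[O] Ω, ∀ j, θ'' (τ'' j) = θ (τ j) := by
  refine OccLower.exists_point_of_res_cores a a'' (quotDM B γ i) haD (q : O) htf τ τ''
    (resM R actL'' E'' hE''act res hres_act hres_E γ)
    (coresM R actL'' E'' hE''act cores hcores_act hcores_E γ) ?_ ?_ hgen'' θ hθ
  · -- `res ∘ cores ≡ q`
    intro m
    obtain ⟨x, rfl⟩ := fmk_surjective (frD B) γ m
    have h1 : resM R actL'' E'' hE''act res hres_act hres_E γ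
        (coresM R actL'' E'' hE''act cores hcores_act hcores_E γ (fmk (frD B) γ x))
        = ∑ j ∈ Finset.range q, (quotDM B γ i ^ j) (fmk (frD B) γ x) := by
      rw [coresM_fmk, resM_fmk]
      have h2 : resB R actL'' res hres_act (coresB R actL'' cores hcores_act x)
          = ∑ j ∈ Finset.range q, (twD B i ^ j) x := by
        refine R.inj ?_
        rw [ι_resB, coe_coresB, hrc, map_sum]
        refine Finset.sum_congr rfl fun j _ => ?_
        rw [ι_pow_D]
      rw [h2]
      show (famRange (frD B) γ).mkQ (∑ j ∈ Finset.range q, (twD B i ^ j) x) = _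
      rw [map_sum]
      refine Finset.sum_congr rfl fun j _ => ?_
      exact (indF_pow_fmk (frD B) γ (twD B i) (fun _ => B.D_comm _ _) j x).symm
    rw [h1]
    exact sum_pow_sub_mem_range (quotDM B γ i) q _
  · -- equivariance on the generators
    intro j y
    obtain ⟨y, rfl⟩ := fmk_surjective _ γ y
    let y' : Plow (𝔪 := 𝔪) actL'' := ⟨f'' j (y : L''), hf''loc j _ y.2⟩
    rw [ha'' j y y' rfl, resM_fmk, resM_fmk]
    refine (ha j _ _ ?_).symm
    rw [ι_resB, ι_resB]
    exact hint j _

end Fermat.Agent.GB.P5.LowerPoint
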