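/-
GATE-B / GB-P5-1PT-STEP2 (helper49): complement to `LowerPoint.exists_point_lower` — **the lower
level is nonzero as soon as a point occurs in `M_Q / (D_i - 1) M_Q`**: if the `𝔪`-primary part of the
lower ambient module vanishes, then `res ∘ cores = ∑_{j<q} D_i^j` vanishes on the level, so
`q M_Q ⊆ (D_i - 1) M_Q`, hence `M_Q = (D_i - 1) M_Q` and no point occurs.
-/
import Mathlib
import Fermat.Agent.GB.P5.LowerPoint

set_option autoImplicit false
set_option linter.unusedSectionVars false
set_option linter.style.haveILetI false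

namespace Fermat.Agent.GB.P5.LowerPoint

open Module Submodule Fermat.Agent.GB.B3.TWLevel Fermat.Agent.GB.B3.RealLevel
  Fermat.Agent.GB.B3.ChiLevelMulti Fermat.Agent.GB.B3.Base Fermat.Agent.GB.B3.Chi
  Fermat.Agent.GB.P5.LowerLevel

variable {O : Type} [CommRing O] {A : Type} [CommRing A] [Algebra O A]
  {M0 : Type} [AddCommGroup M0] [Module O M0] {act0 : A →ₐ[O] Module.End O M0}
  {s k : ℕ} {Nk : Fin (s + k) → ℕ} {B : FreeLevel O A M0 act0 (s + k) Nk}
  {L : Type} [AddCommGroup L] [Module O L] {actL : A →ₐ[O] Module.End O L} {𝔪 : Ideal A}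
  {E : Fin (s + k) → Module.End O L} (R : Realizes B actL 𝔪 E)
  {L'' : Type} [AddCommGroup L''] [Module O L''] (actL'' : A →ₐ[O] Module.End O L'')
  (res : L'' →ₗ[O] L) (cores : L →ₗ[O] L'')
  (hres_act : ∀ t y, res (actL'' t y) = actL t (res y))
  (hcores_act : ∀ t x, cores (actL t x) = actL'' t (cores x))

include R hres_act hcores_act in
/-- **the lower primary part is nonzero** when a point occurs in `M_Q / (D_i - 1) M_Q` -/
theorem nontrivial_lower (γ : Fin s → O) (i : Fin k) (q : ℕ)
    (hrc : ∀ x : L, res (cores x) = ∑ j ∈ Finset.range q, (E (Fin.natAdd s i) ^ j) x)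
    (htf : ∀ m : FamCoinv (frD B) γ,
      (q : O) • m ∈ LinearMap.range (quotDM B γ i - 1) → m ∈ LinearMap.range (quotDM B γ i - 1))
    {T : Type*} [CommRing T] [Algebra O T]
    (a : T →ₐ[O] Module.End O (FamCoinv (frD B) γ))
    {Ω : Type*} [CommRing Ω] [Nontrivial Ω] [Algebra O Ω] (θ : T →ₐ[O] Ω)
    (hθ : ∀ r : T, (∀ m, a r m ∈ LinearMap.range (quotDM B γ i - 1)) → θ r = 0) :
    Nontrivial (Plow (𝔪 := 𝔪) actL'') := by
  by_contra hne
  rw [not_nontrivial_iff_subsingleton] at hne
  have hall : ∀ m : FamCoinv (frD B) γ, m ∈ LinearMap.range (quotDM B γ i - 1) := by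
    intro m
    apply htf
    obtain ⟨x, rfl⟩ := fmk_surjective (frD B) γ m
    have h0 : coresB R actL'' cores hcores_act x = 0 := Subsingleton.elim _ _
    have h2 : (0 : B.M) = ∑ j ∈ Finset.range q, (twD B i ^ j) x := by
      refine R.inj ?_
      rw [map_zero, map_sum]
      have h3 : res ((coresB R actL'' cores hcores_act x : Plow (𝔪 := 𝔪) actL'') : L'')
          = ∑ j ∈ Finset.range q, (E (Fin.natAdd s i) ^ j) (R.ι x) := by
        rw [coe_coresB, hrc]
      rw [h0] at h3
      simp only [ZeroMemClass.coe_zero, map_zero] at h3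
      rw [h3]
      refine (Finset.sum_congr rfl fun j _ => ?_)
      rw [ι_pow_D]
    have h4 : ∑ j ∈ Finset.range q, (quotDM B γ i ^ j) (fmk (frD B) γ x) = 0 := by
      have h5 : (famRange (frD B) γ).mkQ (∑ j ∈ Finset.range q, (twD B i ^ j) x) = 0 := by
        rw [← h2, map_zero]
      rw [map_sum] at h5
      rw [← h5]
      refine Finset.sum_congr rfl fun j _ => ?_
      exact indF_pow_fmk (frD B) γ (twD B i) (fun _ => B.D_comm _ _) j x
    have h6 := sum_pow_sub_mem_range (quotDM B γ i) q (fmk (frD B) γ x)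
    rw [h4, zero_sub] at h6
    have h7 := Submodule.neg_mem _ h6
    rwa [neg_neg] at h7
  have h1 : θ 1 = 0 := hθ 1 fun m => by
    rw [map_one, Module.End.one_apply]
    exact hall m
  rw [map_one] at h1
  exact one_ne_zero h1

end Fermat.Agent.GB.P5.LowerPoint
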