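/-
GATE-B / GB-P5-1PT-STEP2 (helper49): **the residual character of a Hecke-type action whose
generators are "scalar + nilpotent" modulo the maximal ideal.**

`O` a local ring, `M` a nonzero finite `O`-module, `A` a commutative ring acting on `M` through
`tw : A →+* End_O M`.  An endomorphism `f` is *nilpotent modulo* `𝔪_O` (`IsNilMod f`) if some power
maps `M` into `𝔪_O M`.  If `A` is generated by a set `G` and `tw g - c g` is nilpotent modulo `𝔪_O`
for `g ∈ G` (`c g : O`), then there is a ring homomorphism `θ̄ : A →+* k` with `θ̄ g = c g mod 𝔪_O`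
and the localisation hypothesis `ImageRing.LocHyp O θ̄ tw` holds (every `a ∈ O ⊗ A` with
`θ̄(a) ≠ 0` acts bijectively): the image ring `ImageRing.TQ O θ̄ tw` is then local with residue field
`k`, and `Carrier.Tloc O θ̄` maps to it.

Used for the twisted Hecke action `tw (T_ℓ) = ⟨d_ℓ⟩ T_ℓ` on an `𝔪`-primary part: `T_ℓ - a_ℓ` is
nilpotent modulo `𝔪_O` (`isNilMod_of_isPrimary`-type statements, below for a polynomial symbol
algebra) and `⟨d⟩ - 1` is nilpotent modulo `p` for a diamond of `p`-power order (`isNilMod_sub_one`).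
-/
import Mathlib
import Fermat.Agent.GB.B4.Datum.ImageRing

set_option autoImplicit false
set_option linter.unusedSectionVars false
set_option linter.style.haveILetI false

noncomputable section

namespace Fermat.Agent.GB.P5.EigChar

open TensorProduct IsLocalRing Polynomial Fermat.Agent.GB.B4.Datum.Carrier
  Fermat.Agent.GB.B4.Datum.ImageRing

/-! ### endomorphisms nilpotent modulo the maximal ideal -/

section NilMod

variable {O : Type*} [CommRing O] [IsLocalRing O] {M : Type*} [AddCommGroup M] [Module O M]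

/-- `f` maps `𝔪_O M` into itself -/
theorem map_smul_top_le (f : Module.End O M) :
    (maximalIdeal O • (⊤ : Submodule O M)).map f ≤ maximalIdeal O • (⊤ : Submodule O M) := by
  rw [Submodule.map_smul'']
  exact Submodule.smul_mono (le_refl _) le_top

theorem apply_mem_smul_top (f : Module.End O M) {y : M}
    (hy : y ∈ maximalIdeal O • (⊤ : Submodule O M)) :
    f y ∈ maximalIdeal O • (⊤ : Submodule O M) :=
  map_smul_top_le f ⟨y, hy, rfl⟩

/-- **nilpotent modulo `𝔪_O`** -/
def IsNilMod (f : Module.End O M) : Prop :=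
  ∃ n : ℕ, ∀ y : M, (f ^ n) y ∈ maximalIdeal O • (⊤ : Submodule O M)

theorem isNilMod_of_forall_mem {f : Module.End O M}
    (h : ∀ y : M, f y ∈ maximalIdeal O • (⊤ : Submodule O M)) : IsNilMod f :=
  ⟨1, fun y => by rw [pow_one]; exact h y⟩

theorem isNilMod_smul_of_mem {c : O} (hc : c ∈ maximalIdeal O) (f : Module.End O M) :
    IsNilMod (c • f) :=
  isNilMod_of_forall_mem fun y => by
    rw [LinearMap.smul_apply]
    exact Submodule.smul_mem_smul hc Submodule.mem_top

theorem IsNilMod.pow_mem {f : Module.End O M} {n : ℕ}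
    (h : ∀ y : M, (f ^ n) y ∈ maximalIdeal O • (⊤ : Submodule O M)) {m : ℕ} (hm : n ≤ m) (y : M) :
    (f ^ m) y ∈ maximalIdeal O • (⊤ : Submodule O M) := by
  obtain ⟨k, rfl⟩ := Nat.exists_eq_add_of_le hm
  rw [pow_add, Module.End.mul_apply]
  exact h _

/-- a multiple (by a commuting endomorphism) of a nilpotent-mod-`𝔪_O` endomorphism -/
theorem IsNilMod.mul_left {f : Module.End O M} (hf : IsNilMod f) (g : Module.End O M)
    (hfg : Commute g f) : IsNilMod (g * f) := by
  obtain ⟨n, hn⟩ := hf
  refine ⟨n, fun y => ?_⟩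
  rw [hfg.mul_pow, Module.End.mul_apply]
  exact apply_mem_smul_top _ (hn y)

theorem IsNilMod.mul_right {f : Module.End O M} (hf : IsNilMod f) (g : Module.End O M)
    (hfg : Commute g f) : IsNilMod (f * g) := by
  rw [← hfg.eq]
  exact hf.mul_left g hfg

/-- the sum of two commuting nilpotent-mod-`𝔪_O` endomorphisms -/
theorem IsNilMod.add {f g : Module.End O M} (hf : IsNilMod f) (hg : IsNilMod g)
    (hfg : Commute f g) : IsNilMod (f + g) := by
  obtain ⟨n, hn⟩ := hf
  obtain ⟨m, hm⟩ := hg
  refine ⟨n + m, fun y => ?_⟩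
  rw [hfg.add_pow, LinearMap.sum_apply]
  refine Submodule.sum_mem _ fun i hi => ?_
  rw [Finset.mem_range] at hi
  rw [Module.End.mul_apply, Module.End.mul_apply]
  by_cases h : n ≤ i
  · -- `f ^ i` kills
    have hc : Commute (f ^ i) (g ^ (n + m - i)) := (hfg.pow_pow _ _)
    have e : (f ^ i) ((g ^ (n + m - i)) (((n + m).choose i : Module.End O M) y))
        = (g ^ (n + m - i)) ((f ^ i) (((n + m).choose i : Module.End O M) y)) := by
      rw [← Module.End.mul_apply, hc.eq, Module.End.mul_apply]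
    rw [e]
    exact apply_mem_smul_top _ (IsNilMod.pow_mem hn h _)
  · have h' : m ≤ n + m - i := by omega
    exact apply_mem_smul_top _ (IsNilMod.pow_mem hm h' _)

theorem IsNilMod.neg {f : Module.End O M} (hf : IsNilMod f) : IsNilMod (-f) := by
  have h := hf.mul_left (-1) (Commute.neg_one_left f)
  rwa [neg_one_mul] at h

theorem IsNilMod.sub {f g : Module.End O M} (hf : IsNilMod f) (hg : IsNilMod g)
    (hfg : Commute f g) : IsNilMod (f - g) := by
  rw [sub_eq_add_neg]
  exact hf.add hg.neg hfg.neg_right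

/-- `f - c` is nilpotent modulo `𝔪_O` (a spelling avoiding the subtraction of endomorphisms in
statements about concrete submodules, where instance search for `Sub (Module.End O ↥X)` can fail) -/
def IsNilModSub (f : Module.End O M) (c : O) : Prop :=
  IsNilMod (f - algebraMap O (Module.End O M) c)

theorem isNilModSub_iff (f : Module.End O M) (c : O) :
    IsNilModSub f c ↔ IsNilMod (f - algebraMap O (Module.End O M) c) := Iff.rfl

/-- a scalar which is nilpotent modulo `𝔪_O` on a nonzero finite module is a non-unit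
(Nakayama) -/
theorem mem_maximalIdeal_of_isNilMod_algebraMap [Module.Finite O M] [Nontrivial M] {c : O}
    (h : IsNilMod (algebraMap O (Module.End O M) c)) : c ∈ maximalIdeal O := by
  by_contra hcu
  have hu : IsUnit c := by
    by_contra h'
    exact hcu ((mem_maximalIdeal c).mpr h')
  obtain ⟨n, hn⟩ := h
  have htop : (⊤ : Submodule O M) ≤ maximalIdeal O • (⊤ : Submodule O M) := by
    intro y _
    have h1 := hn (((hu.unit⁻¹ : Oˣ) : O) ^ n • y)
    rw [← map_pow, Module.algebraMap_end_apply, smul_smul, ← mul_pow,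
      IsUnit.mul_val_inv, one_pow, one_smul] at h1
    exact h1
  have hbot : (⊤ : Submodule O M) = ⊥ :=
    Submodule.eq_bot_of_le_smul_of_le_jacobson_bot (maximalIdeal O) ⊤ Module.Finite.fg_top htop
      (maximalIdeal_le_jacobson ⊥)
  obtain ⟨x, hx⟩ := exists_ne (0 : M)
  exact hx ((Submodule.mem_bot O).mp (hbot ▸ Submodule.mem_top))

/-- the scalar `c` with `f - c` nilpotent modulo `𝔪_O` is unique modulo `𝔪_O` -/
theorem residue_eq_of_isNilModSub [Module.Finite O M] [Nontrivial M] {f : Module.End O M}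
    {c c' : O} (h : IsNilModSub f c) (h' : IsNilModSub f c') : residue O c = residue O c' := by
  have hc : Commute (f - algebraMap O (Module.End O M) c') (f - algebraMap O (Module.End O M) c) :=
    ((Commute.refl f).sub_right (Algebra.commute_algebraMap_right c f)).sub_left
      (Algebra.commute_algebraMap_left c' _)
  have h1 : IsNilMod ((f - algebraMap O (Module.End O M) c')
      - (f - algebraMap O (Module.End O M) c)) := IsNilMod.sub h' h hc
  have e : (f - algebraMap O (Module.End O M) c') - (f - algebraMap O (Module.End O M) c)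
      = algebraMap O (Module.End O M) (c - c') := by
    rw [map_sub]
    abel
  rw [e] at h1
  have h2 := mem_maximalIdeal_of_isNilMod_algebraMap h1
  rw [← sub_eq_zero, ← map_sub, residue_eq_zero_iff]
  exact h2

end NilMod

/-! ### the ideal of `O ⊗ A` of the elements mapping `M` into `𝔪_O M` -/

section Ideal

variable (O : Type) [CommRing O] [IsLocalRing O] {A : Type} [CommRing A]
  {M : Type} [AddCommGroup M] [Module O M] (tw : A →+* Module.End O M)

/-- the elements of `O ⊗ A` mapping `M` into `𝔪_O M` -/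
def smallIdeal : Ideal (O ⊗[ℤ] A) where
  carrier := {a | ∀ y : M, twO O tw a y ∈ maximalIdeal O • (⊤ : Submodule O M)}
  add_mem' := by
    intro a b ha hb y
    rw [map_add, LinearMap.add_apply]
    exact Submodule.add_mem _ (ha y) (hb y)
  zero_mem' := by
    intro y
    rw [map_zero, LinearMap.zero_apply]
    exact Submodule.zero_mem _
  smul_mem' := by
    intro b a ha y
    rw [smul_eq_mul, map_mul, Module.End.mul_apply]
    exact apply_mem_smul_top _ (ha y)

theorem mem_smallIdeal {a : O ⊗[ℤ] A} :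
    a ∈ smallIdeal O tw ↔ ∀ y : M, twO O tw a y ∈ maximalIdeal O • (⊤ : Submodule O M) :=
  Iff.rfl

theorem mem_radical_smallIdeal {a : O ⊗[ℤ] A} :
    a ∈ (smallIdeal O tw).radical ↔ IsNilMod (twO O tw a) := by
  constructor
  · rintro ⟨n, hn⟩
    refine ⟨n, fun y => ?_⟩
    rw [← map_pow]
    exact hn y
  · rintro ⟨n, hn⟩
    refine ⟨n, fun y => ?_⟩
    rw [map_pow]
    exact hn y

theorem algebraMap_mem_smallIdeal {c : O} (hc : c ∈ maximalIdeal O) :
    algebraMap O (O ⊗[ℤ] A) c ∈ smallIdeal O tw := by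
  intro y
  rw [AlgHom.commutes, Module.algebraMap_end_apply]
  exact Submodule.smul_mem_smul hc Submodule.mem_top

variable [Module.Finite O M] [Nontrivial M]

/-- a scalar in the radical of the small ideal is a non-unit (Nakayama) -/
theorem mem_maximalIdeal_of_algebraMap_mem_radical {c : O}
    (hc : algebraMap O (O ⊗[ℤ] A) c ∈ (smallIdeal O tw).radical) : c ∈ maximalIdeal O := by
  by_contra hcu
  have hu : IsUnit c := by
    by_contra h
    exact hcu ((mem_maximalIdeal c).mpr h)
  obtain ⟨n, hn⟩ := hc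
  have htop : (⊤ : Submodule O M) ≤ maximalIdeal O • (⊤ : Submodule O M) := by
    intro y _
    have h1 := hn (((hu.unit⁻¹ : Oˣ) : O) ^ n • y)
    rw [← map_pow, AlgHom.commutes, Module.algebraMap_end_apply, smul_smul, ← mul_pow,
      IsUnit.mul_val_inv, one_pow, one_smul] at h1
    exact h1
  have hbot : (⊤ : Submodule O M) = ⊥ :=
    Submodule.eq_bot_of_le_smul_of_le_jacobson_bot (maximalIdeal O) ⊤ Module.Finite.fg_top htop
      (maximalIdeal_le_jacobson ⊥)
  obtain ⟨x, hx⟩ := exists_ne (0 : M)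
  exact hx ((Submodule.mem_bot O).mp (hbot ▸ Submodule.mem_top))

end Ideal

/-! ### the residual character -/

section Char

variable (O : Type) [CommRing O] [IsLocalRing O] {A : Type} [CommRing A]
  {M : Type} [AddCommGroup M] [Module O M] [Module.Finite O M] [Nontrivial M]
  (tw : A →+* Module.End O M) (G : Set A) (hG : Algebra.adjoin ℤ G = ⊤) (c : A → O)
  (hnil : ∀ g ∈ G, IsNilModSub (tw g) (c g))

/-- the elements of `O ⊗ A` congruent to a scalar modulo the radical of the small ideal -/
def scalarSub : Subalgebra O (O ⊗[ℤ] A) where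
  carrier := {b | ∃ x : O, b - algebraMap O (O ⊗[ℤ] A) x ∈ (smallIdeal O tw).radical}
  mul_mem' := by
    rintro a b ⟨x, hx⟩ ⟨y, hy⟩
    refine ⟨x * y, ?_⟩
    have e : a * b - algebraMap O (O ⊗[ℤ] A) (x * y)
        = (a - algebraMap O (O ⊗[ℤ] A) x) * b
          + algebraMap O (O ⊗[ℤ] A) x * (b - algebraMap O (O ⊗[ℤ] A) y) := by
      rw [map_mul]
      ring
    rw [e]
    exact Ideal.add_mem _ (Ideal.mul_mem_right _ _ hx) (Ideal.mul_mem_left _ _ hy)
  add_mem' := by
    rintro a b ⟨x, hx⟩ ⟨y, hy⟩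
    refine ⟨x + y, ?_⟩
    have e : a + b - algebraMap O (O ⊗[ℤ] A) (x + y)
        = (a - algebraMap O (O ⊗[ℤ] A) x) + (b - algebraMap O (O ⊗[ℤ] A) y) := by
      rw [map_add]
      ring
    rw [e]
    exact Ideal.add_mem _ hx hy
  algebraMap_mem' := by
    intro x
    exact ⟨x, by rw [sub_self]; exact Ideal.zero_mem _⟩

include hG hnil in
theorem scalarSub_eq_top : scalarSub O tw = ⊤ := by
  rw [eq_top_iff]
  -- the elements `t` of `A` with `1 ⊗ t` congruent to a scalar
  have key : ∀ t : A, ((1 : O) ⊗ₜ[ℤ] t : O ⊗[ℤ] A) ∈ scalarSub O tw := by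
    have hsub : Algebra.adjoin ℤ G ≤
        ((scalarSub O tw).restrictScalars ℤ).comap
          (Algebra.TensorProduct.includeRight : A →ₐ[ℤ] O ⊗[ℤ] A) := by
      refine Algebra.adjoin_le fun g hg => ?_
      show ((1 : O) ⊗ₜ[ℤ] g : O ⊗[ℤ] A) ∈ scalarSub O tw
      refine ⟨c g, ?_⟩
      rw [mem_radical_smallIdeal, map_sub, twO_tmul, one_smul, AlgHom.commutes]
      exact hnil g hg
    intro t
    have ht : t ∈ Algebra.adjoin ℤ G := by
      rw [hG]
      exact Algebra.mem_top
    exact hsub ht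
  rintro b -
  induction b using TensorProduct.induction_on with
  | zero => exact Subalgebra.zero_mem _
  | tmul x t =>
    have e : (x ⊗ₜ[ℤ] t : O ⊗[ℤ] A) = x • ((1 : O) ⊗ₜ[ℤ] t) := by
      rw [TensorProduct.smul_tmul', smul_eq_mul, mul_one]
    rw [e]
    exact Subalgebra.smul_mem _ (key t) x
  | add a b ha hb => exact Subalgebra.add_mem _ ha hb

include hG hnil in
theorem exists_scalar (b : O ⊗[ℤ] A) :
    ∃ x : O, b - algebraMap O (O ⊗[ℤ] A) x ∈ (smallIdeal O tw).radical := by
  have h : b ∈ scalarSub O tw := by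
    rw [scalarSub_eq_top O tw G hG c hnil]
    exact Algebra.mem_top
  exact h

include hG hnil in
theorem algebraMap_quot_surjective :
    Function.Surjective (algebraMap O ((O ⊗[ℤ] A) ⧸ (smallIdeal O tw).radical)) := by
  intro z
  obtain ⟨b, rfl⟩ := Ideal.Quotient.mk_surjective z
  obtain ⟨x, hx⟩ := exists_scalar O tw G hG c hnil b
  refine ⟨x, ?_⟩
  rw [IsScalarTower.algebraMap_apply O (O ⊗[ℤ] A) ((O ⊗[ℤ] A) ⧸ (smallIdeal O tw).radical)]
  exact (Ideal.Quotient.eq.mpr hx).symm

theorem ker_algebraMap_quot_le :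
    RingHom.ker (algebraMap O ((O ⊗[ℤ] A) ⧸ (smallIdeal O tw).radical))
      ≤ RingHom.ker (residue O) := by
  intro x hx
  rw [RingHom.mem_ker] at hx ⊢
  rw [IsScalarTower.algebraMap_apply O (O ⊗[ℤ] A) ((O ⊗[ℤ] A) ⧸ (smallIdeal O tw).radical)] at hx
  rw [residue_eq_zero_iff]
  exact mem_maximalIdeal_of_algebraMap_mem_radical O tw (Ideal.Quotient.eq_zero_iff_mem.mp hx)

/-- the residual character on `O ⊗ A` -/
def chiFull : O ⊗[ℤ] A →+* ResidueField O :=
  (RingHom.liftOfSurjective (algebraMap O ((O ⊗[ℤ] A) ⧸ (smallIdeal O tw).radical))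
    (algebraMap_quot_surjective O tw G hG c hnil)
    ⟨residue O, ker_algebraMap_quot_le O tw⟩).comp (Ideal.Quotient.mk _)

theorem chiFull_algebraMap (x : O) :
    chiFull O tw G hG c hnil (algebraMap O (O ⊗[ℤ] A) x) = residue O x := by
  unfold chiFull
  rw [RingHom.comp_apply]
  have h := RingHom.liftOfRightInverse_comp_apply
    (algebraMap O ((O ⊗[ℤ] A) ⧸ (smallIdeal O tw).radical)) _
    (Function.rightInverse_surjInv (algebraMap_quot_surjective O tw G hG c hnil))
    ⟨residue O, ker_algebraMap_quot_le O tw⟩ x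
  rw [← h]
  congr 1

theorem chiFull_eq_of_sub_mem {b : O ⊗[ℤ] A} {x : O}
    (h : b - algebraMap O (O ⊗[ℤ] A) x ∈ (smallIdeal O tw).radical) :
    chiFull O tw G hG c hnil b = residue O x := by
  rw [← chiFull_algebraMap O tw G hG c hnil x]
  unfold chiFull
  rw [RingHom.comp_apply, RingHom.comp_apply, Ideal.Quotient.eq.mpr h]

/-- **the residual character** `θ̄ : A →+* k` -/
def chiBar : A →+* ResidueField O :=
  (chiFull O tw G hG c hnil).comp
    (Algebra.TensorProduct.includeRight : A →ₐ[ℤ] O ⊗[ℤ] A).toRingHom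

theorem chiBar_gen {g : A} (hg : g ∈ G) : chiBar O tw G hG c hnil g = residue O (c g) := by
  show chiFull O tw G hG c hnil ((1 : O) ⊗ₜ[ℤ] g) = _
  refine chiFull_eq_of_sub_mem O tw G hG c hnil ?_
  rw [mem_radical_smallIdeal, map_sub, twO_tmul, one_smul, AlgHom.commutes]
  exact hnil g hg

theorem thetaO_chiBar (b : O ⊗[ℤ] A) :
    thetaO O (chiBar O tw G hG c hnil) b = chiFull O tw G hG c hnil b := by
  induction b using TensorProduct.induction_on with
  | zero => rw [map_zero, map_zero]
  | tmul x t =>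
    have e : (x ⊗ₜ[ℤ] t : O ⊗[ℤ] A) = algebraMap O (O ⊗[ℤ] A) x * ((1 : O) ⊗ₜ[ℤ] t) := by
      rw [Algebra.TensorProduct.algebraMap_apply, Algebra.TensorProduct.tmul_mul_tmul, one_mul,
        Algebra.algebraMap_self, RingHom.id_apply, mul_one]
    rw [thetaO_tmul, e, map_mul, chiFull_algebraMap]
    rfl
  | add a b ha hb => rw [map_add, map_add, ha, hb]

/-- **the localisation hypothesis** for `θ̄` -/
theorem locHyp_chiBar : LocHyp O (chiBar O tw G hG c hnil) tw := by
  intro b hb
  rw [thetaO_chiBar] at hb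
  obtain ⟨x, hx⟩ := exists_scalar O tw G hG c hnil b
  have hxb : residue O x ≠ 0 := by
    rw [← chiFull_eq_of_sub_mem O tw G hG c hnil hx]
    exact hb
  have hxu : IsUnit x := by
    by_contra h
    exact hxb ((residue_eq_zero_iff x).mpr ((mem_maximalIdeal x).mpr h))
  obtain ⟨n, hn⟩ := hx
  -- `b * b' = 1 - w ^ n` with `w ^ n` in the small ideal
  obtain ⟨b', w, hbb', hw⟩ : ∃ b' w : O ⊗[ℤ] A, b * b' = 1 - w ∧ w ∈ smallIdeal O tw := by
    let u : O ⊗[ℤ] A := algebraMap O (O ⊗[ℤ] A) ((hxu.unit⁻¹ : Oˣ) : O)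
    have hux : algebraMap O (O ⊗[ℤ] A) x * u = 1 := by
      show algebraMap O (O ⊗[ℤ] A) x * algebraMap O (O ⊗[ℤ] A) ((hxu.unit⁻¹ : Oˣ) : O) = 1
      rw [← map_mul, IsUnit.mul_val_inv, map_one]
    let v : O ⊗[ℤ] A := -(u * (b - algebraMap O (O ⊗[ℤ] A) x))
    have h1 : b * u = 1 - v := by
      have : b * u = algebraMap O (O ⊗[ℤ] A) x * u + u * (b - algebraMap O (O ⊗[ℤ] A) x) := by
        ring
      rw [this, hux]
      show 1 + u * (b - algebraMap O (O ⊗[ℤ] A) x) = 1 - -(u * (b - algebraMap O (O ⊗[ℤ] A) x))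
      ring
    refine ⟨u * ∑ i ∈ Finset.range n, v ^ i, v ^ n, ?_, ?_⟩
    · rw [← mul_assoc, h1, mul_neg_geom_sum]
    · have : v ^ n = (-u) ^ n * (b - algebraMap O (O ⊗[ℤ] A) x) ^ n := by
        show (-(u * (b - algebraMap O (O ⊗[ℤ] A) x))) ^ n = _
        rw [← mul_pow]
        congr 1
        ring
      rw [this]
      exact Ideal.mul_mem_left _ _ hn
  have hsurj : Function.Surjective (twO O tw b) := by
    have htop : (⊤ : Submodule O M) ≤ LinearMap.range (twO O tw b)
        ⊔ maximalIdeal O • (⊤ : Submodule O M) := by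
      intro y _
      have e : y = twO O tw b (twO O tw b' y) + twO O tw w y := by
        rw [← Module.End.mul_apply, ← map_mul, hbb', map_sub, map_one, LinearMap.sub_apply,
          Module.End.one_apply, sub_add_cancel]
      rw [e]
      exact Submodule.add_mem_sup ⟨_, rfl⟩ (hw y)
    have h := Submodule.le_of_le_smul_of_le_jacobson_bot (N := LinearMap.range (twO O tw b))
      Module.Finite.fg_top (maximalIdeal_le_jacobson ⊥) htop
    exact LinearMap.range_eq_top.mp (top_le_iff.mp h)
  exact ⟨OrzechProperty.injective_of_surjective_endomorphism _ hsurj, hsurj⟩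

include hG hnil in
/-- **the residual character of a "scalar + nilpotent" Hecke action** -/
theorem exists_residual_char :
    ∃ θ : A →+* ResidueField O, (∀ g ∈ G, θ g = residue O (c g)) ∧ LocHyp O θ tw :=
  ⟨chiBar O tw G hG c hnil, fun _ hg => chiBar_gen O tw G hG c hnil hg,
    locHyp_chiBar O tw G hG c hnil⟩

end Char

end Fermat.Agent.GB.P5.EigChar
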