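/-
GATE-B / GB-P5-1PT-STEP2 (helper49): **the two sources of endomorphisms nilpotent modulo `𝔪_O`**
(`EigChar.IsNilMod`) on an `𝔪`-primary Hecke module:

* `isNilMod_sub_one` : `D - 1` for an operator `D` of `p`-power order (`p ∈ 𝔪_O` odd): a diamond
  operator of a `p`-group;
* `isNilMod_act` : `act s` for `s` in the maximal ideal `𝔪 = ker ev` of the symbol algebra, on a
  finite module on which every `s ∉ 𝔪` is onto (Cayley–Hamilton, splitting the characteristic
  polynomial modulo `𝔪_O` as `X ^ a * g`, `g(0) ≠ 0`);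
* `isNilMod_twist` : hence `D * act x - c` for `ev x = c mod 𝔪_O` — the twisted Hecke operator
  `⟨d_ℓ⟩ T_ℓ` minus its residual eigenvalue.
-/
import Mathlib
import Fermat.Agent.GB.P5.EigChar

set_option autoImplicit false
set_option linter.unusedSectionVars false

namespace Fermat.Agent.GB.P5.NilInputs

open IsLocalRing Polynomial Fermat.Agent.GB.P5.EigChar

variable {O : Type*} [CommRing O] [IsLocalRing O] {M : Type*} [AddCommGroup M] [Module O M]

/-- **`D - 1` is nilpotent modulo `𝔪_O`** for `D ^ p ^ n = 1`, `p ∈ 𝔪_O` odd -/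
theorem isNilMod_sub_one {p : ℕ} (hp : p.Prime) (hp2 : p ≠ 2) (hpO : (p : O) ∈ maximalIdeal O)
    (D : Module.End O M) (n : ℕ) (hD : D ^ p ^ n = 1) : IsNilMod (D - 1) := by
  have hc : Commute D (-1 : Module.End O M) := (Commute.one_right D).neg_right
  have h := hc.add_pow_prime_pow_eq hp n
  refine ⟨p ^ n, fun y => ?_⟩
  rw [sub_eq_add_neg, h, hD, Odd.neg_one_pow (hp.odd_of_ne_two hp2).pow, add_neg_cancel, zero_add,
    mul_assoc, mul_assoc, Module.End.mul_apply, Module.End.natCast_apply,
    ← Nat.cast_smul_eq_nsmul O]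
  exact Submodule.smul_mem_smul hpO Submodule.mem_top

/-- the value of a polynomial with coefficients in `𝔪_O` at an endomorphism maps into `𝔪_O M` -/
theorem aeval_apply_mem_of_map_eq_zero (f : Module.End O M) (Q : O[X])
    (hQ : Q.map (residue O) = 0) (y : M) :
    (aeval f Q) y ∈ maximalIdeal O • (⊤ : Submodule O M) := by
  rw [aeval_eq_sum_range, LinearMap.sum_apply]
  refine Submodule.sum_mem _ fun i _ => ?_
  rw [LinearMap.smul_apply]
  refine Submodule.smul_mem_smul ?_ Submodule.mem_top
  have h := congrArg (fun q => q.coeff i) hQ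
  simp only [coeff_map, coeff_zero] at h
  exact (residue_eq_zero_iff _).mp h

variable {A : Type*} [CommRing A] [Algebra O A] [Module.Finite O M]

/-- **the elements of `𝔪 = ker ev` act nilpotently modulo `𝔪_O`** on a finite `𝔪`-primary module -/
theorem isNilMod_act (act : A →ₐ[O] Module.End O M) (ev : A →+* ResidueField O)
    (hev : ∀ x : O, ev (algebraMap O A x) = residue O x)
    (hprim : ∀ s : A, ev s ≠ 0 → Function.Surjective (act s)) {s : A} (hs : ev s = 0) :
    IsNilMod (act s) := by
  obtain ⟨P, hPm, hP⟩ := LinearMap.exists_monic_and_aeval_eq_zero O (act s)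
  have hP0 : P.map (residue O) ≠ 0 := (hPm.map (residue O)).ne_zero
  obtain ⟨g, hg, hgX⟩ :=
    exists_eq_pow_rootMultiplicity_mul_and_not_dvd (P.map (residue O)) hP0 0
  rw [C_0, sub_zero] at hg hgX
  set a := rootMultiplicity 0 (P.map (residue O))
  obtain ⟨G, hG⟩ := map_surjective (residue O) residue_surjective g
  -- `t := G(s)` is outside `𝔪`
  have hcoeff : g.coeff 0 ≠ 0 := by
    intro h0
    exact hgX (X_dvd_iff.mpr h0)
  have hev' : ev.comp (algebraMap O A) = residue O := RingHom.ext hev
  have ht : ev (aeval s G) ≠ 0 := by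
    rw [aeval_def, hom_eval₂, hev', hs, ← eval_map, hG, ← coeff_zero_eq_eval_zero]
    exact hcoeff
  have hsurj := hprim _ ht
  -- `P - X ^ a * G` has coefficients in `𝔪_O`
  have hQ : (P - X ^ a * G).map (residue O) = 0 := by
    rw [Polynomial.map_sub, Polynomial.map_mul, Polynomial.map_pow, map_X, hG, ← hg, sub_self]
  refine ⟨a, fun y => ?_⟩
  obtain ⟨y', rfl⟩ := hsurj y
  have h1 := aeval_apply_mem_of_map_eq_zero (act s) (P - X ^ a * G) hQ y'
  rw [map_sub, hP, zero_sub, map_mul, map_pow, aeval_X, LinearMap.neg_apply,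
    Module.End.mul_apply, aeval_algHom_apply] at h1
  have h2 := Submodule.neg_mem _ h1
  rwa [neg_neg] at h2

/-- **the twisted operator minus its residual eigenvalue is nilpotent modulo `𝔪_O`** -/
theorem isNilMod_twist (act : A →ₐ[O] Module.End O M) (ev : A →+* ResidueField O)
    (hev : ∀ x : O, ev (algebraMap O A x) = residue O x)
    (hprim : ∀ s : A, ev s ≠ 0 → Function.Surjective (act s))
    {p : ℕ} (hp : p.Prime) (hp2 : p ≠ 2) (hpO : (p : O) ∈ maximalIdeal O)
    (D : Module.End O M) (n : ℕ) (hD : D ^ p ^ n = 1) (hDact : ∀ s, Commute D (act s))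
    (x : A) (c : O) (hc : ev x = residue O c) :
    IsNilMod (D * act x - algebraMap O (Module.End O M) c) := by
  have h1 : IsNilMod (act (x - algebraMap O A c)) :=
    isNilMod_act act ev hev hprim (by rw [map_sub, hev, hc, sub_self])
  have h2 : IsNilMod (D - 1) := isNilMod_sub_one hp hp2 hpO D n hD
  have e : D * act x - algebraMap O (Module.End O M) c
      = D * act (x - algebraMap O A c) + algebraMap O (Module.End O M) c * (D - 1) := by
    rw [map_sub, AlgHom.commutes, mul_sub, mul_sub, mul_one,
      (Algebra.commutes c D)]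
    abel
  rw [e]
  have hc1 : Commute D (act (x - algebraMap O A c)) := hDact _
  have hc2 : Commute (algebraMap O (Module.End O M) c) (D - 1) :=
    Algebra.commute_algebraMap_left c _
  refine (h1.mul_left D hc1).add (h2.mul_left _ hc2) ?_
  -- the two summands commute
  have hc3 : Commute (act (x - algebraMap O A c)) (D - 1) :=
    ((hDact _).symm.sub_right (Commute.one_right _))
  have hc4 : Commute D (D - 1) := (Commute.refl D).sub_right (Commute.one_right D)
  have hc5 : Commute (act (x - algebraMap O A c)) (algebraMap O (Module.End O M) c) :=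
    Algebra.commute_algebraMap_right c _
  have hc6 : Commute D (algebraMap O (Module.End O M) c) :=
    Algebra.commute_algebraMap_right c D
  exact (hc6.mul_right hc4).mul_left (hc5.mul_right hc3)

end Fermat.Agent.GB.P5.NilInputs
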