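/-
GATE-B / GB-P5-1PT-STEP2 (helper49): **a point of the top Hecke ring occurring in
`M_Q / (D_i - 1) M_Q` gives a point of the localised Hecke ring `Carrier.Tloc O θ̄''` of the level
where the `i`-th Taylor–Wiles character has been dropped**, generic form at the `GammaH` levels.

`θ : (ZMod N)ˣ →* Δ` the big character, `π : Δ →* Δ''` a quotient whose kernel is generated by
`χ_θ(dd (s + i))` (the `i`-th Taylor–Wiles diamond), `θ'' = π ∘ θ`.  The big level `B` is realised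
in `Hom(Γ_H, O)_𝔪` with diamonds `⟨dd j⟩`.  At the lower level `Γ_{H''}`: (BND) `hbnd`, a twist ring
homomorphism `tw` of the Hecke algebra of forms of a level `N''` with `tw (T_l) = ⟨dℓ l⟩ T_l`.

Top level: ANY commutative `O`-algebra `T` acting on `FamCoinv (frD B) γ` (`= M¹_Q`, `M^χ_Q`), commuting
with the `i`-th diamond, with elements `τ l` acting as `⟨dℓ l⟩ T_l` on representatives (`ha`).

Output (`exists_lower_point`): the residual character `θ̄''` of the lower twisted Hecke action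
(`θ̄'' (T_l) = ev (X_l)`) and an `O`-algebra homomorphism `θ₂ : Tloc O θ̄'' → Ω` with
`θ₂ (T_l) = θpt (τ l)` and image inside the image of `θpt`.
-/
import Mathlib
import Fermat.Agent.GB.P5.TwPrimary
import Fermat.Agent.GB.P5.LowerHom
import Fermat.Agent.GB.P5.LowerPoint3

set_option autoImplicit false
set_option linter.unusedSectionVars false
set_option linter.style.haveILetI false

noncomputable section

open scoped MatrixGroups
open CongruenceSubgroup Matrix Matrix.SpecialLinearGroup ModularCurve.Period CuspForm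
open Fermat.Agent.S16_helper49 Fermat.Agent.GM.B Fermat.Agent.GM.EisClass
open Fermat.Agent.GB.B3 Fermat.Agent.GB.B3.EisGamma0 Fermat.Agent.GB.B3.GamH
open Fermat.Agent.GB.B3.RealLevel Fermat.Agent.GB.B3.HeckeActH Fermat.Agent.GB.B3.HeckeAct
open Fermat.Agent.GB.B3.CycInst Fermat.Agent.GB.B3.StepInst Fermat.Agent.GB.B3.TWLevel
open Fermat.Agent.GB.B3.ChiLevelMulti
open Fermat.Agent.GJ.J2.ZStruct Fermat.Agent.GJ.J2.Lat
open Fermat.Agent.GB.B4.Twist.Asm Fermat.Agent.GB.B4.Twist.TwFinal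
open Fermat.Agent.GB.B7.TwU Fermat.Agent.GB.B7.UqOne
open Fermat.Agent.GB.B4.Datum.ImageRing Fermat.Agent.GB.B4.Datum.Carrier
open Fermat.Agent.GB.P5.EigChar Fermat.Agent.GB.P5.NilInputs Fermat.Agent.GB.P5.TwPrimary
open Fermat.Agent.GB.P5.LowerHom Fermat.Agent.GB.P5.LowerLevel Fermat.Agent.GB.P5.LowerPoint
open Fermat.Agent.GB.P5.IndRing

namespace Fermat.Agent.GB.P5.LowerTw

variable {N : ℕ} [NeZero N] (Sy : Symbols N) {Δ : Type} [CommGroup Δ] (θ : (ZMod N)ˣ →* Δ)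
  {O : Type} [CommRing O] [IsDomain O] [IsPrincipalIdealRing O] [IsLocalRing O]
  [IsAdicComplete (IsLocalRing.maximalIdeal O) O]
  (𝔪 : Ideal (Sy.𝕋 O)) [𝔪.IsMaximal]

/-! ### the twisted action commutes with the framed diamonds of the primary part -/

section Coinv

variable {s k : ℕ} (dd : Fin (s + k) → Gamma0 N)

theorem dia_act (i : Fin (s + k)) (t : Sy.𝕋 O) :
    diaLin O θ (dd i) * actH Sy O θ t = actH Sy O θ t * diaLin O θ (dd i) :=
  diaLin_comm_actH Sy θ (dd i) t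

variable (hbnd : ∀ y : Additive (GammaH θ) →+ O, IsLoc (actH Sy O θ) 𝔪 y →
    y ∈ parabolicHoms O (GammaH θ) O)
  {N' : ℕ} [NeZero N'] (S : Set ℕ) (dℓ : PrimesOff S → Gamma0 N)
  (tw : ↥(heckeAlgebra N' 2 S) →+* Module.End O ↥(parabolicHoms O (GammaH θ) O))
  (htw : ∀ (l : PrimesOff S) (v : ↥(parabolicHoms O (GammaH θ) O)),
    ((tw (formsGenS N' S l) v : ↥(parabolicHoms O (GammaH θ) O)) : Additive (GammaH θ) →+ O)
      = diaH θ O (dℓ l) (genH θ O l.1 (v : Additive (GammaH θ) →+ O)))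

/-- the twisted action commutes with the framed diamonds of the primary part -/
theorem twLoc_comm_Elow (t : ↥(heckeAlgebra N' 2 S)) (v : Fin s) :
    twLoc Sy θ 𝔪 hbnd S dℓ tw htw t
        * Elow (𝔪 := 𝔪) (actH Sy O θ) (fun i => diaLin O θ (dd i)) (dia_act Sy θ dd) v
      = Elow (𝔪 := 𝔪) (actH Sy O θ) (fun i => diaLin O θ (dd i)) (dia_act Sy θ dd) v
        * twLoc Sy θ 𝔪 hbnd S dℓ tw htw t :=
  twLoc_comm_diaLoc Sy θ 𝔪 hbnd S dℓ tw htw t (dd (Fin.castAdd k v))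

/-- the generator `T_l` of the twisted action on the primary part, as an operator of the ambient
module -/
theorem coe_twLoc_formsGenS (l : PrimesOff S) (i : Sy.ι₁) (hi : Sy.ℓ i = (l.1 : ℕ))
    (y : ↥(Base.locSub (actH Sy O θ) 𝔪)) :
    ((twLoc Sy θ 𝔪 hbnd S dℓ tw htw (formsGenS N' S l) y : ↥(Base.locSub (actH Sy O θ) 𝔪)) :
        Additive (GammaH θ) →+ O)
      = (diaLin O θ (dℓ l) * actH Sy O θ (MvPolynomial.X (Sum.inl i)))
          (y : Additive (GammaH θ) →+ O) := by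
  rw [twLoc_gen_eq Sy θ 𝔪 hbnd S dℓ tw htw l i hi]
  rfl

end Coinv

/-! ### the main statement -/

section Main

variable {Δ'' : Type} [CommGroup Δ''] (π : Δ →* Δ'')
  {M0 : Type} [AddCommGroup M0] [Module O M0] {act0 : Sy.𝕋 O →ₐ[O] Module.End O M0}
  {s k : ℕ} {Nk : Fin (s + k) → ℕ} {B : FreeLevel O (Sy.𝕋 O) M0 act0 (s + k) Nk}
  (dd : Fin (s + k) → Gamma0 N)
  (R : Realizes B (actH Sy O θ) 𝔪 (fun i => diaLin O θ (dd i)))
  [Fintype π.ker] (rep : π.ker → Gamma0 N) (hrep : ∀ δ : π.ker, chi θ (rep δ) = (δ : Δ))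
  -- the lower level: (BND) and the twist ring homomorphism
  (hbnd : ∀ y : Additive (GammaH (π.comp θ)) →+ O, IsLoc (actH Sy O (π.comp θ)) 𝔪 y →
    y ∈ parabolicHoms O (GammaH (π.comp θ)) O)
  {N'' : ℕ} [NeZero N''] (S : Set ℕ) (dℓ : PrimesOff S → Gamma0 N)
  (tw : ↥(heckeAlgebra N'' 2 S) →+* Module.End O ↥(parabolicHoms O (GammaH (π.comp θ)) O))
  (htw : ∀ (l : PrimesOff S) (v : ↥(parabolicHoms O (GammaH (π.comp θ)) O)),
    ((tw (formsGenS N'' S l) v : ↥(parabolicHoms O (GammaH (π.comp θ)) O)) :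
        Additive (GammaH (π.comp θ)) →+ O)
      = diaH (π.comp θ) O (dℓ l) (genH (π.comp θ) O l.1
          (v : Additive (GammaH (π.comp θ)) →+ O)))
  -- the residual evaluation of the Hecke symbols
  (ev : Sy.𝕋 O →+* IsLocalRing.ResidueField O)
  (hevC : ∀ c : O, ev (MvPolynomial.C c) = IsLocalRing.residue O c)
  (hker : ∀ t : Sy.𝕋 O, t ∈ 𝔪 ↔ ev t = 0)

include hevC hker rep hrep hbnd tw htw in
/-- **(1pt), module half**: a point `θpt` of the top Hecke ring occurring in `M_Q / (D_i - 1) M_Q`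
comes from a point `θ₂` of the localised Hecke ring of the lower level `GammaH (π ∘ θ)` (forms
level `N''`), with the same eigenvalues: `θ₂ (T_l) = θpt (τ l)`. -/
theorem exists_lower_point {p : ℕ} (hp : p.Prime) (hp2 : p ≠ 2)
    (hpO : (p : O) ∈ IsLocalRing.maximalIdeal O)
    (n : ℕ) (hpow : ∀ d : Gamma0 N, chi (π.comp θ) (d ^ p ^ n) = 1)
    (idx : PrimesOff S → Sy.ι₁) (hidx : ∀ l, Sy.ℓ (idx l) = (l.1 : ℕ))
    (γ : Fin s → O) (i : Fin k) (q : ℕ)
    (hd0 : chi θ (dd (Fin.natAdd s i)) ∈ π.ker)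
    (hord : orderOf (chi θ (dd (Fin.natAdd s i))) = q) (hcard : Fintype.card π.ker = q)
    (htf : ∀ m : FamCoinv (frD B) γ,
      (q : O) • m ∈ LinearMap.range (quotDM B γ i - 1) → m ∈ LinearMap.range (quotDM B γ i - 1))
    {T : Type*} [CommRing T] [Algebra O T]
    (a : T →ₐ[O] Module.End O (FamCoinv (frD B) γ))
    (haD : ∀ t, a t * quotDM B γ i = quotDM B γ i * a t)
    (τ : PrimesOff S → T)
    (ha : ∀ (l : PrimesOff S) (x x' : B.M),
      R.ι x' = (diaLin O θ (dℓ l) * actH Sy O θ (MvPolynomial.X (Sum.inl (idx l)))) (R.ι x) →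
      a (τ l) (fmk (frD B) γ x) = fmk (frD B) γ x')
    {Ω : Type*} [CommRing Ω] [Algebra O Ω] [Nontrivial Ω] (θpt : T →ₐ[O] Ω)
    (hθ : ∀ r : T, (∀ m, a r m ∈ LinearMap.range (quotDM B γ i - 1)) → θpt r = 0) :
    ∃ θb : ↥(heckeAlgebra N'' 2 S) →+* IsLocalRing.ResidueField O,
      (∀ l : PrimesOff S, θb (formsGenS N'' S l) = ev (MvPolynomial.X (Sum.inl (idx l)))) ∧
      ∃ θ₂ : Tloc O θb →ₐ[O] Ω,
        (∀ l : PrimesOff S, θ₂ (piT O θb (formsGenS N'' S l)) = θpt (τ l)) ∧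
        ∀ x, θ₂ x ∈ θpt.range := by
  -- `res ∘ cores = ∑ D^j`
  have hrc : ∀ x : Additive (GammaH θ) →+ O,
      resLin O θ π (coresLin O θ π rep hrep x)
        = ∑ j ∈ Finset.range q, ((fun i => diaLin O θ (dd i)) (Fin.natAdd s i) ^ j) x :=
    fun x => resLin_coresLin_eq_sum_pow O θ π rep hrep q (dd (Fin.natAdd s i)) hd0 hord hcard x
  -- the lower primary part is nonzero
  haveI hnt : Nontrivial ↥(Base.locSub (actH Sy O (π.comp θ)) 𝔪) :=
    nontrivial_lower R (actH Sy O (π.comp θ)) (resLin O θ π) (coresLin O θ π rep hrep)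
      (fun t y => resLin_act O θ π Sy t y) (fun t x => coresLin_act O θ π rep hrep Sy t x)
      γ i q hrc htf a θpt hθ
  obtain ⟨θb, hθb, hloc⟩ := exists_residual Sy (π.comp θ) 𝔪 ev hevC hker hbnd S dℓ tw htw
    hp hp2 hpO n hpow idx hidx
  refine ⟨θb, hθb, ?_⟩
  exact @exists_point_lower_tw O _ _ (Sy.𝕋 O) _ _ M0 _ _ act0 s k Nk B
    (Additive (GammaH θ) →+ O) _ _ (actH Sy O θ) 𝔪 (fun i => diaLin O θ (dd i)) R
    (Additive (GammaH (π.comp θ)) →+ O) _ _ (actH Sy O (π.comp θ))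
    (fun i => diaLin O (π.comp θ) (dd i)) (dia_act Sy (π.comp θ) dd)
    (resLin O θ π) (coresLin O θ π rep hrep)
    (fun t y => resLin_act O θ π Sy t y) (fun t x => coresLin_act O θ π rep hrep Sy t x)
    (fun i y => resLin_dia O θ π (dd i) y) (fun i x => coresLin_dia O θ π rep hrep (dd i) x)
    γ i q hrc htf (finite_locSub Sy (π.comp θ) 𝔪) (free_locSub Sy (π.comp θ) 𝔪)
    ↥(heckeAlgebra N'' 2 S) _ (twLoc Sy (π.comp θ) 𝔪 hbnd S dℓ tw htw)
    (twLoc_comm_Elow Sy (π.comp θ) 𝔪 dd hbnd S dℓ tw htw) θb hloc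
    (PrimesOff S) (formsGenS N'' S)
    (Fermat.Agent.GB.B4.Twist.TwHom.closure_range_formsGenS N'' S)
    T _ _ a haD τ
    (fun l => diaLin O θ (dℓ l) * actH Sy O θ (MvPolynomial.X (Sum.inl (idx l))))
    (fun l => diaLin O (π.comp θ) (dℓ l)
      * actH Sy O (π.comp θ) (MvPolynomial.X (Sum.inl (idx l))))
    (fun l y => by
      rw [Module.End.mul_apply, Module.End.mul_apply, resLin_dia, resLin_act])
    (fun l y => coe_twLoc_formsGenS Sy (π.comp θ) 𝔪 hbnd S dℓ tw htw l (idx l) (hidx l) y)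
    ha Ω _ _ ‹_› θpt hθ

end Main

end Fermat.Agent.GB.P5.LowerTw
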