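/-
GATE-B / GB-P5-1PT-TOWERGLUE stage 1 (helper67): **helper49's `LowerTw.exists_lower_point` at THE big
level of B3** (`Plug.bigLevel` / `Plug.bigReal`), lower level `GammaH (π ∘ θ)` with `ker π` the
coordinate of the Taylor–Wiles diamond `i` (e.g. helper44's `piSkip`, `i₀ = k - 1 - i`).

Discharged here: `[Fintype π.ker] rep hrep hd0 hord hcard` (`TowerInstSkip`), `q := Nfun …`,
`htf` (`TorsFree`), `hpow` (`n := sup e`), `hp hp2 hpO` (from `Plug.Hyp`).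
Left as binders, VERBATIM from `exists_lower_point`: the lower-level (BND) `hbnd`, the twist `tw htw`
of the forms level `N''` (helper44 `TwSkip.exists_tw_skip`), the residual evaluation `ev hevC hker𝔪`,
the symbol index `idx hidx`, and the top Hecke ring `T a haD τ ha` with the point `θpt hθ` (`= Occ₁`).
-/
import Mathlib
import Fermat.Agent.GB.P5.LowerTw
import Fermat.Agent.GB.P5.TowerInstSkip

set_option autoImplicit false
set_option linter.unusedSectionVars false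
set_option linter.style.haveILetI false

open scoped MatrixGroups
open CongruenceSubgroup Matrix Matrix.SpecialLinearGroup ModularCurve.Period CuspForm
open Fermat.Agent.S16_helper49 Fermat.Agent.GM.B Fermat.Agent.GM.EisClass
open Fermat.Agent.GB.B3 Fermat.Agent.GB.B3.EisGamma0 Fermat.Agent.GB.B3.GamH
open Fermat.Agent.GB.B3.RealLevel Fermat.Agent.GB.B3.HeckeActH Fermat.Agent.GB.B3.HeckeAct
open Fermat.Agent.GB.B3.CycInst Fermat.Agent.GB.B3.StepInst Fermat.Agent.GB.B3.TWLevel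
open Fermat.Agent.GB.B3.ChiLevelMulti
open Fermat.Agent.GB.B3.Tower Fermat.Agent.GB.B3.Final Fermat.Agent.GB.B3.TWChars
open Fermat.Agent.GB.B3.FinalTW Fermat.Agent.GB.B3.Plug
open Fermat.Agent.GJ.J2.ZStruct Fermat.Agent.GJ.J2.Lat
open Fermat.Agent.GB.B4.Twist.Asm Fermat.Agent.GB.B4.Twist.TwFinal
open Fermat.Agent.GB.B7.TwU Fermat.Agent.GB.B7.UqOne
open Fermat.Agent.GB.B4.Datum.ImageRing Fermat.Agent.GB.B4.Datum.Carrier
open Fermat.Agent.GB.P5.LowerHom Fermat.Agent.GB.P5.LowerLevel Fermat.Agent.GB.P5.LowerTw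
open Fermat.Agent.GB.P5.TowerInst Fermat.Agent.GB.P5.TowerInstSkip Fermat.Agent.GB.P5.TwSkip

namespace Fermat.Agent.GB.P5.LowerTwTower

variable {N p : ℕ} [NeZero N] [hpF : Fact p.Prime] {K : ℕ} {r e N' : ℕ → ℕ}
variable (Sy : Symbols N)
variable {O : Type} [CommRing O] [IsDomain O] [IsPrincipalIdealRing O] [IsLocalRing O]
  [IsAdicComplete (IsLocalRing.maximalIdeal O) O] [Module.IsTorsionFree ℤ O]
variable (𝔪 : Ideal (Sy.𝕋 O)) [𝔪.IsMaximal]
variable (H : PrimeData N p K r e N') {ϖ : O} {s0 : Sy.ι₁} (h : Hyp Sy 𝔪 p ϖ s0)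
variable (s k : ℕ) {Δ'' : Type} [CommGroup Δ''] (π : (∀ i : Fin (s + k), Δs p e i) →* Δ'')

/-- every element of `∏_{i' < j} ℤ/p^(e i')` is killed by `p ^ sup e` -/
theorem pow_sup_eq_one (H : PrimeData N p K r e N') (j : ℕ) (δ : ∀ i' : Fin j, Δs p e i') :
    δ ^ p ^ (Finset.univ.sup fun i' : Fin j => e i') = 1 := by
  funext i'
  rw [Pi.pow_apply, Pi.one_apply]
  have hle : e i' ≤ Finset.univ.sup fun i' : Fin j => e i' :=
    Finset.le_sup (f := fun i' : Fin j => e i') (Finset.mem_univ i')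
  obtain ⟨c, hc⟩ := pow_dvd_pow p hle
  have h1 : (δ i') ^ p ^ e i' = 1 := by
    have h2 := pow_card_eq_one' (G := Δs p e i') (x := δ i')
    rwa [H.card_target hpF.out] at h2
  rw [hc, pow_mul, h1, one_pow]

/-- **`hpow`** at any quotient of the big character -/
theorem hpow_tower (j : ℕ) {Δ' : Type} [CommGroup Δ'] (π' : (∀ i' : Fin j, Δs p e i') →* Δ')
    (d : Gamma0 N) :
    chi (π'.comp (Theta (Δs p e) H.psi j))
      (d ^ p ^ (Finset.univ.sup fun i' : Fin j => e i')) = 1 := by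
  rw [map_pow]
  show π' (chi (Theta (Δs p e) H.psi j) d) ^ _ = 1
  rw [← map_pow, pow_sup_eq_one H, map_one]

/-- **(1pt), module half, at the big level of B3** (`π`-generic, `hker`). -/
theorem exists_lower_point_tower (i : Fin k)
    (hker : ∀ δ : (∀ i' : Fin (s + k), Δs p e i'),
      δ ∈ π.ker ↔ ∀ i', i' ≠ Fin.rev (Fin.natAdd s i) → δ i' = 1)
    (hbnd : ∀ y : Additive (GammaH (π.comp (Theta (Δs p e) H.psi (s + k)))) →+ O,
      IsLoc (actH Sy O (π.comp (Theta (Δs p e) H.psi (s + k)))) 𝔪 y →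
      y ∈ parabolicHoms O (GammaH (π.comp (Theta (Δs p e) H.psi (s + k)))) O)
    {N'' : ℕ} [NeZero N''] (S : Set ℕ) (dℓ : PrimesOff S → Gamma0 N)
    (tw : ↥(heckeAlgebra N'' 2 S) →+*
      Module.End O ↥(parabolicHoms O (GammaH (π.comp (Theta (Δs p e) H.psi (s + k)))) O))
    (htw : ∀ (l : PrimesOff S)
      (v : ↥(parabolicHoms O (GammaH (π.comp (Theta (Δs p e) H.psi (s + k)))) O)),
      ((tw (formsGenS N'' S l) v :
          ↥(parabolicHoms O (GammaH (π.comp (Theta (Δs p e) H.psi (s + k)))) O)) :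
          Additive (GammaH (π.comp (Theta (Δs p e) H.psi (s + k)))) →+ O)
        = diaH (π.comp (Theta (Δs p e) H.psi (s + k))) O (dℓ l)
            (genH (π.comp (Theta (Δs p e) H.psi (s + k))) O l.1
              (v : Additive (GammaH (π.comp (Theta (Δs p e) H.psi (s + k)))) →+ O)))
    (ev : Sy.𝕋 O →+* IsLocalRing.ResidueField O)
    (hevC : ∀ c : O, ev (MvPolynomial.C c) = IsLocalRing.residue O c)
    (hker𝔪 : ∀ t : Sy.𝕋 O, t ∈ 𝔪 ↔ ev t = 0)
    (idx : PrimesOff S → Sy.ι₁) (hidx : ∀ l, Sy.ℓ (idx l) = (l.1 : ℕ))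
    (γ : Fin s → O) (hγ : ∀ v, γ v ^ Nfun p e (s + k) (Fin.castAdd k v) = 1)
    {T : Type*} [CommRing T] [Algebra O T]
    (a : T →ₐ[O] Module.End O (FamCoinv (frD (bigLevel Sy 𝔪 H h (s + k))) γ))
    (haD : ∀ t, a t * quotDM (bigLevel Sy 𝔪 H h (s + k)) γ i
      = quotDM (bigLevel Sy 𝔪 H h (s + k)) γ i * a t)
    (τ : PrimesOff S → T)
    (ha : ∀ (l : PrimesOff S) (x x' : (bigLevel Sy 𝔪 H h (s + k)).M),
      (bigReal Sy 𝔪 H h (s + k)).ι x'
        = (diaLin O (Theta (Δs p e) H.psi (s + k)) (dℓ l)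
            * actH Sy O (Theta (Δs p e) H.psi (s + k)) (MvPolynomial.X (Sum.inl (idx l))))
          ((bigReal Sy 𝔪 H h (s + k)).ι x) →
      a (τ l) (fmk (frD (bigLevel Sy 𝔪 H h (s + k))) γ x)
        = fmk (frD (bigLevel Sy 𝔪 H h (s + k))) γ x')
    {Ω : Type*} [CommRing Ω] [Algebra O Ω] [Nontrivial Ω] (θpt : T →ₐ[O] Ω)
    (hθ : ∀ r : T, (∀ m, a r m ∈
      LinearMap.range (quotDM (bigLevel Sy 𝔪 H h (s + k)) γ i - 1)) → θpt r = 0) :
    ∃ θb : ↥(heckeAlgebra N'' 2 S) →+* IsLocalRing.ResidueField O,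
      (∀ l : PrimesOff S, θb (formsGenS N'' S l) = ev (MvPolynomial.X (Sum.inl (idx l)))) ∧
      ∃ θ₂ : Tloc O θb →ₐ[O] Ω,
        (∀ l : PrimesOff S, θ₂ (piT O θb (formsGenS N'' S l)) = θpt (τ l)) ∧
        ∀ x, θ₂ x ∈ θpt.range := by
  classical
  haveI : Fintype π.ker := Fintype.ofFinite _
  obtain ⟨rep, hrep, -⟩ := exists_rep_tower (O := O) H s k π i hker
  have hpO : (p : O) ∈ IsLocalRing.maximalIdeal O := by
    rw [h.hmax]
    exact h.hpϖ
  exact exists_lower_point Sy (Theta (Δs p e) H.psi (s + k)) 𝔪 π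
    (dfun (H.dd hpF.out) (s + k)) (bigReal Sy 𝔪 H h (s + k)) rep hrep hbnd S dℓ tw htw
    ev hevC hker𝔪 hpF.out h.hp2 hpO _ (hpow_tower H (s + k) π) idx hidx γ i
    (Nfun p e (s + k) (Fin.natAdd s i)) (hd0_tower H s k π i hker) (hord_tower H s k i)
    (hcard_tower H s k π i hker) (htf_tower Sy 𝔪 H h s k i γ hγ) a haD τ ha θpt hθ

/-- **(1pt), module half, at the big level of B3, lower level = `piSkip`** (`i₀ = k - 1 - i`). -/
theorem exists_lower_point_piSkip (i : Fin k) (i₀ : ℕ) (hi₀ : i₀ < s + k)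
    (hi₀i : i₀ = k - 1 - (i : ℕ))
    (hbnd : ∀ y : Additive (GammaH ((piSkip (Δs p e) i₀ (s + k) hi₀).comp
        (Theta (Δs p e) H.psi (s + k)))) →+ O,
      IsLoc (actH Sy O ((piSkip (Δs p e) i₀ (s + k) hi₀).comp
        (Theta (Δs p e) H.psi (s + k)))) 𝔪 y →
      y ∈ parabolicHoms O (GammaH ((piSkip (Δs p e) i₀ (s + k) hi₀).comp
        (Theta (Δs p e) H.psi (s + k)))) O)
    {N'' : ℕ} [NeZero N''] (S : Set ℕ) (dℓ : PrimesOff S → Gamma0 N)
    (tw : ↥(heckeAlgebra N'' 2 S) →+*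
      Module.End O ↥(parabolicHoms O (GammaH ((piSkip (Δs p e) i₀ (s + k) hi₀).comp
        (Theta (Δs p e) H.psi (s + k)))) O))
    (htw : ∀ (l : PrimesOff S)
      (v : ↥(parabolicHoms O (GammaH ((piSkip (Δs p e) i₀ (s + k) hi₀).comp
        (Theta (Δs p e) H.psi (s + k)))) O)),
      ((tw (formsGenS N'' S l) v :
          ↥(parabolicHoms O (GammaH ((piSkip (Δs p e) i₀ (s + k) hi₀).comp
            (Theta (Δs p e) H.psi (s + k)))) O)) :
          Additive (GammaH ((piSkip (Δs p e) i₀ (s + k) hi₀).comp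
            (Theta (Δs p e) H.psi (s + k)))) →+ O)
        = diaH ((piSkip (Δs p e) i₀ (s + k) hi₀).comp (Theta (Δs p e) H.psi (s + k))) O (dℓ l)
            (genH ((piSkip (Δs p e) i₀ (s + k) hi₀).comp (Theta (Δs p e) H.psi (s + k))) O l.1
              (v : Additive (GammaH ((piSkip (Δs p e) i₀ (s + k) hi₀).comp
                (Theta (Δs p e) H.psi (s + k)))) →+ O)))
    (ev : Sy.𝕋 O →+* IsLocalRing.ResidueField O)
    (hevC : ∀ c : O, ev (MvPolynomial.C c) = IsLocalRing.residue O c)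
    (hker𝔪 : ∀ t : Sy.𝕋 O, t ∈ 𝔪 ↔ ev t = 0)
    (idx : PrimesOff S → Sy.ι₁) (hidx : ∀ l, Sy.ℓ (idx l) = (l.1 : ℕ))
    (γ : Fin s → O) (hγ : ∀ v, γ v ^ Nfun p e (s + k) (Fin.castAdd k v) = 1)
    {T : Type*} [CommRing T] [Algebra O T]
    (a : T →ₐ[O] Module.End O (FamCoinv (frD (bigLevel Sy 𝔪 H h (s + k))) γ))
    (haD : ∀ t, a t * quotDM (bigLevel Sy 𝔪 H h (s + k)) γ i
      = quotDM (bigLevel Sy 𝔪 H h (s + k)) γ i * a t)
    (τ : PrimesOff S → T)
    (ha : ∀ (l : PrimesOff S) (x x' : (bigLevel Sy 𝔪 H h (s + k)).M),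
      (bigReal Sy 𝔪 H h (s + k)).ι x'
        = (diaLin O (Theta (Δs p e) H.psi (s + k)) (dℓ l)
            * actH Sy O (Theta (Δs p e) H.psi (s + k)) (MvPolynomial.X (Sum.inl (idx l))))
          ((bigReal Sy 𝔪 H h (s + k)).ι x) →
      a (τ l) (fmk (frD (bigLevel Sy 𝔪 H h (s + k))) γ x)
        = fmk (frD (bigLevel Sy 𝔪 H h (s + k))) γ x')
    {Ω : Type*} [CommRing Ω] [Algebra O Ω] [Nontrivial Ω] (θpt : T →ₐ[O] Ω)
    (hθ : ∀ r : T, (∀ m, a r m ∈
      LinearMap.range (quotDM (bigLevel Sy 𝔪 H h (s + k)) γ i - 1)) → θpt r = 0) :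
    ∃ θb : ↥(heckeAlgebra N'' 2 S) →+* IsLocalRing.ResidueField O,
      (∀ l : PrimesOff S, θb (formsGenS N'' S l) = ev (MvPolynomial.X (Sum.inl (idx l)))) ∧
      ∃ θ₂ : Tloc O θb →ₐ[O] Ω,
        (∀ l : PrimesOff S, θ₂ (piT O θb (formsGenS N'' S l)) = θpt (τ l)) ∧
        ∀ x, θ₂ x ∈ θpt.range :=
  exists_lower_point_tower Sy 𝔪 H h s k (piSkip (Δs p e) i₀ (s + k) hi₀) i
    (hker_piSkip s k i i₀ hi₀ hi₀i) hbnd S dℓ tw htw ev hevC hker𝔪 idx hidx γ hγ a haD τ ha θpt hθ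

end Fermat.Agent.GB.P5.LowerTwTower
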