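/-
GATE-B / GB-P5-1PT-TOWERGLUE stage 2 (helper49): **helper67's `LowerTwTower.exists_lower_point_piSkip`
with the lower-level analytic binders discharged** — (BND) at `piSkip ∘ Theta` (squarefree level,
`LowerInputs.hbnd_skip`) and the twist ring homomorphism of the lower level with the SAME diamond
representatives `dℓ` as the top level (helper44 `TwSkip.exists_tw_skip`, `genH` form
`LowerInputs.exists_tw_skip_genH`).

Left as binders: the forms level `N''` with its equation `hN''`, the set `S ⊇ primes of N''`,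
`dℓ` with the TOP-level `hdℓ`, the residual evaluation `ev hevC hker𝔪`, the symbol index `idx hidx`,
and the top Hecke ring `T a haD τ ha` with the point `θpt hθ` (`= Occ₁`).
-/
import Mathlib
import Fermat.Agent.GB.P5.LowerTwTower
import Fermat.Agent.GB.P5.LowerInputs

set_option autoImplicit false
set_option linter.unusedSectionVars false
set_option linter.style.haveILetI false

open scoped MatrixGroups
open CongruenceSubgroup Matrix Matrix.SpecialLinearGroup ModularCurve.Period CuspForm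
open Fermat.Agent.S16_helper49 Fermat.Agent.GM.B Fermat.Agent.GM.EisClass
open Fermat.Agent.GB.B3 Fermat.Agent.GB.B3.EisGamma0 Fermat.Agent.GB.B3.GamH
open Fermat.Agent.GB.B3.RealLevel Fermat.Agent.GB.B3.HeckeActH Fermat.Agent.GB.B3.HeckeAct
open Fermat.Agent.GB.B3.CycInst Fermat.Agent.GB.B3.StepInst Fermat.Agent.GB.B3.TWLevel
open Fermat.Agent.GB.B3.ChiLevelMulti
open Fermat.Agent.GB.B3.Tower Fermat.Agent.GB.B3.Final Fermat.Agent.GB.B3.TWChars
open Fermat.Agent.GB.B3.FinalTW Fermat.Agent.GB.B3.Plug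
open Fermat.Agent.GJ.J2.ZStruct Fermat.Agent.GJ.J2.Lat
open Fermat.Agent.GB.B4.Twist.Asm Fermat.Agent.GB.B4.Twist.TwFinal
open Fermat.Agent.GB.B7.TwU Fermat.Agent.GB.B7.UqOne
open Fermat.Agent.GB.B4.Datum.ImageRing Fermat.Agent.GB.B4.Datum.Carrier
open Fermat.Agent.GB.P5.LowerTwTower Fermat.Agent.GB.P5.LowerInputs Fermat.Agent.GB.P5.TwSkip

namespace Fermat.Agent.GB.P5.LowerTwSkip

variable {N p : ℕ} [NeZero N] [hpF : Fact p.Prime] {K : ℕ} {r e N' : ℕ → ℕ}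
variable (Sy : Symbols N)
variable {O : Type} [CommRing O] [IsDomain O] [IsPrincipalIdealRing O] [IsLocalRing O]
  [IsAdicComplete (IsLocalRing.maximalIdeal O) O] [Module.IsTorsionFree ℤ O] [CharZero O]
variable (𝔪 : Ideal (Sy.𝕋 O)) [𝔪.IsMaximal]
variable (H : PrimeData N p K r e N') {ϖ : O} {s0 : Sy.ι₁} (h : Hyp Sy 𝔪 p ϖ s0)
variable (s k : ℕ)

/-- **(1pt), module half, at the big level of B3, everything lower-level discharged**: a point
`θpt` of the top Hecke ring `T` occurring in `M_Q / (D_i - 1) M_Q` (`M_Q = FamCoinv (frD B) γ`,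
`B = Plug.bigLevel … (s + k)`) comes from a point `θ₂` of the localised Hecke ring
`Carrier.Tloc O θb` of forms of level `N'' = N * ∏_{i' ≠ i₀} r i'` (`i₀ = k - 1 - i`, so
`r i₀ ∥ N''` : `LowerInputs.dvd_skip`, `not_sq_dvd_skip`), with the same eigenvalues. -/
theorem exists_lower_point_skip (hN : Squarefree N) (hsk : s + k ≤ K)
    (i : Fin k) (i₀ : ℕ) (hi₀ : i₀ < s + k) (hi₀i : i₀ = k - 1 - (i : ℕ))
    {N'' : ℕ} [NeZero N''] (hN'' : N'' = N * ∏ i' : Fin (s + k - 1), r (skip i₀ i'))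
    (S : Set ℕ) (hS : ∀ q : ℕ, q.Prime → q ∣ N'' → q ∈ S)
    (dℓ : PrimesOff S → Gamma0 N)
    (hdℓ : ∀ (l : PrimesOff S) (u : (ZMod N)ˣ), (u : ZMod N) = ((l.1 : ℕ) : ZMod N) →
      chi (Theta (Δs p e) H.psi (s + k)) (dℓ l) ^ 2 * Theta (Δs p e) H.psi (s + k) u = 1)
    (ev : Sy.𝕋 O →+* IsLocalRing.ResidueField O)
    (hevC : ∀ c : O, ev (MvPolynomial.C c) = IsLocalRing.residue O c)
    (hker𝔪 : ∀ t : Sy.𝕋 O, t ∈ 𝔪 ↔ ev t = 0)
    (idx : PrimesOff S → Sy.ι₁) (hidx : ∀ l, Sy.ℓ (idx l) = (l.1 : ℕ))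
    (γ : Fin s → O) (hγ : ∀ v, γ v ^ Nfun p e (s + k) (Fin.castAdd k v) = 1)
    {T : Type*} [CommRing T] [Algebra O T]
    (a : T →ₐ[O] Module.End O (FamCoinv (frD (bigLevel Sy 𝔪 H h (s + k))) γ))
    (haD : ∀ t, a t * quotDM (bigLevel Sy 𝔪 H h (s + k)) γ i
      = quotDM (bigLevel Sy 𝔪 H h (s + k)) γ i * a t)
    (τ : PrimesOff S → T)
    (ha : ∀ (l : PrimesOff S) (x x' : (bigLevel Sy 𝔪 H h (s + k)).M),
      (bigReal Sy 𝔪 H h (s + k)).ι x'
        = (diaLin O (Theta (Δs p e) H.psi (s + k)) (dℓ l)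
            * actH Sy O (Theta (Δs p e) H.psi (s + k)) (MvPolynomial.X (Sum.inl (idx l))))
          ((bigReal Sy 𝔪 H h (s + k)).ι x) →
      a (τ l) (fmk (frD (bigLevel Sy 𝔪 H h (s + k))) γ x)
        = fmk (frD (bigLevel Sy 𝔪 H h (s + k))) γ x')
    {Ω : Type*} [CommRing Ω] [Algebra O Ω] [Nontrivial Ω] (θpt : T →ₐ[O] Ω)
    (hθ : ∀ r : T, (∀ m, a r m ∈
      LinearMap.range (quotDM (bigLevel Sy 𝔪 H h (s + k)) γ i - 1)) → θpt r = 0) :
    ∃ θb : ↥(heckeAlgebra N'' 2 S) →+* IsLocalRing.ResidueField O,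
      (∀ l : PrimesOff S, θb (formsGenS N'' S l) = ev (MvPolynomial.X (Sum.inl (idx l)))) ∧
      ∃ θ₂ : Tloc O θb →ₐ[O] Ω,
        (∀ l : PrimesOff S, θ₂ (piT O θb (formsGenS N'' S l)) = θpt (τ l)) ∧
        ∀ x, θ₂ x ∈ θpt.range := by
  obtain ⟨tw, htw⟩ := exists_tw_skip_genH (O := O) H hpF.out h.hp2 (s + k) hsk i₀ hi₀ hN'' S hS
    dℓ hdℓ
  exact exists_lower_point_piSkip Sy 𝔪 H h s k i i₀ hi₀ hi₀i
    (fun y hy => hbnd_skip H Sy 𝔪 h hN hpF.out i₀ (s + k) hi₀ y hy)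
    S dℓ tw htw ev hevC hker𝔪 idx hidx γ hγ a haD τ ha θpt hθ

end Fermat.Agent.GB.P5.LowerTwSkip
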