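/-
GATE-B / GB-P5-1PT-GAL (helper66): **the GALOIS half of `OnePt`** = the `h1` binder of
`GB/B9/ProviderFlat/G4Asm.exists_x_of_residual` from a point of the LOWER level.

Frame.  `H` = Hecke–Galois datum at the Taylor–Wiles level `N` (ring `T`), `φ : T → T_Q` local
(`ρ_Q = pushRep H φ hφ`); `H'` = datum at the LOWER level `N'` (`r ∥ N'`, ring `T'`),
`φ' : T' →ₐ[𝒪] T''` any `𝒪`-algebra map to the lower-level image ring `T''`.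
helper49's module half (`GB/P5/LowerPoint.exists_point_lower`) turns a point `θ₁ : T_Q →ₐ[𝒪] Ω`
occurring in `M/(D_i - 1)M` into a point `θ'' : T'' →ₐ[𝒪] Ω` with the same eigenvalues on the
generators.  Here:

* `algHom_mem_of_T`  : a point of `T'` whose values at the good `T_ℓ` lie in a subalgebra `A ≤ Ω`
  takes all its values in `A` (`T' = 𝒪[π(T_ℓ)]`, no `U`-generators since `primes(N') ⊆ S'`);
* `chi_point_eq_one_of_lower` : `θ₁ (χ k s) = 1` for every inertia element `s` at `P ∣ r`, every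
  diagonalisation `(Bas, χ)` of `ρ_Q|D_P` — from `θ''` and the matching at the good primes
  (`UnitGlobalPt.chi_point_eq_one_of_algHom` with `θ₂ := θ'' ∘ φ'`);
* `chi_point_eq_one_of_lower_tw` : the same with the matching stated on the `tw`-images
  (`φ (H.π t) = tw t`, `φ' (H'.π t) = tw' t` = the `PushTloc` output shape).
-/
import Fermat.Agent.GB.B9.UnitGlobalPt

set_option autoImplicit false
set_option linter.unusedSectionVars false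

namespace Fermat.Agent.GB.P5.OnePtGal

open Polynomial IsLocalRing CuspForm
open Fermat.Agent.Common_helper32

section Range

variable {N' : ℕ} [NeZero N'] {S' : Finset ℕ}
  {𝒪 : Type} [CommRing 𝒪] [IsDomain 𝒪] [IsDiscreteValuationRing 𝒪]
  [IsAdicComplete (IsLocalRing.maximalIdeal 𝒪) 𝒪]
  {θ' : CuspForm.heckeAlgebra N' 2 (↑S' : Set ℕ) →+* IsLocalRing.ResidueField 𝒪}
  {T' : Type} [CommRing T'] [IsLocalRing T'] [IsNoetherianRing T']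
  [IsAdicComplete (IsLocalRing.maximalIdeal T') T'] [Algebra 𝒪 T'] [IsLocalHom (algebraMap 𝒪 T')]
  [Module.Finite 𝒪 T'] [Module.Free 𝒪 T']
  {Ω : Type*} [CommRing Ω] [Algebra 𝒪 Ω]

/-- A ring homomorphism out of `heckeAlgebra N' 2 S'` (all primes of `N'` in `S'`) whose values at
the good `T_ℓ` lie in a subring takes all its values there. -/
theorem ringHom_mem_of_T (hNS' : ∀ q : ℕ, q.Prime → q ∣ N' → q ∈ S')
    (f : CuspForm.heckeAlgebra N' 2 (↑S' : Set ℕ) →+* Ω) (A : Subring Ω)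
    (h : ∀ (ℓ : ℕ) (hℓ : ℓ.Prime) (hℓN' : ¬ ℓ ∣ N') (hℓS' : ℓ ∉ (↑S' : Set ℕ)),
      f (heckeAlgebra.T hℓ hℓN' hℓS') ∈ A)
    (y : CuspForm.heckeAlgebra N' 2 (↑S' : Set ℕ)) : f y ∈ A := by
  obtain ⟨v, hv⟩ := y
  induction hv using Algebra.adjoin_induction with
  | mem x hx =>
    rcases hx with ⟨ℓ, hℓ, hℓN, hℓS, rfl⟩ | ⟨q, hqN, hq, hqS, rfl⟩
    · exact h ℓ hℓ hℓN hℓS
    · exact absurd (Finset.mem_coe.mpr (hNS' q hq hqN)) hqS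
  | algebraMap r =>
    have e : (⟨algebraMap ℤ _ r, Subalgebra.algebraMap_mem _ r⟩ :
        CuspForm.heckeAlgebra N' 2 (↑S' : Set ℕ)) = (r : CuspForm.heckeAlgebra N' 2 (↑S' : Set ℕ)) := by
      apply Subtype.ext
      simp
    rw [e, map_intCast]
    exact intCast_mem A r
  | add x y hx hy ihx ihy =>
    have e : (⟨x + y, Subalgebra.add_mem _ hx hy⟩ : CuspForm.heckeAlgebra N' 2 (↑S' : Set ℕ))
        = ⟨x, hx⟩ + ⟨y, hy⟩ := rfl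
    rw [e, map_add]
    exact A.add_mem ihx ihy
  | mul x y hx hy ihx ihy =>
    have e : (⟨x * y, Subalgebra.mul_mem _ hx hy⟩ : CuspForm.heckeAlgebra N' 2 (↑S' : Set ℕ))
        = ⟨x, hx⟩ * ⟨y, hy⟩ := rfl
    rw [e, map_mul]
    exact A.mul_mem ihx ihy

/-- **range control**: a point of the Hecke ring of a datum (all primes of the level in `S'`) whose
values at the good `T_ℓ` lie in a subalgebra `A` takes all its values in `A`. -/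
theorem algHom_mem_of_T (H' : HeckeGaloisRepDatum N' (↑S' : Set ℕ) 𝒪 θ' T')
    (hNS' : ∀ q : ℕ, q.Prime → q ∣ N' → q ∈ S')
    (θ₂ : T' →ₐ[𝒪] Ω) (A : Subalgebra 𝒪 Ω)
    (h : ∀ (ℓ : ℕ) (hℓ : ℓ.Prime) (hℓN' : ¬ ℓ ∣ N') (hℓS' : ℓ ∉ (↑S' : Set ℕ)),
      θ₂ (H'.π (heckeAlgebra.T hℓ hℓN' hℓS')) ∈ A) (t : T') : θ₂ t ∈ A := by
  have htop : t ∈ Algebra.adjoin 𝒪 (Set.range H'.π) := by
    rw [H'.adjoin_range_π]
    trivial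
  induction htop using Algebra.adjoin_induction with
  | mem x hx =>
    obtain ⟨y, rfl⟩ := hx
    exact ringHom_mem_of_T hNS' ((θ₂ : T' →+* Ω).comp H'.π) A.toSubring h y
  | algebraMap r =>
    rw [AlgHom.commutes]
    exact A.algebraMap_mem r
  | add x y _ _ hx hy =>
    rw [map_add]
    exact A.add_mem hx hy
  | mul x y _ _ hx hy =>
    rw [map_mul]
    exact A.mul_mem hx hy

end Range

section Hecke

variable {p : ℕ} {N : ℕ} [NeZero N] {S : Finset ℕ}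
  {𝒪 : Type} [CommRing 𝒪] [IsDomain 𝒪] [IsDiscreteValuationRing 𝒪]
  [IsAdicComplete (IsLocalRing.maximalIdeal 𝒪) 𝒪]
  {θ : CuspForm.heckeAlgebra N 2 (↑S : Set ℕ) →+* IsLocalRing.ResidueField 𝒪}
  {T : Type} [CommRing T] [IsLocalRing T] [IsNoetherianRing T]
  [IsAdicComplete (IsLocalRing.maximalIdeal T) T] [Algebra 𝒪 T] [IsLocalHom (algebraMap 𝒪 T)]
  [Module.Finite 𝒪 T] [Module.Free 𝒪 T]
  {TQ : Type} [CommRing TQ] [IsLocalRing TQ] [IsNoetherianRing TQ] [Algebra 𝒪 TQ]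
  [Algebra.IsIntegral 𝒪 TQ]
  {N' : ℕ} [NeZero N'] {S' : Finset ℕ}
  {θ' : CuspForm.heckeAlgebra N' 2 (↑S' : Set ℕ) →+* IsLocalRing.ResidueField 𝒪}
  {T' : Type} [CommRing T'] [IsLocalRing T'] [IsNoetherianRing T']
  [IsAdicComplete (IsLocalRing.maximalIdeal T') T'] [Algebra 𝒪 T'] [IsLocalHom (algebraMap 𝒪 T')]
  [Module.Finite 𝒪 T'] [Module.Free 𝒪 T']
  {T'' : Type*} [CommRing T''] [Algebra 𝒪 T'']
  {Ω : Type} [CommRing Ω] [IsReduced Ω] [Nontrivial Ω] [Algebra 𝒪 Ω]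

open Fermat.Agent.GB.B4.Datum.Push

/-- **(1pt), Galois half of `OnePt`.**  `θ₁` a point of `T_Q`, `θ''` a point of the lower-level
image ring `T''` (`φ' : T' →ₐ[𝒪] T''`, `H'` a datum at the level `N'` with `r ∥ N'`), with
`θ'' (φ' (H'.π T_ℓ)) = θ₁ (φ (H.π T_ℓ))` at every prime `ℓ` good for both levels, and every prime good
for `N'` good for `N` (`hgood`).  Then `θ₁ (χ k s) = 1` for `s` in the inertia group at `P ∣ r`. -/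
theorem chi_point_eq_one_of_lower [Finite (ResidueField 𝒪)] [CharZero 𝒪]
    (H : HeckeGaloisRepDatum N (↑S : Set ℕ) 𝒪 θ T) (φ : T →+* TQ) (hφ : IsLocalHom φ)
    (H' : HeckeGaloisRepDatum N' (↑S' : Set ℕ) 𝒪 θ' T') (φ' : T' →ₐ[𝒪] T'')
    (θ₁ : TQ →ₐ[𝒪] Ω) (θ'' : T'' →ₐ[𝒪] Ω)
    (h2 : ∀ c : Ω, (2 : Ω) * c = 0 → c = 0)
    (hgood : ∀ ℓ : ℕ, ℓ.Prime → ¬ ℓ ∣ N' → ℓ ∉ (↑S' : Set ℕ) → ¬ ℓ ∣ N ∧ ℓ ∉ (↑S : Set ℕ))
    (hmatch : ∀ (ℓ : ℕ) (hℓ : ℓ.Prime) (hℓN : ¬ ℓ ∣ N) (hℓS : ℓ ∉ (↑S : Set ℕ))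
      (hℓN' : ¬ ℓ ∣ N') (hℓS' : ℓ ∉ (↑S' : Set ℕ)),
      θ'' (φ' (H'.π (heckeAlgebra.T hℓ hℓN' hℓS'))) = θ₁ (φ (H.π (heckeAlgebra.T hℓ hℓN hℓS))))
    (hp : p.Prime) (hp𝒪 : (p : 𝒪) ∈ IsLocalRing.maximalIdeal 𝒪) (hpS' : p ∈ S')
    (hNS' : ∀ q : ℕ, q.Prime → q ∣ N' → q ∈ S')
    {r : ℕ} (hr : r.Prime) (hrp : r ≠ p) (hrN' : r ∣ N') (hr2 : ¬ r ^ 2 ∣ N')
    (P : ValuationSubring Qb) (hP : P.LiesOverPrime r)
    (Bas : Module.Basis (Fin 2) TQ (pushRep H φ hφ).V)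
    (χ : Fin 2 → P.decompositionSubgroup ℚ →* TQˣ)
    (hχ : ∀ (i : Fin 2) (σ : P.decompositionSubgroup ℚ),
      (pushRep H φ hφ).ρ (σ : GQ) (Bas i) = (χ i σ : TQ) • Bas i)
    (s : GQ) (hs : s ∈ P.inertiaSubgroupIn ℚ) (hsD : s ∈ P.decompositionSubgroup ℚ)
    (k : Fin 2) : θ₁ (χ k ⟨s, hsD⟩ : TQ) = 1 := by
  classical
  let θ₂ : T' →ₐ[𝒪] Ω := θ''.comp φ'
  have hle : ∀ t, θ₂ t ∈ θ₁.range := by
    refine algHom_mem_of_T H' hNS' θ₂ θ₁.range ?_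
    intro ℓ hℓ hℓN' hℓS'
    obtain ⟨hℓN, hℓS⟩ := hgood ℓ hℓ hℓN' hℓS'
    exact ⟨_, (hmatch ℓ hℓ hℓN hℓS hℓN' hℓS').symm⟩
  have hN0 : N ≠ 0 := NeZero.ne N
  have hN'0 : N' ≠ 0 := NeZero.ne N'
  refine Fermat.Agent.GB.B9.UnitGlobalPt.chi_point_eq_one_of_algHom H φ hφ H' θ₁ θ₂ hle h2
    (S ∪ S' ∪ N.primeFactors ∪ N'.primeFactors) ?_
    (fun ℓ hℓ hℓN hℓS hℓN' hℓS' _ => (hmatch ℓ hℓ hℓN hℓS hℓN' hℓS').symm)
    hp hp𝒪 hpS' hNS' hr hrp hrN' hr2 P hP Bas χ hχ s hs hsD k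
  intro ℓ hℓ hℓB
  simp only [Finset.mem_union, not_or] at hℓB
  obtain ⟨⟨⟨hS, hS'⟩, hN⟩, hN'⟩ := hℓB
  refine ⟨fun h => hN (Nat.mem_primeFactors.mpr ⟨hℓ, h, hN0⟩), fun h => hS (Finset.mem_coe.mp h),
    fun h => hN' (Nat.mem_primeFactors.mpr ⟨hℓ, h, hN'0⟩), fun h => hS' (Finset.mem_coe.mp h)⟩

/-- **(1pt), Galois half, `tw`-image form** (`PushTloc.exists_galRep_flat` output shape at both
levels: `φ (H.π t) = tw t`, `φ' (H'.π t) = tw' t`; matching stated on `tw`, `tw'`). -/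
theorem chi_point_eq_one_of_lower_tw [Finite (ResidueField 𝒪)] [CharZero 𝒪]
    (H : HeckeGaloisRepDatum N (↑S : Set ℕ) 𝒪 θ T) (φ : T →+* TQ) (hφ : IsLocalHom φ)
    (tw : CuspForm.heckeAlgebra N 2 (↑S : Set ℕ) →+* TQ) (hφtw : ∀ t, φ (H.π t) = tw t)
    (H' : HeckeGaloisRepDatum N' (↑S' : Set ℕ) 𝒪 θ' T') (φ' : T' →ₐ[𝒪] T'')
    (tw' : CuspForm.heckeAlgebra N' 2 (↑S' : Set ℕ) →+* T'') (hφ'tw : ∀ t, φ' (H'.π t) = tw' t)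
    (θ₁ : TQ →ₐ[𝒪] Ω) (θ'' : T'' →ₐ[𝒪] Ω)
    (h2 : ∀ c : Ω, (2 : Ω) * c = 0 → c = 0)
    (hgood : ∀ ℓ : ℕ, ℓ.Prime → ¬ ℓ ∣ N' → ℓ ∉ (↑S' : Set ℕ) → ¬ ℓ ∣ N ∧ ℓ ∉ (↑S : Set ℕ))
    (hmatch : ∀ (ℓ : ℕ) (hℓ : ℓ.Prime) (hℓN : ¬ ℓ ∣ N) (hℓS : ℓ ∉ (↑S : Set ℕ))
      (hℓN' : ¬ ℓ ∣ N') (hℓS' : ℓ ∉ (↑S' : Set ℕ)),
      θ'' (tw' (heckeAlgebra.T hℓ hℓN' hℓS')) = θ₁ (tw (heckeAlgebra.T hℓ hℓN hℓS)))
    (hp : p.Prime) (hp𝒪 : (p : 𝒪) ∈ IsLocalRing.maximalIdeal 𝒪) (hpS' : p ∈ S')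
    (hNS' : ∀ q : ℕ, q.Prime → q ∣ N' → q ∈ S')
    {r : ℕ} (hr : r.Prime) (hrp : r ≠ p) (hrN' : r ∣ N') (hr2 : ¬ r ^ 2 ∣ N')
    (P : ValuationSubring Qb) (hP : P.LiesOverPrime r)
    (Bas : Module.Basis (Fin 2) TQ (pushRep H φ hφ).V)
    (χ : Fin 2 → P.decompositionSubgroup ℚ →* TQˣ)
    (hχ : ∀ (i : Fin 2) (σ : P.decompositionSubgroup ℚ),
      (pushRep H φ hφ).ρ (σ : GQ) (Bas i) = (χ i σ : TQ) • Bas i)
    (s : GQ) (hs : s ∈ P.inertiaSubgroupIn ℚ) (hsD : s ∈ P.decompositionSubgroup ℚ)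
    (k : Fin 2) : θ₁ (χ k ⟨s, hsD⟩ : TQ) = 1 :=
  chi_point_eq_one_of_lower H φ hφ H' φ' θ₁ θ'' h2 hgood
    (fun ℓ hℓ hℓN hℓS hℓN' hℓS' => by
      rw [hφ'tw, hφtw]
      exact hmatch ℓ hℓ hℓN hℓS hℓN' hℓS')
    hp hp𝒪 hpS' hNS' hr hrp hrN' hr2 P hP Bas χ hχ s hs hsD k

end Hecke

end Fermat.Agent.GB.P5.OnePtGal
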