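/-
GATE-B / GB-P5-1PT-RHO (helper66; request helper6 board 6616 (2)): **Galois half of `OnePt` for
ANY `ρ : GaloisRepAdic T_Q`** known through the `ProviderFlat/G3` conjunct
`charpoly ρ(Frob_ℓ) = X² - tw(T_ℓ) X + ℓ` (twin of `GB/P5/OnePtGal.chi_point_eq_one_of_lower_tw`;
no top-level datum `H`, no `φ`).

`chi_point_eq_one_of_lower_rho` : a point `θ''` of the lower-level image ring `T''`
(`φ' : T' →ₐ[𝒪] T''`, `φ' ∘ H'.π = tw'`, `H'` a datum at the level `N'` with `r ∥ N'`) with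
`θ'' (tw' T_ℓ) = θ₁ (tw T_ℓ)` at the good primes ⟹ `θ₁ (χ k s) = 1` for `s` in the inertia group at
`P ∣ r` and every diagonalisation `(Bas, χ)` of `ρ|D_P` = the `h1` binder of
`ProviderFlat/G4Asm.exists_x_of_residual` / `G4Pkg.exists_x_of_pkg` with `ρ := ρQ` (`k := 0`).
-/
import Fermat.Agent.GB.B9.UnitGlobalRho
import Fermat.Agent.GB.P5.OnePtGal

set_option autoImplicit false
set_option linter.unusedSectionVars false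

namespace Fermat.Agent.GB.P5.OnePtGalRho

open Polynomial IsLocalRing CuspForm
open Fermat.Agent.Common_helper32

variable {p : ℕ} {N : ℕ} [NeZero N] {S : Finset ℕ}
  {𝒪 : Type} [CommRing 𝒪] [IsDomain 𝒪] [IsDiscreteValuationRing 𝒪]
  [IsAdicComplete (IsLocalRing.maximalIdeal 𝒪) 𝒪]
  {TQ : Type} [CommRing TQ] [IsLocalRing TQ] [IsNoetherianRing TQ] [Algebra 𝒪 TQ]
  [Algebra.IsIntegral 𝒪 TQ]
  {N' : ℕ} [NeZero N'] {S' : Finset ℕ}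
  {θ' : CuspForm.heckeAlgebra N' 2 (↑S' : Set ℕ) →+* IsLocalRing.ResidueField 𝒪}
  {T' : Type} [CommRing T'] [IsLocalRing T'] [IsNoetherianRing T']
  [IsAdicComplete (IsLocalRing.maximalIdeal T') T'] [Algebra 𝒪 T'] [IsLocalHom (algebraMap 𝒪 T')]
  [Module.Finite 𝒪 T'] [Module.Free 𝒪 T']
  {T'' : Type*} [CommRing T''] [Algebra 𝒪 T'']
  {Ω : Type} [CommRing Ω] [IsReduced Ω] [Nontrivial Ω] [Algebra 𝒪 Ω]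

/-- **(1pt), Galois half of `OnePt`, any `ρ`.** -/
theorem chi_point_eq_one_of_lower_rho [Finite (ResidueField 𝒪)] [CharZero 𝒪]
    (ρ : GaloisRepAdic TQ) (tw : CuspForm.heckeAlgebra N 2 (↑S : Set ℕ) →+* TQ)
    (hchar : ∀ (ℓ : ℕ) (hℓ : ℓ.Prime) (hℓN : ¬ ℓ ∣ N) (hℓS : ℓ ∉ (↑S : Set ℕ))
      (A : ValuationSubring Qb), A.LiesOverPrime ℓ → ∀ σ : GQ, A.IsFrobeniusAt σ ℓ →
        LinearMap.charpoly (ρ.ρ σ) =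
          X ^ 2 - C (tw (heckeAlgebra.T hℓ hℓN hℓS)) * X + C ((ℓ : TQ)))
    (H' : HeckeGaloisRepDatum N' (↑S' : Set ℕ) 𝒪 θ' T') (φ' : T' →ₐ[𝒪] T'')
    (tw' : CuspForm.heckeAlgebra N' 2 (↑S' : Set ℕ) →+* T'') (hφ'tw : ∀ t, φ' (H'.π t) = tw' t)
    (θ₁ : TQ →ₐ[𝒪] Ω) (θ'' : T'' →ₐ[𝒪] Ω)
    (h2 : ∀ c : Ω, (2 : Ω) * c = 0 → c = 0)
    (hgood : ∀ ℓ : ℕ, ℓ.Prime → ¬ ℓ ∣ N' → ℓ ∉ (↑S' : Set ℕ) → ¬ ℓ ∣ N ∧ ℓ ∉ (↑S : Set ℕ))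
    (hmatch : ∀ (ℓ : ℕ) (hℓ : ℓ.Prime) (hℓN : ¬ ℓ ∣ N) (hℓS : ℓ ∉ (↑S : Set ℕ))
      (hℓN' : ¬ ℓ ∣ N') (hℓS' : ℓ ∉ (↑S' : Set ℕ)),
      θ'' (tw' (heckeAlgebra.T hℓ hℓN' hℓS')) = θ₁ (tw (heckeAlgebra.T hℓ hℓN hℓS)))
    (hp : p.Prime) (hp𝒪 : (p : 𝒪) ∈ IsLocalRing.maximalIdeal 𝒪) (hpS' : p ∈ S')
    (hNS' : ∀ q : ℕ, q.Prime → q ∣ N' → q ∈ S')
    {r : ℕ} (hr : r.Prime) (hrp : r ≠ p) (hrN' : r ∣ N') (hr2 : ¬ r ^ 2 ∣ N')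
    (P : ValuationSubring Qb) (hP : P.LiesOverPrime r)
    (Bas : Module.Basis (Fin 2) TQ ρ.V)
    (χ : Fin 2 → P.decompositionSubgroup ℚ →* TQˣ)
    (hχ : ∀ (i : Fin 2) (σ : P.decompositionSubgroup ℚ),
      ρ.ρ (σ : GQ) (Bas i) = (χ i σ : TQ) • Bas i)
    (s : GQ) (hs : s ∈ P.inertiaSubgroupIn ℚ) (hsD : s ∈ P.decompositionSubgroup ℚ)
    (k : Fin 2) : θ₁ (χ k ⟨s, hsD⟩ : TQ) = 1 := by
  classical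
  let θ₂ : T' →ₐ[𝒪] Ω := θ''.comp φ'
  have hθ₂ : ∀ t, θ₂ (H'.π t) = θ'' (tw' t) := fun t => by
    show θ'' (φ' (H'.π t)) = _
    rw [hφ'tw]
  have hle : ∀ t, θ₂ t ∈ θ₁.range := by
    refine Fermat.Agent.GB.P5.OnePtGal.algHom_mem_of_T H' hNS' θ₂ θ₁.range ?_
    intro ℓ hℓ hℓN' hℓS'
    obtain ⟨hℓN, hℓS⟩ := hgood ℓ hℓ hℓN' hℓS'
    exact ⟨_, by rw [hθ₂]; exact (hmatch ℓ hℓ hℓN hℓS hℓN' hℓS').symm⟩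
  have hN0 : N ≠ 0 := NeZero.ne N
  have hN'0 : N' ≠ 0 := NeZero.ne N'
  refine Fermat.Agent.GB.B9.UnitGlobalRho.chi_point_eq_one_of_algHom_rho ρ tw hchar H' θ₁ θ₂ hle h2
    (S ∪ S' ∪ N.primeFactors ∪ N'.primeFactors) ?_
    (fun ℓ hℓ hℓN hℓS hℓN' hℓS' _ => by
      rw [hθ₂]
      exact (hmatch ℓ hℓ hℓN hℓS hℓN' hℓS').symm)
    hp hp𝒪 hpS' hNS' hr hrp hrN' hr2 P hP Bas χ hχ s hs hsD k
  intro ℓ hℓ hℓB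
  simp only [Finset.mem_union, not_or] at hℓB
  obtain ⟨⟨⟨hS, hS'⟩, hN⟩, hN'⟩ := hℓB
  refine ⟨fun h => hN (Nat.mem_primeFactors.mpr ⟨hℓ, h, hN0⟩), fun h => hS (Finset.mem_coe.mp h),
    fun h => hN' (Nat.mem_primeFactors.mpr ⟨hℓ, h, hN'0⟩), fun h => hS' (Finset.mem_coe.mp h)⟩

end Fermat.Agent.GB.P5.OnePtGalRho
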