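/-
GATE-B / GB-P5-1PT-HECKE, END (helper66; merge with helper49, board 6815/6816): **(1pt) from a point
of the lower-level carrier `Tloc 𝒪 θb`**.

Input = the OUTPUT of helper49's `LowerTw.exists_lower_point`: the residual character `θb` of the
twisted Hecke action on the primary part of the lower level `N'` (`r ∥ N'`) and a point
`θ₂ : Tloc 𝒪 θb →ₐ[𝒪] Ω` with the eigenvalues of the top-level point `θ₁` at the good primes;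
plus the lower-level residual representation (`ρbar`, `hfrob` at `θb`) that
`GB/Glue/DatumOfRhobar.exists_datum` needs.  Output = `θ₁ (χ k s) = 1`, the `h1` binder of
`ProviderFlat/G4TW1Rev.exists_x_tw1F_rev`.

Proof: `H' := exists_datum` at `θb` (on `Tloc 𝒪 θb`, `H'.π = piT`), `φ' := id`,
`OnePtGalRho.chi_point_eq_one_of_lower_rho`.
-/
import Fermat.Agent.GB.P5.OnePtGalRho
import Fermat.Agent.GB.Glue.DatumOfRhobar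
import Fermat.Agent.GJ.J2.Eigen

set_option autoImplicit false
set_option linter.unusedSectionVars false

namespace Fermat.Agent.GB.P5.OnePtEnd

open Polynomial IsLocalRing CuspForm
open Fermat.Agent.Common_helper32 Fermat.Agent.GB.B4.Datum.Carrier
  Fermat.Agent.GB.B4.Datum.HeckeCarrier Fermat.Agent.GJ.J2.Lat

variable {p : ℕ} [Fact p.Prime] {N : ℕ} [NeZero N] {S : Finset ℕ}
  {𝒪 : Type} [CommRing 𝒪] [IsDomain 𝒪] [IsDiscreteValuationRing 𝒪]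
  [IsAdicComplete (IsLocalRing.maximalIdeal 𝒪) 𝒪] [Finite (ResidueField 𝒪)] [CharZero 𝒪]
  {TQ : Type} [CommRing TQ] [IsLocalRing TQ] [IsNoetherianRing TQ] [Algebra 𝒪 TQ]
  [Algebra.IsIntegral 𝒪 TQ]
  {N' : ℕ} [NeZero N'] {S' : Finset ℕ}
  {Ω : Type} [CommRing Ω] [IsReduced Ω] [Nontrivial Ω] [Algebra 𝒪 Ω]

/-- **(1pt), END.**  `heckeAlgebra.T`-spelling of the eigenvalue match. -/
theorem chi_point_eq_one_of_Tloc_point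
    (ρ : GaloisRepAdic TQ) (tw : CuspForm.heckeAlgebra N 2 (↑S : Set ℕ) →+* TQ)
    (hchar : ∀ (ℓ : ℕ) (hℓ : ℓ.Prime) (hℓN : ¬ ℓ ∣ N) (hℓS : ℓ ∉ (↑S : Set ℕ))
      (A : ValuationSubring Qb), A.LiesOverPrime ℓ → ∀ σ : GQ, A.IsFrobeniusAt σ ℓ →
        LinearMap.charpoly (ρ.ρ σ) =
          X ^ 2 - C (tw (heckeAlgebra.T hℓ hℓN hℓS)) * X + C ((ℓ : TQ)))
    -- the lower level: residual character + residual representation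
    (θb : CuspForm.heckeAlgebra N' 2 (↑S' : Set ℕ) →+* ResidueField 𝒪)
    (hp2 : p ≠ 2) (hp𝒪 : (p : 𝒪) ∈ IsLocalRing.maximalIdeal 𝒪) (hpS' : p ∈ S')
    (hNS' : ∀ q : ℕ, q.Prime → q ∣ N' → q ∈ S')
    (ρbar : ResidualGaloisRep (ResidueField 𝒪)) (habs : ρbar.IsAbsolutelyIrreducible)
    (hfrob : ∀ (ℓ : ℕ) (hℓ : ℓ.Prime) (hℓN : ¬ ℓ ∣ N') (hℓS : ℓ ∉ (↑S' : Set ℕ)),
      ∀ P : ValuationSubring Qb, P.LiesOverPrime ℓ → ∀ σ : GQ, P.IsFrobeniusAt σ ℓ →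
        ∃ d₀ : ResidueField 𝒪, LinearMap.charpoly (ρbar.ρ σ) =
          X ^ 2 - C (θb (heckeAlgebra.T hℓ hℓN hℓS)) * X + C d₀)
    -- the two points
    (θ₁ : TQ →ₐ[𝒪] Ω) (θ₂ : Tloc 𝒪 θb →ₐ[𝒪] Ω)
    (h2 : ∀ c : Ω, (2 : Ω) * c = 0 → c = 0)
    (hgood : ∀ ℓ : ℕ, ℓ.Prime → ¬ ℓ ∣ N' → ℓ ∉ (↑S' : Set ℕ) → ¬ ℓ ∣ N ∧ ℓ ∉ (↑S : Set ℕ))
    (hmatch : ∀ (ℓ : ℕ) (hℓ : ℓ.Prime) (hℓN : ¬ ℓ ∣ N) (hℓS : ℓ ∉ (↑S : Set ℕ))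
      (hℓN' : ¬ ℓ ∣ N') (hℓS' : ℓ ∉ (↑S' : Set ℕ)),
      θ₂ (piT 𝒪 θb (heckeAlgebra.T hℓ hℓN' hℓS')) = θ₁ (tw (heckeAlgebra.T hℓ hℓN hℓS)))
    {r : ℕ} (hr : r.Prime) (hrp : r ≠ p) (hrN' : r ∣ N') (hr2 : ¬ r ^ 2 ∣ N')
    (P : ValuationSubring Qb) (hP : P.LiesOverPrime r)
    (Bas : Module.Basis (Fin 2) TQ ρ.V)
    (χ : Fin 2 → P.decompositionSubgroup ℚ →* TQˣ)
    (hχ : ∀ (i : Fin 2) (σ : P.decompositionSubgroup ℚ),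
      ρ.ρ (σ : GQ) (Bas i) = (χ i σ : TQ) • Bas i)
    (s : GQ) (hs : s ∈ P.inertiaSubgroupIn ℚ) (hsD : s ∈ P.decompositionSubgroup ℚ)
    (k : Fin 2) : θ₁ (χ k ⟨s, hsD⟩ : TQ) = 1 := by
  obtain ⟨H', hπ, -, -, -⟩ := Fermat.Agent.GB.Glue.DatumOfRhobar.exists_datum p N' S' 𝒪 θb hp2 hpS'
    hNS' hp𝒪 ρbar habs hfrob
  refine Fermat.Agent.GB.P5.OnePtGalRho.chi_point_eq_one_of_lower_rho (p := p) ρ tw hchar H'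
    (AlgHom.id 𝒪 (Tloc 𝒪 θb)) (piT 𝒪 θb) (fun t => by rw [hπ]; rfl) θ₁ θ₂ h2 hgood hmatch
    (Fact.out : p.Prime) hp𝒪 hpS' hNS' hr hrp hrN' hr2 P hP Bas χ hχ s hs hsD k

/-- **(1pt), END, `formsGenS`-spelling** (same `S` at both levels, all primes of both levels in
`S`): the eigenvalue match and the residual eigenvalues are stated on the generators
`formsGenS … l`, `l : PrimesOff S` = the OUTPUT spelling of `LowerTw.exists_lower_point`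
(`θb (formsGenS N' S l) = c l`, `θ₂ (piT (formsGenS N' S l)) = θ₁ (τ l)`). -/
theorem chi_point_eq_one_of_Tloc_point_gen
    (ρ : GaloisRepAdic TQ) (tw : CuspForm.heckeAlgebra N 2 (↑S : Set ℕ) →+* TQ)
    (hchar : ∀ (ℓ : ℕ) (hℓ : ℓ.Prime) (hℓN : ¬ ℓ ∣ N) (hℓS : ℓ ∉ (↑S : Set ℕ))
      (A : ValuationSubring Qb), A.LiesOverPrime ℓ → ∀ σ : GQ, A.IsFrobeniusAt σ ℓ →
        LinearMap.charpoly (ρ.ρ σ) =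
          X ^ 2 - C (tw (heckeAlgebra.T hℓ hℓN hℓS)) * X + C ((ℓ : TQ)))
    (θb : CuspForm.heckeAlgebra N' 2 (↑S : Set ℕ) →+* ResidueField 𝒪)
    (hp2 : p ≠ 2) (hp𝒪 : (p : 𝒪) ∈ IsLocalRing.maximalIdeal 𝒪) (hpS : p ∈ S)
    (hNS : ∀ q : ℕ, q.Prime → q ∣ N → q ∈ S) (hNS' : ∀ q : ℕ, q.Prime → q ∣ N' → q ∈ S)
    (ρbar : ResidualGaloisRep (ResidueField 𝒪)) (habs : ρbar.IsAbsolutelyIrreducible)
    (c : PrimesOff (↑S : Set ℕ) → ResidueField 𝒪)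
    (hθb : ∀ l : PrimesOff (↑S : Set ℕ), θb (formsGenS N' (↑S : Set ℕ) l) = c l)
    (hfrob : ∀ l : PrimesOff (↑S : Set ℕ),
      ∀ P : ValuationSubring Qb, P.LiesOverPrime (l.1 : ℕ) → ∀ σ : GQ,
        P.IsFrobeniusAt σ (l.1 : ℕ) →
        ∃ d₀ : ResidueField 𝒪, LinearMap.charpoly (ρbar.ρ σ) = X ^ 2 - C (c l) * X + C d₀)
    (θ₁ : TQ →ₐ[𝒪] Ω) (θ₂ : Tloc 𝒪 θb →ₐ[𝒪] Ω)
    (h2 : ∀ c : Ω, (2 : Ω) * c = 0 → c = 0)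
    (hmatch : ∀ l : PrimesOff (↑S : Set ℕ),
      θ₂ (piT 𝒪 θb (formsGenS N' (↑S : Set ℕ) l)) = θ₁ (tw (formsGenS N (↑S : Set ℕ) l)))
    {r : ℕ} (hr : r.Prime) (hrp : r ≠ p) (hrN' : r ∣ N') (hr2 : ¬ r ^ 2 ∣ N')
    (P : ValuationSubring Qb) (hP : P.LiesOverPrime r)
    (Bas : Module.Basis (Fin 2) TQ ρ.V)
    (χ : Fin 2 → P.decompositionSubgroup ℚ →* TQˣ)
    (hχ : ∀ (i : Fin 2) (σ : P.decompositionSubgroup ℚ),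
      ρ.ρ (σ : GQ) (Bas i) = (χ i σ : TQ) • Bas i)
    (s : GQ) (hs : s ∈ P.inertiaSubgroupIn ℚ) (hsD : s ∈ P.decompositionSubgroup ℚ)
    (k : Fin 2) : θ₁ (χ k ⟨s, hsD⟩ : TQ) = 1 := by
  refine chi_point_eq_one_of_Tloc_point (p := p) ρ tw hchar θb hp2 hp𝒪 hpS hNS' ρbar habs ?_
    θ₁ θ₂ h2 ?_ ?_ hr hrp hrN' hr2 P hP Bas χ hχ s hs hsD k
  · intro ℓ hℓ hℓN' hℓS P' hP' σ hσ
    obtain ⟨d₀, hd₀⟩ := hfrob ⟨⟨ℓ, hℓ⟩, hℓS⟩ P' hP' σ hσ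
    refine ⟨d₀, ?_⟩
    rw [hd₀, ← hθb ⟨⟨ℓ, hℓ⟩, hℓS⟩, formsGenS_of_not_dvd N' (↑S : Set ℕ) ⟨⟨ℓ, hℓ⟩, hℓS⟩ hℓN']
  · intro ℓ hℓ _ hℓS
    exact ⟨fun h => hℓS (Finset.mem_coe.mpr (hNS ℓ hℓ h)), hℓS⟩
  · intro ℓ hℓ hℓN hℓS hℓN' hℓS'
    have h := hmatch ⟨⟨ℓ, hℓ⟩, hℓS⟩
    rw [formsGenS_of_not_dvd N' (↑S : Set ℕ) ⟨⟨ℓ, hℓ⟩, hℓS⟩ hℓN',
      formsGenS_of_not_dvd N (↑S : Set ℕ) ⟨⟨ℓ, hℓ⟩, hℓS⟩ hℓN] at h
    exact h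

end Fermat.Agent.GB.P5.OnePtEnd
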