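/-
GATE-B / (1pt) FINAL PLUG at `Plug.tw` (helper49): **the `h1` binder of
`ProviderFlat/G4TW1Rev.exists_x_tw1F_rev`, at the B3 `TWLevelData` `Plug.tw Sy 𝔪 H h s k c`**, in
hypothesis form over the G2 record.

`LowerTwSkip.exists_lower_point_skip` (module half: a point occurring in `M_Q / (D_i - 1) M_Q`
comes from the localised Hecke ring of the level where the `i`-th Taylor–Wiles character is
dropped) ∘ helper66 `OnePtEnd.chi_point_eq_one_of_Tloc_point_gen` (Galois half: at that level the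
prime `r (k - 1 - i)` exactly divides the forms level, so inertia acts unipotently, hence trivially
on a diagonalisable decomposition group).

G2 inputs (binders): the Hecke ring `T` with `a₁ a₂` commuting with the `i`-th diamond, the ring
homomorphism `twT : heckeAlgebra Ntop 2 S →+* T` (`= ImageRing.chi`), the generator descriptions
`ha₁ ha₂` (`HaPlug.ha_of_twP`), `dℓ hdℓ` of `TwInst.exists_tw_primeData`.  G3 input: `hchar`.
Residual inputs: `ev` (`= Q.lamTop`), `ρbar habs hfrob`.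
-/
import Mathlib
import Fermat.Agent.GB.P5.LowerTwSkip
import Fermat.Agent.GB.P5.OnePtEnd

set_option autoImplicit false
set_option linter.unusedSectionVars false
set_option linter.style.haveILetI false

open scoped MatrixGroups
open CongruenceSubgroup Matrix Matrix.SpecialLinearGroup ModularCurve.Period CuspForm Polynomial
open Fermat.Agent.S16_helper49 Fermat.Agent.GM.B Fermat.Agent.GM.EisClass
open Fermat.Agent.GB.B3 Fermat.Agent.GB.B3.EisGamma0 Fermat.Agent.GB.B3.GamH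
open Fermat.Agent.GB.B3.RealLevel Fermat.Agent.GB.B3.HeckeActH Fermat.Agent.GB.B3.HeckeAct
open Fermat.Agent.GB.B3.CycInst Fermat.Agent.GB.B3.StepInst Fermat.Agent.GB.B3.TWLevel
open Fermat.Agent.GB.B3.ChiLevelMulti
open Fermat.Agent.GB.B3.Tower Fermat.Agent.GB.B3.Final Fermat.Agent.GB.B3.TWChars
open Fermat.Agent.GB.B3.FinalTW Fermat.Agent.GB.B3.Plug
open Fermat.Agent.GJ.J2.ZStruct Fermat.Agent.GJ.J2.Lat
open Fermat.Agent.GB.B4.Datum.Carrier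
open Fermat.Agent.Common_helper32
open Fermat.Agent.GB.P5.LowerTwSkip Fermat.Agent.GB.P5.LowerInputs Fermat.Agent.GB.P5.TwSkip
open Fermat.Agent.GB.P5.OnePtEnd

namespace Fermat.Agent.GB.P5.H1Plug

variable {N p : ℕ} [NeZero N] [hpF : Fact p.Prime] {K : ℕ} {r e N' : ℕ → ℕ}
variable (Sy : Symbols N)
variable {O : Type} [CommRing O] [IsDomain O] [IsDiscreteValuationRing O]
  [IsAdicComplete (IsLocalRing.maximalIdeal O) O] [Finite (IsLocalRing.ResidueField O)]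
  [CharZero O] [Module.IsTorsionFree ℤ O]
variable (𝔪 : Ideal (Sy.𝕋 O)) [𝔪.IsMaximal]
variable (H : PrimeData N p K r e N') {ϖ : O} {s0 : Sy.ι₁} (h : Hyp Sy 𝔪 p ϖ s0)
variable (s k : ℕ)

/-- the forms level of the level where the `i₀`-th Taylor–Wiles character has been dropped -/
def lowN (r : ℕ → ℕ) (N j i₀ : ℕ) : ℕ := N * ∏ i' : Fin (j - 1), r (skip i₀ i')

include H in
theorem lowN_ne_zero (j : ℕ) (hj : j ≤ K) (i₀ : ℕ) (hi₀ : i₀ < j) : lowN r N j i₀ ≠ 0 := by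
  unfold lowN
  refine mul_ne_zero (NeZero.ne N) (Finset.prod_ne_zero_iff.mpr fun i' _ => ?_)
  exact (H.prime _ (lt_of_lt_of_le (skip_lt hi₀ i'.2) hj)).ne_zero

include H in
/-- the primes of the lower forms level are primes of `N` -/
theorem prime_dvd_lowN (j : ℕ) (hj : j ≤ K) (i₀ : ℕ) (hi₀ : i₀ < j) {q : ℕ} (hq : q.Prime)
    (hqN : q ∣ lowN r N j i₀) : q ∣ N := by
  unfold lowN at hqN
  rcases (Nat.Prime.dvd_mul hq).mp hqN with h1 | h1
  · exact h1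
  · rw [Prime.dvd_finsetProd_iff (Nat.Prime.prime hq)] at h1
    obtain ⟨i', -, hi'⟩ := h1
    exact hi'.trans (H.dvd _ (lt_of_lt_of_le (skip_lt hi₀ i'.2) hj))

variable (c : Fin s → O) (hc : ∀ v : Fin s, c v ^ p ^ e (s + k - 1 - v) = 1)
  (hc1 : ∀ v, (1 : O) - c v ∈ Ideal.span {ϖ})

/-- **(1pt) at `Plug.tw`**: a point `θ` of the Hecke ring `T` occurring in `M¹_Q / (D_i - 1)` or
in `M^χ_Q / (D_i - 1)` kills the inertia at the prime `r (k - 1 - i)` of the `i`-th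
Taylor–Wiles diamond (on a diagonalising basis of the decomposition group). -/
theorem h1_plug (hN : Squarefree N) (hsk : s + k ≤ K)
    {T : Type} [CommRing T] [IsLocalRing T] [IsNoetherianRing T] [Algebra O T]
    [Algebra.IsIntegral O T]
    (a₁ : T →ₐ[O] Module.End O (tw Sy 𝔪 H h s k c hc hc1).L1.M)
    (a₂ : T →ₐ[O] Module.End O (tw Sy 𝔪 H h s k c hc hc1).Lχ.M)
    (i : Fin k)
    (a₁_D : ∀ t, a₁ t * (tw Sy 𝔪 H h s k c hc hc1).L1.D i
      = (tw Sy 𝔪 H h s k c hc hc1).L1.D i * a₁ t)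
    (a₂_D : ∀ t, a₂ t * (tw Sy 𝔪 H h s k c hc hc1).Lχ.D i
      = (tw Sy 𝔪 H h s k c hc hc1).Lχ.D i * a₂ t)
    -- G3
    (ρQ : GaloisRepAdic T)
    {Ntop : ℕ} [NeZero Ntop] (S : Finset ℕ) (hpS : p ∈ S)
    (hNtopS : ∀ q : ℕ, q.Prime → q ∣ Ntop → q ∈ S) (hNS : ∀ q : ℕ, q.Prime → q ∣ N → q ∈ S)
    (twT : CuspForm.heckeAlgebra Ntop 2 (↑S : Set ℕ) →+* T)
    (hchar : ∀ (ℓ : ℕ) (hℓ : ℓ.Prime) (hℓN : ¬ ℓ ∣ Ntop) (hℓS : ℓ ∉ (↑S : Set ℕ))
      (A : ValuationSubring Qb), A.LiesOverPrime ℓ → ∀ σ : GQ, A.IsFrobeniusAt σ ℓ →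
        LinearMap.charpoly (ρQ.ρ σ) =
          X ^ 2 - C (twT (heckeAlgebra.T hℓ hℓN hℓS)) * X + C ((ℓ : T)))
    -- G2 : the generators
    (dℓ : PrimesOff (↑S : Set ℕ) → Gamma0 N)
    (hdℓ : ∀ (l : PrimesOff (↑S : Set ℕ)) (u : (ZMod N)ˣ),
      (u : ZMod N) = ((l.1 : ℕ) : ZMod N) →
      chi (Theta (Δs p e) H.psi (s + k)) (dℓ l) ^ 2 * Theta (Δs p e) H.psi (s + k) u = 1)
    (idx : PrimesOff (↑S : Set ℕ) → Sy.ι₁) (hidx : ∀ l, Sy.ℓ (idx l) = (l.1 : ℕ))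
    (ha₁ : ∀ (l : PrimesOff (↑S : Set ℕ)) (x x' : (bigLevel Sy 𝔪 H h (s + k)).M),
      (bigReal Sy 𝔪 H h (s + k)).ι x'
        = (diaLin O (Theta (Δs p e) H.psi (s + k)) (dℓ l)
            * actH Sy O (Theta (Δs p e) H.psi (s + k)) (MvPolynomial.X (Sum.inl (idx l))))
          ((bigReal Sy 𝔪 H h (s + k)).ι x) →
      a₁ (twT (formsGenS Ntop (↑S : Set ℕ) l))
          (fmk (frD (bigLevel Sy 𝔪 H h (s + k))) (fun _ => (1 : O)) x)
        = fmk (frD (bigLevel Sy 𝔪 H h (s + k))) (fun _ => (1 : O)) x')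
    (ha₂ : ∀ (l : PrimesOff (↑S : Set ℕ)) (x x' : (bigLevel Sy 𝔪 H h (s + k)).M),
      (bigReal Sy 𝔪 H h (s + k)).ι x'
        = (diaLin O (Theta (Δs p e) H.psi (s + k)) (dℓ l)
            * actH Sy O (Theta (Δs p e) H.psi (s + k)) (MvPolynomial.X (Sum.inl (idx l))))
          ((bigReal Sy 𝔪 H h (s + k)).ι x) →
      a₂ (twT (formsGenS Ntop (↑S : Set ℕ) l))
          (fmk (frD (bigLevel Sy 𝔪 H h (s + k))) c x)
        = fmk (frD (bigLevel Sy 𝔪 H h (s + k))) c x')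
    -- the residual side
    (ev : Sy.𝕋 O →+* IsLocalRing.ResidueField O)
    (hevC : ∀ c : O, ev (MvPolynomial.C c) = IsLocalRing.residue O c)
    (hker𝔪 : ∀ t : Sy.𝕋 O, t ∈ 𝔪 ↔ ev t = 0)
    (ρbar : ResidualGaloisRep (IsLocalRing.ResidueField O)) (habs : ρbar.IsAbsolutelyIrreducible)
    (hfrob : ∀ l : PrimesOff (↑S : Set ℕ),
      ∀ P : ValuationSubring Qb, P.LiesOverPrime (l.1 : ℕ) → ∀ σ : GQ,
        P.IsFrobeniusAt σ (l.1 : ℕ) →
        ∃ d₀ : IsLocalRing.ResidueField O, LinearMap.charpoly (ρbar.ρ σ)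
          = X ^ 2 - C (ev (MvPolynomial.X (Sum.inl (idx l)))) * X + C d₀)
    -- the point
    {Ω : Type} [CommRing Ω] [IsReduced Ω] [Nontrivial Ω] [Algebra O Ω]
    (h2 : ∀ c : Ω, (2 : Ω) * c = 0 → c = 0)
    (hrp : r (k - 1 - (i : ℕ)) ≠ p)
    (P : ValuationSubring Qb) (hP : P.LiesOverPrime (r (k - 1 - (i : ℕ))))
    (Bas : Module.Basis (Fin 2) T ρQ.V)
    (χ : Fin 2 → P.decompositionSubgroup ℚ →* Tˣ)
    (hχ : ∀ (j : Fin 2) (σ : P.decompositionSubgroup ℚ),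
      ρQ.ρ (σ : GQ) (Bas j) = (χ j σ : T) • Bas j)
    (σ : GQ) (hσ : σ ∈ P.inertiaSubgroupIn ℚ) (hσD : σ ∈ P.decompositionSubgroup ℚ)
    (θ : T →ₐ[O] Ω)
    (hocc : (∀ t : T, (∀ m, a₁ t m ∈
        LinearMap.range ((tw Sy 𝔪 H h s k c hc hc1).L1.D i - 1)) → θ t = 0) ∨
      (∀ t : T, (∀ m, a₂ t m ∈
        LinearMap.range ((tw Sy 𝔪 H h s k c hc hc1).Lχ.D i - 1)) → θ t = 0))
    (j : Fin 2) : θ (χ j ⟨σ, hσD⟩ : T) = 1 := by
  have hik : k - 1 - (i : ℕ) < s + k := by have := i.2; omega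
  haveI : NeZero (lowN r N (s + k) (k - 1 - (i : ℕ))) :=
    ⟨lowN_ne_zero H (s + k) hsk _ hik⟩
  have hS'' : ∀ q : ℕ, q.Prime → q ∣ lowN r N (s + k) (k - 1 - (i : ℕ)) → q ∈ (↑S : Set ℕ) :=
    fun q hq hqN => Finset.mem_coe.mpr (hNS q hq (prime_dvd_lowN H (s + k) hsk _ hik hq hqN))
  have hpO : (p : O) ∈ IsLocalRing.maximalIdeal O := by
    rw [h.hmax]
    exact h.hpϖ
  -- the module half
  have key : ∃ θb : ↥(heckeAlgebra (lowN r N (s + k) (k - 1 - (i : ℕ))) 2 (↑S : Set ℕ)) →+*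
        IsLocalRing.ResidueField O,
      (∀ l : PrimesOff (↑S : Set ℕ),
        θb (formsGenS (lowN r N (s + k) (k - 1 - (i : ℕ))) (↑S : Set ℕ) l)
          = ev (MvPolynomial.X (Sum.inl (idx l)))) ∧
      ∃ θ₂ : Tloc O θb →ₐ[O] Ω,
        (∀ l : PrimesOff (↑S : Set ℕ),
          θ₂ (piT O θb (formsGenS (lowN r N (s + k) (k - 1 - (i : ℕ))) (↑S : Set ℕ) l))
            = θ (twT (formsGenS Ntop (↑S : Set ℕ) l))) ∧
        ∀ x, θ₂ x ∈ θ.range := by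
    rcases hocc with hocc | hocc
    · exact exists_lower_point_skip (N'' := lowN r N (s + k) (k - 1 - (i : ℕ)))
        Sy 𝔪 H h s k hN hsk i (k - 1 - (i : ℕ)) hik rfl rfl
        (↑S : Set ℕ) hS'' dℓ hdℓ ev hevC hker𝔪 idx hidx (fun _ => (1 : O))
        (fun _ => one_pow _) a₁ a₁_D (fun l => twT (formsGenS Ntop (↑S : Set ℕ) l)) ha₁ θ hocc
    · exact exists_lower_point_skip (N'' := lowN r N (s + k) (k - 1 - (i : ℕ)))
        Sy 𝔪 H h s k hN hsk i (k - 1 - (i : ℕ)) hik rfl rfl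
        (↑S : Set ℕ) hS'' dℓ hdℓ ev hevC hker𝔪 idx hidx c
        (hc_Nfun s k c hc) a₂ a₂_D (fun l => twT (formsGenS Ntop (↑S : Set ℕ) l)) ha₂ θ hocc
  obtain ⟨θb, hθb, θ₂, hmatch, -⟩ := key
  -- the Galois half
  exact chi_point_eq_one_of_Tloc_point_gen (p := p) ρQ twT hchar θb h.hp2 hpO hpS hNtopS
    (fun q hq hqN => hNS q hq (prime_dvd_lowN H (s + k) hsk _ hik hq hqN))
    ρbar habs (fun l => ev (MvPolynomial.X (Sum.inl (idx l)))) hθb hfrob θ θ₂ h2 hmatch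
    (H.prime _ (lt_of_lt_of_le hik hsk)) hrp
    (dvd_skip H (s + k) hsk _ hik rfl) (not_sq_dvd_skip H (s + k) hsk _ hik rfl)
    P hP Bas χ hχ σ hσ hσD j

end Fermat.Agent.GB.P5.H1Plug
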