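/-
GATE-B / GB-P5-1PT-STEP2 (helper49): **the binder `ha` of `LowerTw.exists_lower_point`** — "the
element `τ l` of the top Hecke ring acts on the coinvariants as `⟨dℓ l⟩ T_l` on representatives" —
from the description of the top-level twisted action `twP` on the big level
(`TwRestrictPlug.exists_twP` : `R.ι (twP t m) = tw t ⟨R.ι m, _⟩`) and the generator formula of the
twist ring homomorphism `tw` (`TwInst.exists_tw_primeData`, `genH` form).
-/
import Mathlib
import Fermat.Agent.GB.P5.TwPrimary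
import Fermat.Agent.GB.B3.ChiLevelMulti

set_option autoImplicit false
set_option linter.unusedSectionVars false
set_option linter.style.haveILetI false

noncomputable section

open scoped MatrixGroups
open CongruenceSubgroup Matrix Matrix.SpecialLinearGroup ModularCurve.Period CuspForm
open Fermat.Agent.S16_helper49 Fermat.Agent.GM.B Fermat.Agent.GM.EisClass
open Fermat.Agent.GB.B3 Fermat.Agent.GB.B3.EisGamma0 Fermat.Agent.GB.B3.GamH
open Fermat.Agent.GB.B3.RealLevel Fermat.Agent.GB.B3.HeckeActH Fermat.Agent.GB.B3.HeckeAct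
open Fermat.Agent.GB.B3.CycInst Fermat.Agent.GB.B3.StepInst Fermat.Agent.GB.B3.TWLevel
open Fermat.Agent.GB.B3.ChiLevelMulti
open Fermat.Agent.GJ.J2.ZStruct Fermat.Agent.GJ.J2.Lat
open Fermat.Agent.GB.B4.Twist.Asm Fermat.Agent.GB.B4.Twist.TwFinal
open Fermat.Agent.GB.B7.TwU Fermat.Agent.GB.B7.UqOne
open Fermat.Agent.GB.P5.TwPrimary

namespace Fermat.Agent.GB.P5.HaPlug

variable {N : ℕ} [NeZero N] (Sy : Symbols N) {Δ : Type} [CommGroup Δ] (θ : (ZMod N)ˣ →* Δ)
  {O : Type} [CommRing O] [IsDomain O] [IsPrincipalIdealRing O] [IsLocalRing O]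
  [IsAdicComplete (IsLocalRing.maximalIdeal O) O] (𝔪 : Ideal (Sy.𝕋 O))
  {M0 : Type} [AddCommGroup M0] [Module O M0] {act0 : Sy.𝕋 O →ₐ[O] Module.End O M0}
  {s k : ℕ} {Nk : Fin (s + k) → ℕ} {B : FreeLevel O (Sy.𝕋 O) M0 act0 (s + k) Nk}
  {E : Fin (s + k) → Module.End O (Additive (GammaH θ) →+ O)}
  (R : Realizes B (actH Sy O θ) 𝔪 E)
  (hmem : ∀ m : B.M, R.ι m ∈ parabolicHoms O (GammaH θ) O)
  {N' : ℕ} [NeZero N'] (S : Set ℕ) (dℓ : PrimesOff S → Gamma0 N)
  (tw : ↥(heckeAlgebra N' 2 S) →+* Module.End O ↥(parabolicHoms O (GammaH θ) O))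
  (htw : ∀ (l : PrimesOff S) (v : ↥(parabolicHoms O (GammaH θ) O)),
    ((tw (formsGenS N' S l) v : ↥(parabolicHoms O (GammaH θ) O)) : Additive (GammaH θ) →+ O)
      = diaH θ O (dℓ l) (genH θ O l.1 (v : Additive (GammaH θ) →+ O)))
  (twP : ↥(heckeAlgebra N' 2 S) →+* Module.End O B.M)
  (htwP : ∀ (t : ↥(heckeAlgebra N' 2 S)) (m : B.M),
    R.ι (twP t m) = ((tw t ⟨R.ι m, hmem m⟩ : ↥(parabolicHoms O (GammaH θ) O)) :
      Additive (GammaH θ) →+ O))

include htw htwP in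
/-- the twisted action of `T_l` on the big level, on representatives -/
theorem ι_twP_formsGenS (l : PrimesOff S) (i : Sy.ι₁) (hi : Sy.ℓ i = (l.1 : ℕ)) (x : B.M) :
    R.ι (twP (formsGenS N' S l) x)
      = (diaLin O θ (dℓ l) * actH Sy O θ (MvPolynomial.X (Sum.inl i))) (R.ι x) := by
  haveI : Fact (l.1 : ℕ).Prime := ⟨l.1.2⟩
  haveI := Sy.factℓ i
  have hlN : ¬ (l.1 : ℕ) ∣ N := hi ▸ Sy.hℓN i
  rw [htwP, htw, genH_of_not_dvd θ O l.1 hlN, Module.End.mul_apply, diaLin_apply, actH_X_inl]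
  congr 1
  exact TH_congr θ hi.symm hlN (Sy.hℓN i) _

include htw htwP in
/-- **the binder `ha` of `LowerTw.exists_lower_point`** for an action `a` of a Hecke ring `T` on
the coinvariants such that `a (τ l)` is induced by `twP (T_l)` (`haτ`; e.g. `T = ImageRing.TQ`,
`τ l = chi (T_l)`, `a₁ (chi t) = TQCompat.tw1 … t` and `TQCompat.tw1_fmk`) -/
theorem ha_of_twP (idx : PrimesOff S → Sy.ι₁) (hidx : ∀ l, Sy.ℓ (idx l) = (l.1 : ℕ))
    (γ : Fin s → O) {T : Type*} [CommRing T] [Algebra O T]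
    (a : T →ₐ[O] Module.End O (FamCoinv (frD B) γ)) (τ : PrimesOff S → T)
    (haτ : ∀ (l : PrimesOff S) (x : B.M),
      a (τ l) (fmk (frD B) γ x) = fmk (frD B) γ (twP (formsGenS N' S l) x))
    (l : PrimesOff S) (x x' : B.M)
    (hx : R.ι x' = (diaLin O θ (dℓ l) * actH Sy O θ (MvPolynomial.X (Sum.inl (idx l)))) (R.ι x)) :
    a (τ l) (fmk (frD B) γ x) = fmk (frD B) γ x' := by
  rw [haτ]
  congr 1
  apply R.inj
  rw [hx]
  exact ι_twP_formsGenS Sy θ 𝔪 R hmem S dℓ tw htw twP htwP l (idx l) (hidx l) x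

end Fermat.Agent.GB.P5.HaPlug
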