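/-
GATE-B / GB-P5-1PT (helper66): **the dropped Taylor–Wiles prime divides the forms level of the
skipped twist EXACTLY once** — `r i₀ ∥ N''` for `N'' = N * ∏ i' : Fin (j - 1), r (skip i₀ i')`
(the level of `TwSkip.exists_tw_skip`; `N = r i₀ * N' i₀` already contains `r i₀` once, the other
Taylor–Wiles primes twice).  These are the binders `hrN' hr2` of
`OnePtEnd.chi_point_eq_one_of_Tloc_point(_gen)` at `r := r i₀`, `N' := N''`.
-/
import Fermat.Agent.GB.P5.TwSkip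

set_option autoImplicit false
set_option linter.unusedSectionVars false

namespace Fermat.Agent.GB.P5.SkipLevel

open Fermat.Agent.GB.B3.TWChars Fermat.Agent.GB.P5.TwSkip

variable {N p K : ℕ} [NeZero N] {r e N' : ℕ → ℕ} (H : PrimeData N p K r e N')
  (j : ℕ) (hj : j ≤ K) (i₀ : ℕ) (hi₀ : i₀ < j) {N'' : ℕ}
  (hN'' : N'' = N * ∏ i' : Fin (j - 1), r (skip i₀ i'))

include H hj hi₀ hN'' in
/-- the dropped prime divides the skipped forms level -/
theorem dvd_skip_level : r i₀ ∣ N'' := by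
  rw [hN'']
  exact Dvd.dvd.mul_right (H.dvd i₀ (lt_of_lt_of_le hi₀ hj)) _

include H hj hi₀ hN'' in
/-- the square of the dropped prime does NOT divide the skipped forms level -/
theorem not_sq_dvd_skip_level : ¬ r i₀ ^ 2 ∣ N'' := by
  have hi₀K : i₀ < K := lt_of_lt_of_le hi₀ hj
  have hpr := H.prime i₀ hi₀K
  intro hsq
  rw [hN'', H.fact i₀ hi₀K, pow_two, mul_assoc] at hsq
  have h1 : r i₀ ∣ N' i₀ * ∏ i' : Fin (j - 1), r (skip i₀ i') :=
    Nat.dvd_of_mul_dvd_mul_left hpr.pos hsq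
  rcases (Nat.Prime.dvd_mul hpr).mp h1 with h2 | h2
  · have h3 : r i₀ ∣ Nat.gcd (r i₀) (N' i₀) := Nat.dvd_gcd dvd_rfl h2
    rw [(H.cop i₀ hi₀K).gcd_eq_one, Nat.dvd_one] at h3
    exact hpr.one_lt.ne' h3
  · obtain ⟨i', -, hi'⟩ := (Prime.dvd_finsetProd_iff hpr.prime _).mp h2
    have hlt : skip i₀ (i' : ℕ) < K :=
      skip_lt hi₀K (lt_of_lt_of_le i'.2 (Nat.sub_le_sub_right hj 1))
    have h4 : r i₀ = r (skip i₀ (i' : ℕ)) :=
      (Nat.prime_dvd_prime_iff_eq hpr (H.prime _ hlt)).mp hi'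
    exact H.inj i₀ (skip i₀ (i' : ℕ)) hi₀K hlt (skip_ne i₀ _).symm h4

end Fermat.Agent.GB.P5.SkipLevel
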