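/-
GATE-B / GB-P5-1PT-TOWERINST (helper67), file 1: **`M / (D_i - 1) M` is `O`-torsion-free** for a
`Δ_Q`-free module in BASIS FORM (the B3 output shape `FreeLevel`) — the binder `htf` of helper49's
`GB/P5/LowerPoint.exists_point_lower`.

Model (helper66 `GB/Alg/UnitGrp`): `Λ = MonoidAlgebra O Δ`, `Δ = Grp N = ∏ᵢ ℤ/N i`, acting on `M`
through `gam`; `M` is free over `Λ` on `e` (`bijective_actSum_gam`).  Then
`(D_i - 1) M = gam (σ_i - 1) M = actSub gam (span {σ_i - 1})` and `Λ / (σ_i - 1)` is `O`-torsion-free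
because `(σ_i - 1) Λ` is the kernel of the endomorphism of `Λ` induced by killing the `i`-th
coordinate of `Δ`.

* `killGrp`, `killAlg`, `sub_killAlg_mem`, `mem_span_iff_killAlg` ;
* `mem_span_of_smul_mem` : `a` regular in `O`, `a l ∈ (σ_i - 1) ⟹ l ∈ (σ_i - 1)` ;
* `actSub_span_eq_range` : `actSub gam (span {σ_i - 1}) = range (D_i - 1)` ;
* **`mem_range_sub_one_of_smul_mem`** (basis form), `FreeLevel.mem_range_sub_one_of_smul_mem` ;
* **`htf_famCoinv`** : the same on the coinvariants `FamCoinv (frD B) γ` of a big level with the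
  Taylor–Wiles diamonds `quotDM B γ i` (`= (Plug.tw …).L1`, `.Lχ`).
-/
import Mathlib
import Fermat.Agent.GB.Alg.UnitGrp
import Fermat.Agent.GB.B3.ChiLevelMulti

set_option autoImplicit false
set_option linter.unusedSectionVars false
set_option linter.style.haveILetI false

namespace Fermat.Agent.GB.P5.TorsFree

open Fermat.Agent.GB.Alg Fermat.Agent.GB.Alg.UnitGrp

section Grp

variable {k : ℕ} (N : Fin k → ℕ) [∀ i, NeZero (N i)]

/-- killing the `i`-th coordinate of `Δ = ∏ ℤ/N i` -/
def killGrp (i : Fin k) : Grp N →* Grp N where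
  toFun g := Function.update g i 1
  map_one' := by
    funext j
    by_cases h : j = i
    · subst h; rw [Function.update_self]; rfl
    · rw [Function.update_of_ne h]
  map_mul' g g' := by
    funext j
    by_cases h : j = i
    · subst h
      rw [Pi.mul_apply, Function.update_self, Function.update_self, Function.update_self, one_mul]
    · rw [Pi.mul_apply, Function.update_of_ne h, Function.update_of_ne h, Function.update_of_ne h,
        Pi.mul_apply]

theorem killGrp_apply_self (i : Fin k) (g : Grp N) : killGrp N i g i = 1 :=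
  Function.update_self _ _ _

theorem killGrp_apply_of_ne (i : Fin k) (g : Grp N) {j : Fin k} (h : j ≠ i) :
    killGrp N i g j = g j :=
  Function.update_of_ne h _ _

theorem killGrp_mulSingle (i : Fin k) (x : Multiplicative (ZMod (N i))) :
    killGrp N i (Pi.mulSingle i x) = 1 := by
  funext j
  by_cases h : j = i
  · subst h; rw [killGrp_apply_self]; rfl
  · rw [killGrp_apply_of_ne N i _ h, Pi.mulSingle_eq_of_ne h]
    rfl

theorem eq_killGrp_mul (i : Fin k) (g : Grp N) :
    g = killGrp N i g * Pi.mulSingle i (g i) := by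
  funext j
  by_cases h : j = i
  · subst h
    rw [Pi.mul_apply, killGrp_apply_self, Pi.mulSingle_eq_same, one_mul]
  · rw [Pi.mul_apply, killGrp_apply_of_ne N i _ h, Pi.mulSingle_eq_of_ne h, mul_one]

end Grp

section Alg

variable (O : Type*) [CommRing O] {k : ℕ} (N : Fin k → ℕ) [∀ i, NeZero (N i)]

/-- the endomorphism of `Λ = O[Δ]` induced by killing the `i`-th coordinate -/
noncomputable def killAlg (i : Fin k) :
    MonoidAlgebra O (Grp N) →ₐ[O] MonoidAlgebra O (Grp N) :=
  MonoidAlgebra.mapDomainAlgHom O O (killGrp N i)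

theorem killAlg_single (i : Fin k) (g : Grp N) (r : O) :
    killAlg O N i (MonoidAlgebra.single g r) = MonoidAlgebra.single (killGrp N i g) r := by
  rw [killAlg, MonoidAlgebra.mapDomainAlgHom_apply, MonoidAlgebra.mapDomain_single]

theorem killAlg_sg (i : Fin k) : killAlg O N i (sg N O i) = 1 := by
  rw [sg, killAlg_single, killGrp_mulSingle]
  rfl

/-- `single (mulSingle i x) 1` is a power of `σ_i` -/
theorem single_mulSingle_eq_pow (i : Fin k) (x : Multiplicative (ZMod (N i))) :
    (MonoidAlgebra.single (Pi.mulSingle i x) 1 : MonoidAlgebra O (Grp N))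
      = sg N O i ^ (Multiplicative.toAdd x).val := by
  rw [sg, MonoidAlgebra.single_pow, one_pow, ← Pi.mulSingle_pow]
  congr 2
  rw [← ofAdd_nsmul, nsmul_eq_mul, mul_one, ZMod.natCast_zmod_val, ofAdd_toAdd]

/-- `l ≡ killAlg l` modulo `(σ_i - 1)` -/
theorem sub_killAlg_mem (i : Fin k) (l : MonoidAlgebra O (Grp N)) :
    l - killAlg O N i l ∈ Ideal.span {sg N O i - 1} := by
  induction l using MonoidAlgebra.induction_on with
  | of g =>
    rw [MonoidAlgebra.of_apply, killAlg_single]
    have h1 : (MonoidAlgebra.single g 1 : MonoidAlgebra O (Grp N))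
        = MonoidAlgebra.single (killGrp N i g) 1 * MonoidAlgebra.single (Pi.mulSingle i (g i)) 1 := by
      rw [MonoidAlgebra.single_mul_single, one_mul, ← eq_killGrp_mul]
    have h2 : (MonoidAlgebra.single g 1 : MonoidAlgebra O (Grp N))
          - MonoidAlgebra.single (killGrp N i g) 1
        = MonoidAlgebra.single (killGrp N i g) 1
            * (sg N O i ^ (Multiplicative.toAdd (g i)).val - 1) := by
      rw [mul_sub, mul_one, ← single_mulSingle_eq_pow, ← h1]
    rw [h2]
    refine Ideal.mul_mem_left _ _ ?_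
    rw [Ideal.mem_span_singleton]
    exact sub_one_dvd_pow_sub_one _ _
  | add y z hy hz =>
    have e : y + z - killAlg O N i (y + z)
        = (y - killAlg O N i y) + (z - killAlg O N i z) := by
      rw [map_add]; abel
    rw [e]
    exact Ideal.add_mem _ hy hz
  | smul r y hy =>
    have e : r • y - killAlg O N i (r • y) = r • (y - killAlg O N i y) := by
      rw [map_smul, smul_sub]
    rw [e]
    exact Submodule.smul_of_tower_mem _ r hy

/-- `(σ_i - 1) Λ = ker killAlg` -/
theorem mem_span_iff_killAlg (i : Fin k) (l : MonoidAlgebra O (Grp N)) :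
    l ∈ Ideal.span {sg N O i - 1} ↔ killAlg O N i l = 0 := by
  constructor
  · intro h
    rw [Ideal.mem_span_singleton] at h
    obtain ⟨c, rfl⟩ := h
    rw [map_mul, map_sub, map_one, killAlg_sg, sub_self, zero_mul]
  · intro h
    have h1 := sub_killAlg_mem O N i l
    rwa [h, sub_zero] at h1

/-- **`Λ / (σ_i - 1)` is `O`-torsion-free** -/
theorem mem_span_of_smul_mem (i : Fin k) (a : O) (ha : ∀ o : O, a * o = 0 → o = 0)
    (l : MonoidAlgebra O (Grp N))
    (h : algebraMap O (MonoidAlgebra O (Grp N)) a * l ∈ Ideal.span {sg N O i - 1}) :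
    l ∈ Ideal.span {sg N O i - 1} := by
  rw [mem_span_iff_killAlg] at h ⊢
  rw [map_mul, AlgHom.commutes, ← Algebra.smul_def] at h
  ext g
  have h1 : a * (killAlg O N i l).coeff g = 0 := by
    have h2 := congrArg (fun f : MonoidAlgebra O (Grp N) => f.coeff g) h
    simpa only [MonoidAlgebra.coeff_smul_apply, smul_eq_mul, MonoidAlgebra.coeff_zero,
      Finsupp.coe_zero, Pi.zero_apply] using h2
  show (killAlg O N i l).coeff g = (0 : O)
  exact ha _ h1

end Alg

section Action

variable {O : Type*} [CommRing O] {M : Type*} [AddCommGroup M] [Module O M]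
  {k : ℕ} (N : Fin k → ℕ) [∀ i, NeZero (N i)]
  (D : Fin k → Module.End O M) (hpow : ∀ i, D i ^ N i = 1) (hcomm : ∀ i j, Commute (D i) (D j))

/-- `gam (σ_i - 1) M = (D_i - 1) M` -/
theorem actSub_span_eq_range (i : Fin k) :
    actSub (gam N D hpow hcomm) (Ideal.span {sg N O i - 1}) = LinearMap.range (D i - 1) := by
  have hg : gam N D hpow hcomm (sg N O i - 1) = D i - 1 := by
    rw [map_sub, map_one, gam_sg]
  refine le_antisymm (Submodule.span_le.mpr ?_) ?_
  · rintro _ ⟨l, hl, m', rfl⟩
    rw [Ideal.mem_span_singleton] at hl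
    obtain ⟨c, rfl⟩ := hl
    rw [map_mul, hg, Module.End.mul_apply]
    exact ⟨_, rfl⟩
  · rintro _ ⟨m', rfl⟩
    rw [← hg]
    exact gam_mem_actSub (gam N D hpow hcomm) (Ideal.span {sg N O i - 1})
      (Ideal.subset_span (Set.mem_singleton _)) m'

include hpow hcomm in
/-- **`M / (D_i - 1) M` is `O`-torsion-free**, basis form. -/
theorem mem_range_sub_one_of_smul_mem {d : ℕ} (e : Fin d → M)
    (b : Module.Basis ((∀ i : Fin k, Fin (N i)) × Fin d) O M)
    (hb : ∀ a j, b (a, j) = (List.ofFn fun i => D i ^ (a i : ℕ)).prod (e j))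
    (i : Fin k) (a : O) (ha : ∀ o : O, a * o = 0 → o = 0) {n : M}
    (h : a • n ∈ LinearMap.range (D i - 1)) : n ∈ LinearMap.range (D i - 1) := by
  rw [← actSub_span_eq_range N D hpow hcomm i] at h ⊢
  exact mem_actSub_of_smul_mem _ e (bijective_actSum_gam N D hpow hcomm e b hb) _ a
    (mem_span_of_smul_mem O N i a ha) h

end Action

section Level

open Module Submodule Fermat.Agent.GB.B3.TWLevel Fermat.Agent.GB.B3.Chi
  Fermat.Agent.GB.B3.MonoCoinv Fermat.Agent.GB.B3.ChiLevelMulti

variable {O : Type} [CommRing O] {𝕋 : Type} [CommRing 𝕋] [Algebra O 𝕋]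
  {M0 : Type} [AddCommGroup M0] [Module O M0] {act0 : 𝕋 →ₐ[O] Module.End O M0}

/-- **`M / (D_i - 1) M` is `O`-torsion-free** for a `FreeLevel`. -/
theorem freeLevel_mem_range_sub_one_of_smul_mem {k : ℕ} {N : Fin k → ℕ}
    (F : FreeLevel O 𝕋 M0 act0 k N) (hN : ∀ i, 0 < N i) (i : Fin k) (a : O)
    (ha : ∀ o : O, a * o = 0 → o = 0) {n : F.M}
    (h : a • n ∈ LinearMap.range (F.D i - 1)) : n ∈ LinearMap.range (F.D i - 1) := by
  haveI : ∀ i : Fin k, NeZero (N i) := fun i => ⟨(hN i).ne'⟩
  exact mem_range_sub_one_of_smul_mem N F.D F.D_pow (fun i j => F.D_comm i j) F.e F.basis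
    F.basis_eq i a ha h

variable {s k : ℕ} {N : Fin (s + k) → ℕ}

/-- **`htf` of `LowerPoint.exists_point_lower`**: the coinvariants `FamCoinv (frD B) γ` of a big level
(`γ v ^ N v = 1` at the framed diamonds) have `O`-torsion-free quotient by `(D_i - 1)` for the
Taylor–Wiles diamond `D_i = quotDM B γ i`. -/
theorem htf_famCoinv (B : FreeLevel O 𝕋 M0 act0 (s + k) N) (hN : ∀ i, 0 < N i)
    (γ : Fin s → O) (hγ : ∀ v, γ v ^ N (Fin.castAdd k v) = 1) (i : Fin k) (a : O)
    (ha : ∀ o : O, a * o = 0 → o = 0) (m : FamCoinv (frD B) γ)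
    (h : a • m ∈ LinearMap.range (quotDM B γ i - 1)) :
    m ∈ LinearMap.range (quotDM B γ i - 1) := by
  classical
  haveI : ∀ i : Fin k, NeZero (N (Fin.natAdd s i)) := fun i => ⟨(hN _).ne'⟩
  have hex := exists_basis_quot (k := s) (N := fun v => N (Fin.castAdd k v)) (fun v => hN _)
    (frD B) (fun _ => B.D_pow _) (fun _ _ => B.D_comm _ _)
    (fun x : (∀ i : Fin k, Fin (N (Fin.natAdd s i))) × Fin B.d =>
      mono (twD B) (fun i => ((x.1 i : Fin (N (Fin.natAdd s i))) : ℕ)) (B.e x.2))
    (B.basis.reindex (appendEquiv N B.d)) (fun a_s x => basis_split B a_s x) γ hγ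
  let bq : Basis ((∀ i : Fin k, Fin (N (Fin.natAdd s i))) × Fin B.d) O (FamCoinv (frD B) γ) :=
    Classical.choose hex
  have hbq : ∀ x, bq x = fmk (frD B) γ
      (mono (twD B) (fun i => ((x.1 i : Fin (N (Fin.natAdd s i))) : ℕ)) (B.e x.2)) :=
    Classical.choose_spec hex
  refine mem_range_sub_one_of_smul_mem (fun i => N (Fin.natAdd s i)) (quotDM B γ) ?_ ?_
    (fun j => fmk (frD B) γ (B.e j)) bq ?_ i a ha h
  · intro i
    show indF (frD B) γ (twD B i) _ ^ N (Fin.natAdd s i) = 1
    rw [← indF_pow]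
    refine indF_ext _ _ fun x => ?_
    rw [indF_fmk]
    have : twD B i ^ N (Fin.natAdd s i) = 1 := B.D_pow _
    rw [this]
    rfl
  · intro i j
    refine indF_ext _ _ fun x => ?_
    show fmk _ _ ((twD B i * twD B j) x) = fmk _ _ ((twD B j * twD B i) x)
    rw [show twD B i * twD B j = twD B j * twD B i from B.D_comm _ _]
  · intro a j
    rw [hbq]
    exact (mono_indF_fmk (frD B) γ (twD B) (fun i v => B.D_comm _ _)
      (fun i => ((a i : Fin (N (Fin.natAdd s i))) : ℕ)) (B.e j)).symm

end Level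

end Fermat.Agent.GB.P5.TorsFree
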