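/-
GATE-B / GB-P5-1PT-TOWERINST (helper67), file 2: **helper49's `LowerPoint.exists_point_lower` at THE
big level of B3** (`Plug.bigLevel` / `Plug.bigReal`), every pure-B3 binder discharged.

`θ = Theta (Δs p e) H.psi (s + k)` the character of the big level, `i : Fin k` a Taylor–Wiles
diamond, `m = Fin.rev (Fin.natAdd s i)` its coordinate in `∏ Δs` (H-index `k - 1 - i`), and
`π : (∀ i', Δs p e i') →* Δ''` ANY homomorphism whose kernel is the `m`-th factor
(`hker : δ ∈ π.ker ↔ ∀ i' ≠ m, δ i' = 1`; e.g. helper44's `piSkip`, or `killHom` below).  Then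

* `chi θ (H.dd m) ∈ π.ker`, of order `p ^ e m = |π.ker|`  (`chi_mem_ker`, `orderOf_chi`, `card_ker`);
* `res ∘ cores = ∑_{t < q} ⟨d_m⟩^t` (`LowerHom.resLin_coresLin_eq_sum_pow`);
* `M / (D_i - 1)` has no `q`-torsion (`TorsFree.htf_famCoinv`);

so **`exists_point_lower_tower`** = `exists_point_lower` with ONLY the Hecke-side binders left
(`T a haD`, `T'' a'' τ τ'' hgen''`, `f f'' hf''loc hint ha ha''`, the point `θpt` and `hθ = Occ₁`).
`exists_point_lower_L1`, `exists_point_lower_Lχ` : the same spelled on `(Plug.tw …).L1`, `.Lχ` with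
`Occ₁` in the `ProviderFlat/G4` shape.
-/
import Mathlib
import Fermat.Agent.GB.B3.Plug
import Fermat.Agent.GB.P5.LowerPoint
import Fermat.Agent.GB.P5.LowerHom
import Fermat.Agent.GB.P5.TorsFree

set_option autoImplicit false
set_option linter.unusedSectionVars false
set_option linter.style.haveILetI false

open scoped MatrixGroups
open CongruenceSubgroup

namespace Fermat.Agent.GB.P5.TowerInst

open Fermat.Agent.GM.B Fermat.Agent.GB.B3 Fermat.Agent.GB.B3.EisGamma0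
  Fermat.Agent.GB.B3.TWLevel Fermat.Agent.GB.B3.RealLevel Fermat.Agent.GB.B3.HeckeActH
  Fermat.Agent.GB.B3.StepInst Fermat.Agent.GB.B3.Tower Fermat.Agent.GB.B3.Final
  Fermat.Agent.GB.B3.TWChars Fermat.Agent.GB.B3.ChiLevelMulti Fermat.Agent.GB.B3.FinalTW
  Fermat.Agent.GB.B3.Plug Fermat.Agent.GB.B3.Base Fermat.Agent.GB.B3.CycInst
  Fermat.Agent.GB.P5.LowerLevel Fermat.Agent.GB.P5.LowerHom

/-! ### the kernel of `π` is the `m`-th factor -/

section Ker

variable {N : ℕ} (Δs : ℕ → Type) [∀ i, CommGroup (Δs i)] (ψ : ∀ i, (ZMod N)ˣ →* Δs i)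
  {j : ℕ} (m : Fin j)

/-- killing the `m`-th coordinate: the basic example of such a `π` -/
def killHom : (∀ i : Fin j, Δs i) →* (∀ i : Fin j, Δs i) where
  toFun δ := Function.update δ m 1
  map_one' := by
    funext i
    by_cases hi : i = m
    · rw [hi, Function.update_self]; rfl
    · rw [Function.update_of_ne hi]
  map_mul' δ δ' := by
    funext i
    by_cases hi : i = m
    · rw [hi, Pi.mul_apply, Function.update_self, Function.update_self, Function.update_self,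
        one_mul]
    · rw [Pi.mul_apply, Function.update_of_ne hi, Function.update_of_ne hi,
        Function.update_of_ne hi, Pi.mul_apply]

theorem mem_ker_killHom (δ : ∀ i : Fin j, Δs i) :
    δ ∈ (killHom Δs m).ker ↔ ∀ i', i' ≠ m → δ i' = 1 := by
  rw [MonoidHom.mem_ker]
  constructor
  · intro h i' hi'
    have h1 := congrFun h i'
    change Function.update δ m 1 i' = 1 at h1
    rwa [Function.update_of_ne hi'] at h1
  · intro h
    funext i'
    show Function.update δ m 1 i' = 1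
    by_cases hi' : i' = m
    · rw [hi', Function.update_self]
    · rw [Function.update_of_ne hi']; exact h i' hi'

variable {Δ'' : Type} [CommGroup Δ''] (π : (∀ i : Fin j, Δs i) →* Δ'')
  (hker : ∀ δ : (∀ i : Fin j, Δs i), δ ∈ π.ker ↔ ∀ i', i' ≠ m → δ i' = 1)

include hker in
theorem mulSingle_mem_ker (g : Δs m) :
    Pi.mulSingle (M := fun i : Fin j => Δs i) m g ∈ π.ker :=
  (hker _).2 fun _ hi' => Pi.mulSingle_eq_of_ne (M := fun i : Fin j => Δs i) hi' g

include hker in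
theorem eq_mulSingle_of_mem_ker (δ : ∀ i : Fin j, Δs i) (hδ : δ ∈ π.ker) :
    Pi.mulSingle (M := fun i : Fin j => Δs i) m (δ m) = δ := by
  funext i'
  by_cases hi' : i' = m
  · rw [hi']
    exact Pi.mulSingle_eq_same (M := fun i : Fin j => Δs i) m _
  · rw [Pi.mulSingle_eq_of_ne (M := fun i : Fin j => Δs i) hi', (hker δ).1 hδ i' hi']

/-- `ker π ≃ Δs m` -/
def kerEquivAt
    (hker : ∀ δ : (∀ i : Fin j, Δs i), δ ∈ π.ker ↔ ∀ i', i' ≠ m → δ i' = 1) : π.ker ≃ Δs m where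
  toFun δ := δ.1 m
  invFun g := ⟨Pi.mulSingle (M := fun i : Fin j => Δs i) m g, mulSingle_mem_ker Δs m π hker g⟩
  left_inv δ := Subtype.ext (eq_mulSingle_of_mem_ker Δs m π hker δ.1 δ.2)
  right_inv g := Pi.mulSingle_eq_same (M := fun i : Fin j => Δs i) m g

include hker in
theorem card_ker : Nat.card π.ker = Nat.card (Δs m) :=
  Nat.card_congr (kerEquivAt Δs m π hker)

variable (dd : ℕ → Gamma0 N) (hoff : ∀ i i', i ≠ i' → ψ i (dUnits N (dd i')) = 1)

include hker hoff in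
theorem chi_mem_ker : chi (Theta Δs ψ j) (dd m) ∈ π.ker := by
  refine (hker _).2 fun i' hi' => ?_
  show ψ i' (dUnits N (dd m)) = 1
  exact hoff _ _ fun h => hi' (Fin.ext h)

include hoff in
theorem orderOf_chi :
    orderOf (chi (Theta Δs ψ j) (dd m)) = orderOf (ψ m (dUnits N (dd m))) := by
  have hval : ∀ i' : Fin j, chi (Theta Δs ψ j) (dd m) i' = ψ i' (dUnits N (dd m)) := fun _ => rfl
  refine orderOf_eq_orderOf_iff.2 fun n => ?_
  constructor
  · intro h
    have h1 := congrFun h m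
    rw [Pi.pow_apply, hval] at h1
    exact h1
  · intro h
    funext i'
    rw [Pi.pow_apply, hval, Pi.one_apply]
    by_cases hi' : i' = m
    · subst hi'; exact h
    · rw [hoff _ _ fun h' => hi' (Fin.ext h'), one_pow]

end Ker

/-! ### the instance at the big level of B3 -/

section Main

variable {N p : ℕ} [NeZero N] [hpF : Fact p.Prime] {K : ℕ} {r e N' : ℕ → ℕ}
variable (Sy : Symbols N)
variable {O : Type} [CommRing O] [IsDomain O] [IsPrincipalIdealRing O] [IsLocalRing O]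
  [IsAdicComplete (IsLocalRing.maximalIdeal O) O] [Module.IsTorsionFree ℤ O]
variable (𝔪 : Ideal (Sy.𝕋 O)) [𝔪.IsMaximal]
variable (H : PrimeData N p K r e N') {ϖ : O} {s0 : Sy.ι₁} (h : Hyp Sy 𝔪 p ϖ s0)
variable (s k : ℕ) {Δ'' : Type} [CommGroup Δ''] (π : (∀ i : Fin (s + k), Δs p e i) →* Δ'')

/-- the diamonds of the lower level `GammaH (π ∘ θ)` : the SAME elements `dfun (H.dd) (s + k) i'` -/
noncomputable def diaLow (i' : Fin (s + k)) :
    Module.End O (Additive (GamH.GammaH (π.comp (Theta (Δs p e) H.psi (s + k)))) →+ O) :=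
  diaLin O (π.comp (Theta (Δs p e) H.psi (s + k))) (dfun (H.dd hpF.out) (s + k) i')

/-- the diamonds commute with the Hecke symbols (any level `GammaH θ'`) -/
theorem diaLin_act {Δ' : Type} [CommGroup Δ'] (θ' : (ZMod N)ˣ →* Δ') (d : Gamma0 N)
    (t : Sy.𝕋 O) : diaLin O θ' d * actH Sy O θ' t = actH Sy O θ' t * diaLin O θ' d := by
  refine LinearMap.ext fun x => ?_
  exact diaH_act Sy O θ' d t x

theorem diaLow_act (i' : Fin (s + k)) (t : Sy.𝕋 O) :
    diaLow (O := O) H s k π i' * actH Sy O (π.comp (Theta (Δs p e) H.psi (s + k))) t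
      = actH Sy O (π.comp (Theta (Δs p e) H.psi (s + k))) t * diaLow (O := O) H s k π i' :=
  diaLin_act Sy _ _ t

/-- the coordinate of the Taylor–Wiles diamond `i` -/
theorem val_rev_natAdd (i : Fin k) :
    s + k - 1 - ((Fin.natAdd s i : Fin (s + k)) : ℕ) = ((Fin.rev (Fin.natAdd s i) : Fin (s + k)) : ℕ) := by
  rw [Fin.val_rev]
  omega

/-- **level lowering of a point at a trivial Taylor–Wiles diamond, at the big level of B3.** -/
theorem exists_point_lower_tower (i : Fin k)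
    (hker : ∀ δ : (∀ i' : Fin (s + k), Δs p e i'),
      δ ∈ π.ker ↔ ∀ i', i' ≠ Fin.rev (Fin.natAdd s i) → δ i' = 1)
    (γ : Fin s → O) (hγ : ∀ v, γ v ^ Nfun p e (s + k) (Fin.castAdd k v) = 1)
    {T T'' : Type*} [CommRing T] [Algebra O T] [CommRing T''] [Algebra O T'']
    (a : T →ₐ[O] Module.End O (FamCoinv (frD (bigLevel Sy 𝔪 H h (s + k))) γ))
    (haD : ∀ t, a t * quotDM (bigLevel Sy 𝔪 H h (s + k)) γ i
      = quotDM (bigLevel Sy 𝔪 H h (s + k)) γ i * a t)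
    (a'' : T'' →ₐ[O] Module.End O
      (Y (𝔪 := 𝔪) (actH Sy O (π.comp (Theta (Δs p e) H.psi (s + k))))
        (diaLow (O := O) H s k π) (diaLow_act Sy H s k π) γ))
    {ι : Type*} (τ : ι → T) (τ'' : ι → T'')
    (hgen'' : Algebra.adjoin O (Set.range τ'') = ⊤)
    (f : ι → Module.End O (Additive (GamH.GammaH (Theta (Δs p e) H.psi (s + k))) →+ O))
    (f'' : ι → Module.End O
      (Additive (GamH.GammaH (π.comp (Theta (Δs p e) H.psi (s + k)))) →+ O))
    (hf''loc : ∀ j y, IsLoc (actH Sy O (π.comp (Theta (Δs p e) H.psi (s + k)))) 𝔪 y →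
      IsLoc (actH Sy O (π.comp (Theta (Δs p e) H.psi (s + k)))) 𝔪 (f'' j y))
    (hint : ∀ j y, resLin O (Theta (Δs p e) H.psi (s + k)) π (f'' j y)
      = f j (resLin O (Theta (Δs p e) H.psi (s + k)) π y))
    (ha : ∀ j (x x' : (bigLevel Sy 𝔪 H h (s + k)).M),
      (bigReal Sy 𝔪 H h (s + k)).ι x' = f j ((bigReal Sy 𝔪 H h (s + k)).ι x) →
      a (τ j) (fmk (frD (bigLevel Sy 𝔪 H h (s + k))) γ x)
        = fmk (frD (bigLevel Sy 𝔪 H h (s + k))) γ x')
    (ha'' : ∀ j (y y' : Plow (𝔪 := 𝔪) (actH Sy O (π.comp (Theta (Δs p e) H.psi (s + k))))),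
      (y' : Additive (GamH.GammaH (π.comp (Theta (Δs p e) H.psi (s + k)))) →+ O)
        = f'' j (y : Additive (GamH.GammaH (π.comp (Theta (Δs p e) H.psi (s + k)))) →+ O) →
      a'' (τ'' j) (fmk _ γ y) = fmk _ γ y')
    {Ω : Type*} [CommRing Ω] [Algebra O Ω] (θpt : T →ₐ[O] Ω)
    (hθ : ∀ r : T, (∀ m, a r m ∈
      LinearMap.range (quotDM (bigLevel Sy 𝔪 H h (s + k)) γ i - 1)) → θpt r = 0) :
    ∃ θ'' : T'' →ₐ[O] Ω, ∀ j, θ'' (τ'' j) = θpt (τ j) := by
  classical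
  haveI : Fintype π.ker := Fintype.ofFinite _
  have hm := val_rev_natAdd s k i
  have hdm : dfun (H.dd hpF.out) (s + k) (Fin.natAdd s i)
      = H.dd hpF.out ((Fin.rev (Fin.natAdd s i) : Fin (s + k)) : ℕ) := by
    rw [dfun_apply, hm]
  have hqm : Nfun p e (s + k) (Fin.natAdd s i)
      = p ^ e ((Fin.rev (Fin.natAdd s i) : Fin (s + k)) : ℕ) := by
    rw [Nfun_apply, hm]
  have hd0 : chi (Theta (Δs p e) H.psi (s + k))
      (dfun (H.dd hpF.out) (s + k) (Fin.natAdd s i)) ∈ π.ker := by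
    rw [hdm]
    exact chi_mem_ker (Δs p e) H.psi _ π hker (H.dd hpF.out) (H.psi_dd_of_ne hpF.out)
  have hord : orderOf (chi (Theta (Δs p e) H.psi (s + k))
      (dfun (H.dd hpF.out) (s + k) (Fin.natAdd s i))) = Nfun p e (s + k) (Fin.natAdd s i) := by
    rw [hdm, hqm, orderOf_chi (Δs p e) H.psi _ (H.dd hpF.out) (H.psi_dd_of_ne hpF.out),
      H.orderOf_psi_dd hpF.out]
  have hcard : Fintype.card π.ker = Nfun p e (s + k) (Fin.natAdd s i) := by
    rw [hqm, Fintype.card_eq_nat_card, card_ker (Δs p e) _ π hker]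
    exact H.card_target hpF.out _
  have hb := pow_bijectiveKK (chi (Theta (Δs p e) H.psi (s + k))) π
    (Nfun p e (s + k) (Fin.natAdd s i)) (dfun (H.dd hpF.out) (s + k) (Fin.natAdd s i))
    hd0 hord hcard
  let rep : π.ker → Gamma0 N := fun δ =>
    dfun (H.dd hpF.out) (s + k) (Fin.natAdd s i) ^ ((hb.2 δ).choose : ℕ)
  have hrep : ∀ δ : π.ker, chi (Theta (Δs p e) H.psi (s + k)) (rep δ)
      = (δ : ∀ i' : Fin (s + k), Δs p e i') := by
    intro δ
    have h1 := (hb.2 δ).choose_spec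
    show chi (Theta (Δs p e) H.psi (s + k))
      (dfun (H.dd hpF.out) (s + k) (Fin.natAdd s i) ^ ((hb.2 δ).choose : ℕ)) = _
    rw [map_pow]
    exact congrArg Subtype.val h1
  have hq0 : ((Nfun p e (s + k) (Fin.natAdd s i) : ℕ) : O) ≠ 0 := by
    rw [hqm, Nat.cast_pow]
    exact pow_ne_zero _ h.hp0
  exact LowerPoint.exists_point_lower (bigReal Sy 𝔪 H h (s + k))
    (actH Sy O (π.comp (Theta (Δs p e) H.psi (s + k)))) (diaLow (O := O) H s k π)
    (diaLow_act Sy H s k π)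
    (resLin O (Theta (Δs p e) H.psi (s + k)) π)
    (coresLin O (Theta (Δs p e) H.psi (s + k)) π rep hrep)
    (fun t y => resLin_act O (Theta (Δs p e) H.psi (s + k)) π Sy t y)
    (fun t x => coresLin_act O (Theta (Δs p e) H.psi (s + k)) π rep hrep Sy t x)
    (fun i' y => resLin_dia O (Theta (Δs p e) H.psi (s + k)) π _ y)
    (fun i' x => coresLin_dia O (Theta (Δs p e) H.psi (s + k)) π rep hrep _ x)
    γ i (Nfun p e (s + k) (Fin.natAdd s i))
    (fun x => resLin_coresLin_eq_sum_pow O (Theta (Δs p e) H.psi (s + k)) π rep hrep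
      (Nfun p e (s + k) (Fin.natAdd s i)) (dfun (H.dd hpF.out) (s + k) (Fin.natAdd s i))
      hd0 hord hcard x)
    (fun m hm' => TorsFree.htf_famCoinv (bigLevel Sy 𝔪 H h (s + k)) (Nfun_pos hpF.out e (s + k)) γ hγ
      i _ (fun o ho => (mul_eq_zero.1 ho).resolve_left hq0) m hm')
    a haD a'' τ τ'' hgen'' f f'' hf''loc hint ha ha'' θpt hθ

/-! ### the two levels of `Plug.tw` -/

variable (c : Fin s → O) (hc : ∀ v : Fin s, c v ^ p ^ e (s + k - 1 - v) = 1)
  (hc1 : ∀ v, (1 : O) - c v ∈ Ideal.span {ϖ})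

/-- **(1pt), module half, on `M¹_Q = (Plug.tw …).L1`** (`hθ` = `ProviderFlat/G4.Occ₁ … .L1 a i θpt`). -/
theorem exists_point_lower_L1 (i : Fin k)
    (hker : ∀ δ : (∀ i' : Fin (s + k), Δs p e i'),
      δ ∈ π.ker ↔ ∀ i', i' ≠ Fin.rev (Fin.natAdd s i) → δ i' = 1)
    {T T'' : Type*} [CommRing T] [Algebra O T] [CommRing T''] [Algebra O T'']
    (a : T →ₐ[O] Module.End O (tw Sy 𝔪 H h s k c hc hc1).L1.M)
    (haD : ∀ t, a t * (tw Sy 𝔪 H h s k c hc hc1).L1.D i
      = (tw Sy 𝔪 H h s k c hc hc1).L1.D i * a t)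
    (a'' : T'' →ₐ[O] Module.End O
      (Y (𝔪 := 𝔪) (actH Sy O (π.comp (Theta (Δs p e) H.psi (s + k))))
        (diaLow (O := O) H s k π) (diaLow_act Sy H s k π) (fun _ => (1 : O))))
    {ι : Type*} (τ : ι → T) (τ'' : ι → T'')
    (hgen'' : Algebra.adjoin O (Set.range τ'') = ⊤)
    (f : ι → Module.End O (Additive (GamH.GammaH (Theta (Δs p e) H.psi (s + k))) →+ O))
    (f'' : ι → Module.End O
      (Additive (GamH.GammaH (π.comp (Theta (Δs p e) H.psi (s + k)))) →+ O))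
    (hf''loc : ∀ j y, IsLoc (actH Sy O (π.comp (Theta (Δs p e) H.psi (s + k)))) 𝔪 y →
      IsLoc (actH Sy O (π.comp (Theta (Δs p e) H.psi (s + k)))) 𝔪 (f'' j y))
    (hint : ∀ j y, resLin O (Theta (Δs p e) H.psi (s + k)) π (f'' j y)
      = f j (resLin O (Theta (Δs p e) H.psi (s + k)) π y))
    (ha : ∀ j (x x' : (bigLevel Sy 𝔪 H h (s + k)).M),
      (bigReal Sy 𝔪 H h (s + k)).ι x' = f j ((bigReal Sy 𝔪 H h (s + k)).ι x) →
      a (τ j) (fmk (frD (bigLevel Sy 𝔪 H h (s + k))) (fun _ => (1 : O)) x)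
        = fmk (frD (bigLevel Sy 𝔪 H h (s + k))) (fun _ => (1 : O)) x')
    (ha'' : ∀ j (y y' : Plow (𝔪 := 𝔪) (actH Sy O (π.comp (Theta (Δs p e) H.psi (s + k))))),
      (y' : Additive (GamH.GammaH (π.comp (Theta (Δs p e) H.psi (s + k)))) →+ O)
        = f'' j (y : Additive (GamH.GammaH (π.comp (Theta (Δs p e) H.psi (s + k)))) →+ O) →
      a'' (τ'' j) (fmk _ (fun _ => (1 : O)) y) = fmk _ (fun _ => (1 : O)) y')
    {Ω : Type*} [CommRing Ω] [Algebra O Ω] (θpt : T →ₐ[O] Ω)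
    (hθ : ∀ r : T, (∀ m, a r m ∈
      LinearMap.range ((tw Sy 𝔪 H h s k c hc hc1).L1.D i - 1)) → θpt r = 0) :
    ∃ θ'' : T'' →ₐ[O] Ω, ∀ j, θ'' (τ'' j) = θpt (τ j) :=
  exists_point_lower_tower Sy 𝔪 H h s k π i hker (fun _ => (1 : O)) (fun _ => one_pow _)
    a haD a'' τ τ'' hgen'' f f'' hf''loc hint ha ha'' θpt hθ

/-- **(1pt), module half, on `M^χ_Q = (Plug.tw …).Lχ`** (`hθ` = `ProviderFlat/G4.Occ₁ … .Lχ a i θpt`). -/
theorem exists_point_lower_Lχ (i : Fin k)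
    (hker : ∀ δ : (∀ i' : Fin (s + k), Δs p e i'),
      δ ∈ π.ker ↔ ∀ i', i' ≠ Fin.rev (Fin.natAdd s i) → δ i' = 1)
    {T T'' : Type*} [CommRing T] [Algebra O T] [CommRing T''] [Algebra O T'']
    (a : T →ₐ[O] Module.End O (tw Sy 𝔪 H h s k c hc hc1).Lχ.M)
    (haD : ∀ t, a t * (tw Sy 𝔪 H h s k c hc hc1).Lχ.D i
      = (tw Sy 𝔪 H h s k c hc hc1).Lχ.D i * a t)
    (a'' : T'' →ₐ[O] Module.End O
      (Y (𝔪 := 𝔪) (actH Sy O (π.comp (Theta (Δs p e) H.psi (s + k))))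
        (diaLow (O := O) H s k π) (diaLow_act Sy H s k π) c))
    {ι : Type*} (τ : ι → T) (τ'' : ι → T'')
    (hgen'' : Algebra.adjoin O (Set.range τ'') = ⊤)
    (f : ι → Module.End O (Additive (GamH.GammaH (Theta (Δs p e) H.psi (s + k))) →+ O))
    (f'' : ι → Module.End O
      (Additive (GamH.GammaH (π.comp (Theta (Δs p e) H.psi (s + k)))) →+ O))
    (hf''loc : ∀ j y, IsLoc (actH Sy O (π.comp (Theta (Δs p e) H.psi (s + k)))) 𝔪 y →
      IsLoc (actH Sy O (π.comp (Theta (Δs p e) H.psi (s + k)))) 𝔪 (f'' j y))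
    (hint : ∀ j y, resLin O (Theta (Δs p e) H.psi (s + k)) π (f'' j y)
      = f j (resLin O (Theta (Δs p e) H.psi (s + k)) π y))
    (ha : ∀ j (x x' : (bigLevel Sy 𝔪 H h (s + k)).M),
      (bigReal Sy 𝔪 H h (s + k)).ι x' = f j ((bigReal Sy 𝔪 H h (s + k)).ι x) →
      a (τ j) (fmk (frD (bigLevel Sy 𝔪 H h (s + k))) c x)
        = fmk (frD (bigLevel Sy 𝔪 H h (s + k))) c x')
    (ha'' : ∀ j (y y' : Plow (𝔪 := 𝔪) (actH Sy O (π.comp (Theta (Δs p e) H.psi (s + k))))),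
      (y' : Additive (GamH.GammaH (π.comp (Theta (Δs p e) H.psi (s + k)))) →+ O)
        = f'' j (y : Additive (GamH.GammaH (π.comp (Theta (Δs p e) H.psi (s + k)))) →+ O) →
      a'' (τ'' j) (fmk _ c y) = fmk _ c y')
    {Ω : Type*} [CommRing Ω] [Algebra O Ω] (θpt : T →ₐ[O] Ω)
    (hθ : ∀ r : T, (∀ m, a r m ∈
      LinearMap.range ((tw Sy 𝔪 H h s k c hc hc1).Lχ.D i - 1)) → θpt r = 0) :
    ∃ θ'' : T'' →ₐ[O] Ω, ∀ j, θ'' (τ'' j) = θpt (τ j) :=
  exists_point_lower_tower Sy 𝔪 H h s k π i hker c (hc_Nfun s k c hc)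
    a haD a'' τ τ'' hgen'' f f'' hf''loc hint ha ha'' θpt hθ

end Main

end Fermat.Agent.GB.P5.TowerInst
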